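import Fermat.Agent.CFT.LD.Extra
import Fermat.Agent.CFT.Local.FormInst
import Fermat.Agent.CFT.Unram.Hom

/-!
# Local duality for `ℚ_q` with coefficients killed by an odd prime `p`
-/

set_option autoImplicit false
set_option linter.unusedSectionVars false

namespace Fermat.Agent.CFT.LD

open Fermat.Agent.CFT.LC Fermat.Agent.CFT.Local Fermat.Agent.CFT.Unram Module ExtCitation
open Fermat.Agent.CFT.PT (mu mu_apply mu_comp)

section Nat

variable (q : ℕ) [Fact q.Prime] (p : ℕ) [hp : Fact p.Prime] (hp2 : p ≠ 2)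

/-- the local cyclotomic character -/
noncomputable abbrev locChar : (PadicAlgCl q ≃ₐ[ℚ_[q]] PadicAlgCl q) →* (ZMod p)ˣ :=
  (cycloChar p).comp (localGaloisToGlobal q)

include hp2 in
theorem exists_H2_mu_ne :
    ∃ t : LC.H2 (mu (locChar q p)) (lvlOver (localGaloisToGlobal q)), t ≠ 0 := by
  obtain ⟨θ, hθ, -, -, hθo⟩ := exists_unr_hom_top q hp.out.ne_zero
  refine (formPadic q p hp2).exists_ne_of_hom hθo ?_
  rintro rfl
  obtain ⟨g, hg⟩ := hθ (Multiplicative.ofAdd 1)
  have h1 : (0 : ZMod p) = 1 := congrArg Multiplicative.toAdd hg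
  exact zero_ne_one h1

include hp2 in
theorem finrank_H2_mu_padic :
    finrank (ZMod p) (LC.H2 (mu (locChar q p)) (lvlOver (localGaloisToGlobal q))) = 1 :=
  (formPadic q p hp2).finrank_H2_mu (exists_H2_mu_ne q p hp2)

include hp2 in
theorem exists_inv_padic :
    Nonempty (LC.H2 (mu (locChar q p)) (lvlOver (localGaloisToGlobal q)) ≃ₗ[ZMod p] ZMod p) :=
  (formPadic q p hp2).exists_inv (exists_H2_mu_ne q p hp2)

/-- **Local duality over `ℚ_q`** -/
noncomputable def localDualityPadic
    (inv : LC.H2 (mu (locChar q p)) (lvlOver (localGaloisToGlobal q)) ≃ₗ[ZMod p] ZMod p) :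
    PT.LocalDuality (lvlOver (localGaloisToGlobal q)) (locChar q p) (if p = q then 1 else 0) :=
  (formPadic q p hp2).localDuality inv

@[simp] theorem localDualityPadic_inv
    (inv : LC.H2 (mu (locChar q p)) (lvlOver (localGaloisToGlobal q)) ≃ₗ[ZMod p] ZMod p) :
    (localDualityPadic q p hp2 inv).inv = inv.toLinearMap := rfl

end Nat

section Primes

variable (q : Nat.Primes) (p : ℕ) [hp : Fact p.Prime] (hp2 : p ≠ 2)

include hp2 in
theorem finrank_H2_mu_prime :
    finrank (ZMod p) (LC.H2 (mu ((cycloChar p).comp (primeLocalToGlobal q)))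
      (lvlOver (primeLocalToGlobal q))) = 1 :=
  have : Fact (q : ℕ).Prime := ⟨q.2⟩
  finrank_H2_mu_padic (q : ℕ) p hp2

include hp2 in
theorem exists_inv_prime :
    Nonempty (LC.H2 (mu ((cycloChar p).comp (primeLocalToGlobal q)))
      (lvlOver (primeLocalToGlobal q)) ≃ₗ[ZMod p] ZMod p) :=
  have : Fact (q : ℕ).Prime := ⟨q.2⟩
  exists_inv_padic (q : ℕ) p hp2

/-- **Local duality over `ℚ_q`**, with the group `primeLocalGaloisGroup q`. -/
noncomputable def localDualityPrime
    (inv : LC.H2 (mu ((cycloChar p).comp (primeLocalToGlobal q)))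
      (lvlOver (primeLocalToGlobal q)) ≃ₗ[ZMod p] ZMod p) :
    PT.LocalDuality (lvlOver (primeLocalToGlobal q)) ((cycloChar p).comp (primeLocalToGlobal q))
      (if p = (q : ℕ) then 1 else 0) :=
  have : Fact (q : ℕ).Prime := ⟨q.2⟩
  localDualityPadic (q : ℕ) p hp2 inv

theorem localDualityPrime_inv
    (inv : LC.H2 (mu ((cycloChar p).comp (primeLocalToGlobal q)))
      (lvlOver (primeLocalToGlobal q)) ≃ₗ[ZMod p] ZMod p) :
    (localDualityPrime q p hp2 inv).inv = inv.toLinearMap := rfl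

end Primes

end Fermat.Agent.CFT.LD
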