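import Fermat.Agent.CFT.LD.TorsTrans

/-!
# The symbol pairing on `G`-sets
-/

set_option autoImplicit false
set_option linter.unusedSectionVars false

namespace Fermat.Agent.CFT.LD

open Fermat.Agent.CFT.LC Module
open Fermat.Agent.CFT.PT (mu mu_apply)

variable {p : ℕ} [hp : Fact p.Prime] {G : Type} [Group G] {L : Lvl G}
variable {X Y : Type} [MulAction G X] [MulAction G Y]
variable {A : Type} [AddCommGroup A] {ρ : Representation ℤ G A} {χ₀ : G →* (ZMod p)ˣ} {δ : ℕ}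

/-- the symbol pairing -/
noncomputable def beta [Finite X] (hM : Smooth L (mu χ₀)) (hX : SmoothSet L X) :
    H1 (FX p G X) L →ₗ[ZMod p] H1 (MX χ₀ X) L →ₗ[ZMod p] H2 (MX χ₀ X) L :=
  cup11 (isPairing_FX (mu χ₀) X) (Smooth.mapRep hM hX)

section Basic

variable [Finite X] [Finite Y] (hM : Smooth L (mu χ₀)) (hX : SmoothSet L X)
  (hY : SmoothSet L Y)

theorem beta_mk (χ : Z1 (FX p G X) L) (ψ : Z1 (MX χ₀ X) L) :
    beta hM hX (H1.mk (FX p G X) L χ) (H1.mk (MX χ₀ X) L ψ) =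
      H2.mk (MX χ₀ X) L (cupZ11 (isPairing_FX (mu χ₀) X) (Smooth.mapRep hM hX) χ ψ) := rfl

theorem pull_beta (φ : Y → X) (hφ : ∀ (g : G) y, φ (g • y) = g • φ y)
    (c : H1 (FX p G X) L) (d : H1 (MX χ₀ X) L) :
    (pullM (mu χ₀) L φ hφ).H2 (beta hM hX c d) =
      beta hM hY ((pullM (tr p G) L φ hφ).H1 c) ((pullM (mu χ₀) L φ hφ).H1 d) := by
  obtain ⟨χ, rfl⟩ := H1.mk_surjective c
  obtain ⟨ψ, rfl⟩ := H1.mk_surjective d
  rw [beta_mk, Mor.H2_mk, Mor.H1_mk, Mor.H1_mk, beta_mk]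
  congr 1
  ext q y
  show χ.1 q.1 (φ y) • mu χ₀ q.1 (ψ.1 q.2 (q.1⁻¹ • φ y)) =
    χ.1 q.1 (φ y) • mu χ₀ q.1 (ψ.1 q.2 (φ (q.1⁻¹ • y)))
  rw [hφ]

theorem push_beta (φ : Y → X) (hφ : ∀ (g : G) y, φ (g • y) = g • φ y)
    (c : H1 (FX p G X) L) (d : H1 (MX χ₀ Y) L) :
    (pushM (mu χ₀) L φ hφ).H2 (beta hM hY ((pullM (tr p G) L φ hφ).H1 c) d) =
      beta hM hX c ((pushM (mu χ₀) L φ hφ).H1 d) := by
  obtain ⟨χ, rfl⟩ := H1.mk_surjective c
  obtain ⟨ψ, rfl⟩ := H1.mk_surjective d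
  rw [Mor.H1_mk, beta_mk, Mor.H2_mk, Mor.H1_mk, beta_mk]
  congr 1
  ext q : 2
  have h1 := push_mul (k := ZMod p) (smulB p (ZMod p)) φ (χ.1 q.1)
    (mapRep (mu χ₀) Y q.1 (ψ.1 q.2))
  rw [push_equiv (mu χ₀) hφ] at h1
  exact h1

variable (χ : Z1 (FX p G X) L)

/-- the projection of the torsor -/
theorem pt_equiv (g : G) (y : Tors χ) : (g • y).pt = g • y.pt := rfl

theorem pull_self : (pullM (tr p G) L (Tors.pt (χ := χ)) (pt_equiv χ)).H1
    (H1.mk (FX p G X) L χ) = 0 := by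
  rw [Mor.H1_mk, H1.mk_eq_zero_iff]
  refine ⟨fun y => -y.ix, fun g => funext fun y => ?_⟩
  show χ.1 g y.pt = -(g⁻¹ • y).ix - -y.ix
  rw [Tors.inv_smul_ix]
  ring

theorem pull_beta_self (d : H1 (MX χ₀ X) L) :
    (pullM (mu χ₀) L (Tors.pt (χ := χ)) (pt_equiv χ)).H2
      (beta hM hX (H1.mk (FX p G X) L χ) d) = 0 := by
  rw [pull_beta hM hX (Tors.smoothSet χ hX), pull_self, map_zero, LinearMap.zero_apply]

end Basic

section Form

variable (F : Form p L ρ χ₀ δ) [Finite X] [Nonempty X] [MulAction.IsPretransitive G X]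
  (hX : SmoothSet L X) {χ : Z1 (FX p G X) L} (hχ : H1.mk (FX p G X) L χ ≠ 0)

include hχ in
theorem Form.beta_kum_iff (a : ↥(H0 (mapRep ρ X))) :
    beta F.smooth_mu hX (H1.mk (FX p G X) L χ) (F.kum hX a) = 0 ↔ a ∈ normGrp ρ χ := by
  have := isPretransitive_tors hχ
  obtain ⟨ψ, F₁, h1, h2, h3⟩ := F.exists_kum_eq hX a
  rw [h3, beta_mk, H2.mk_eq_zero_iff, mem_normGrp, ← h2]
  exact symbol_coboundary_iff F.smooth hX (F.h90X hX) F.div χ
    (F.h90X (Tors.smoothSet χ hX)) h1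

include hχ in
theorem Form.finrank_range_beta :
    finrank (ZMod p) (LinearMap.range (beta F.smooth_mu hX (H1.mk (FX p G X) L χ))) = 1 := by
  set f := beta F.smooth_mu hX (H1.mk (FX p G X) L χ) with hf
  have h1 : (LinearMap.ker f).toAddSubgroup.index = p := by
    refine Eq.trans ?_ (F.normX hX hχ)
    rw [← AddSubgroup.index_comap_of_surjective _ (F.kum_surjective hX)]
    congr 1
    ext a
    exact F.beta_kum_iff hX hχ a
  have h2 : Nat.card (LinearMap.range f) = p := by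
    rw [← Nat.card_congr f.quotKerEquivRange.toEquiv]
    exact h1
  have h3 : Finite (LinearMap.range f) := Nat.finite_of_card_ne_zero (by
    rw [h2]; exact hp.out.ne_zero)
  have h4 := Module.natCard_eq_pow_finrank (K := ZMod p) (V := LinearMap.range f)
  rw [h2, Nat.card_zmod] at h4
  exact (Nat.pow_right_injective hp.out.two_le (by simpa using h4)).symm

include hχ in
theorem Form.exists_beta (t : H2 (MX χ₀ X) L)
    (ht : (pullM (mu χ₀) L (Tors.pt (χ := χ)) (pt_equiv χ)).H2 t = 0) :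
    ∃ d, t = beta F.smooth_mu hX (H1.mk (FX p G X) L χ) d := by
  have := isPretransitive_tors hχ
  obtain ⟨c, rfl⟩ := H2.mk_surjective t
  rw [Mor.H2_mk, H2.mk_eq_zero_iff] at ht
  obtain ⟨z, hz, hz'⟩ := ht
  obtain ⟨ψ, v, hv, hv'⟩ := exists_symbol F.smooth hX (F.h90X hX) F.div F.μ χ
    (F.h90X (Tors.smoothSet χ hX)) (c := c.1) hz
    (fun q y => (congrFun (congrFun hz' q) y).symm)
  refine ⟨H1.mk (MX χ₀ X) L ψ, ?_⟩
  rw [beta_mk, ← sub_eq_zero, ← map_sub, H2.mk_eq_zero_iff]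
  refine ⟨v, hv, ?_⟩
  show _ = c.1 - cupC11 _ _ _ _
  rw [hv']
  abel

/-- dimension of `H¹` -/
theorem Form.finrank_H1 (x₀ : X) (h0 : MulAction.stabilizer G x₀ ≤ χ₀.ker) (F : Form p L ρ χ₀ δ)
    (hX : SmoothSet L X) :
    FiniteDimensional (ZMod p) (H1 (MX χ₀ X) L) ∧
      finrank (ZMod p) (H1 (MX χ₀ X) L) = 2 + δ * Nat.card X := by
  have h1 := F.cardX hX x₀ h0
  have h3 : Finite (H1 (MX χ₀ X) L) := Nat.finite_of_card_ne_zero (by
    rw [h1]; exact pow_ne_zero _ hp.out.ne_zero)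
  have h5 : FiniteDimensional (ZMod p) (H1 (MX χ₀ X) L) := Module.Finite.of_finite
  refine ⟨h5, ?_⟩
  have h4 := Module.natCard_eq_pow_finrank (K := ZMod p) (V := H1 (MX χ₀ X) L)
  rw [h1, Nat.card_zmod] at h4
  exact (Nat.pow_right_injective hp.out.two_le h4).symm

end Form

section KumPush

variable [Finite X] [Finite Y]

theorem IsKum.push {μ : MuMod ρ (mu χ₀)} {ψ : G → Y → ZMod p} {F₁ : Y → A}
    (h : IsKum μ ψ F₁) (φ : Y → X) (hφ : ∀ (g : G) y, φ (g • y) = g • φ y) :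
    IsKum μ (fun g => LD.push (ZMod p) φ (ψ g)) (LD.push ℤ φ F₁) := by
  intro g x
  have h1 : (fun y => μ.j (ψ g y)) = mapRep ρ Y g F₁ - F₁ := funext fun y => h g y
  have h2 := congrFun (push_naturality (k := ℤ) (M := ZMod p) (M' := A)
    (μ.j.toIntLinearMap) φ (ψ g)) x
  have h3 : (fun y => μ.j.toIntLinearMap (ψ g y)) = mapRep ρ Y g F₁ - F₁ := h1
  rw [h3, map_sub, push_equiv ρ hφ] at h2
  exact h2.symm

theorem Form.push_kum (F : Form p L ρ χ₀ δ) (hX : SmoothSet L X) (hY : SmoothSet L Y)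
    (φ : Y → X) (hφ : ∀ (g : G) y, φ (g • y) = g • φ y) (b : ↥(H0 (mapRep ρ Y)))
    (a : ↥(H0 (mapRep ρ X))) (h : LD.push ℤ φ b.1 = a.1) :
    (pushM (mu χ₀) L φ hφ).H1 (F.kum hY b) = F.kum hX a := by
  obtain ⟨ψ, F₁, h1, h2, h3⟩ := F.exists_kum_eq hY b
  rw [h3, Mor.H1_mk]
  refine (F.kum_eq hX (F₁ := LD.push ℤ φ F₁) ?_ ?_).symm
  · exact h1.push φ hφ
  · rw [← map_nsmul, h2, h]

end KumPush

section Theta

/-- an orientation -/
def IsOri (χ₀ : G →* (ZMod p)ˣ) (θ : X → (ZMod p)ˣ) : Prop :=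
  ∀ (g : G) (x : X), θ (g • x) = χ₀ g * θ x

theorem IsOri.comp {θ : X → (ZMod p)ˣ} (hθ : IsOri χ₀ θ) {φ : Y → X}
    (hφ : ∀ (g : G) y, φ (g • y) = g • φ y) : IsOri χ₀ (θ ∘ φ) := fun g y => by
  rw [Function.comp_apply, hφ, hθ, Function.comp_apply]

theorem IsOri.le_ker {θ : X → (ZMod p)ˣ} (hθ : IsOri χ₀ θ) (x : X) :
    MulAction.stabilizer G x ≤ χ₀.ker := by
  intro g hg
  have h1 := hθ g x
  rw [MulAction.mem_stabilizer_iff.mp hg] at h1
  exact (mul_eq_right.mp h1.symm)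

theorem exists_isOri [MulAction.IsPretransitive G X] (x₀ : X)
    (h : MulAction.stabilizer G x₀ ≤ χ₀.ker) :
    ∃ θ : X → (ZMod p)ˣ, IsOri χ₀ θ := by
  have h1 := fun x : X => MulAction.exists_smul_eq G x₀ x
  choose t ht using h1
  refine ⟨fun x => χ₀ (t x), fun g x => ?_⟩
  show χ₀ (t (g • x)) = χ₀ g * χ₀ (t x)
  rw [← map_mul, ← inv_mul_eq_one, ← map_inv, ← map_mul]
  apply h
  rw [MulAction.mem_stabilizer_iff, mul_smul, mul_smul, ht, inv_smul_eq_iff, ht]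

variable {θ : X → (ZMod p)ˣ} (hθ : IsOri χ₀ θ)

/-- multiplication by the orientation -/
def thetaEquiv (θ : X → (ZMod p)ˣ) : (X → ZMod p) ≃ₗ[ZMod p] (X → ZMod p) where
  toFun f x := θ x * f x
  invFun f x := ((θ x)⁻¹ : (ZMod p)ˣ) * f x
  map_add' f f' := funext fun x => mul_add _ _ _
  map_smul' c f := funext fun x => by
    simp only [Pi.smul_apply, smul_eq_mul, RingHom.id_apply]; ring
  left_inv f := funext fun x => by
    show ((θ x)⁻¹ : (ZMod p)ˣ) * (θ x * f x) = f x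
    rw [← mul_assoc, Units.inv_mul, one_mul]
  right_inv f := funext fun x => by
    show θ x * (((θ x)⁻¹ : (ZMod p)ˣ) * f x) = f x
    rw [← mul_assoc, Units.mul_inv, one_mul]

@[simp] theorem thetaEquiv_apply (f : X → ZMod p) (x : X) :
    thetaEquiv θ f x = θ x * f x := rfl

include hθ in
theorem theta_comm (g : G) (f : X → ZMod p) :
    thetaEquiv θ (FX p G X g f) = MX χ₀ X g (thetaEquiv θ f) := by
  funext x
  rw [thetaEquiv_apply, FX_apply, mapRep_apply, mu_apply, thetaEquiv_apply]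
  have h1 := hθ g (g⁻¹ • x)
  rw [smul_inv_smul] at h1
  rw [h1]
  push_cast
  ring

/-- The isomorphism given by an orientation. -/
noncomputable def thetaIso (L : Lvl G) : MorIso (FX p G X) L (MX χ₀ X) L :=
  MorIso.coeff L (thetaEquiv θ) (theta_comm hθ)

/-- the symmetric pairing -/
def thetaPair (θ : X → (ZMod p)ˣ) :
    (X → ZMod p) →ₗ[ZMod p] (X → ZMod p) →ₗ[ZMod p] (X → ZMod p) :=
  LinearMap.mk₂ (ZMod p) (fun f f' x => f x * (θ x * f' x))
    (fun _ _ _ => funext fun x => by simp [add_mul])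
    (fun _ _ _ => funext fun x => by simp [mul_assoc])
    (fun _ _ _ => funext fun x => by simp [mul_add])
    (fun _ _ _ => funext fun x => by simp; ring)

@[simp] theorem thetaPair_apply (f f' : X → ZMod p) (x : X) :
    thetaPair θ f f' x = f x * (θ x * f' x) := rfl

include hθ in
theorem thetaPair_isPairing : IsPairing (FX p G X) (FX p G X) (MX χ₀ X) (thetaPair θ) := by
  intro g f f'
  funext x
  rw [thetaPair_apply, FX_apply, FX_apply, mapRep_apply, mu_apply, thetaPair_apply]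
  have h1 := hθ g (g⁻¹ • x)
  rw [smul_inv_smul] at h1
  rw [h1]
  push_cast
  ring

variable [Finite X] (hM : Smooth L (mu χ₀)) (hX : SmoothSet L X)

theorem beta_theta (c d : H1 (FX p G X) L) :
    beta hM hX c ((thetaIso hθ L).H1 d) =
      cup11 (thetaPair_isPairing hθ) (smooth_FX hX) c d := by
  obtain ⟨χ, rfl⟩ := H1.mk_surjective c
  obtain ⟨ψ, rfl⟩ := H1.mk_surjective d
  rw [MorIso.H1_apply, Mor.H1_mk, beta_mk, cup11_mk]
  congr 1
  ext q x
  show χ.1 q.1 x • mu χ₀ q.1 (θ (q.1⁻¹ • x) * ψ.1 q.2 (q.1⁻¹ • x)) =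
    χ.1 q.1 x * (θ x * ψ.1 q.2 (q.1⁻¹ • x))
  have h1 := hθ q.1 (q.1⁻¹ • x)
  rw [smul_inv_smul] at h1
  rw [mu_apply, h1, smul_eq_mul]
  push_cast
  ring

/-- antisymmetry of the symbol pairing -/
theorem beta_antisymm (c d : H1 (FX p G X) L) :
    beta hM hX c ((thetaIso hθ L).H1 d) = - beta hM hX d ((thetaIso hθ L).H1 c) := by
  rw [beta_theta, beta_theta, cup11_comm (thetaPair_isPairing hθ) (smooth_FX hX)
    (smooth_FX hX)]
  congr 1
  obtain ⟨χ, rfl⟩ := H1.mk_surjective c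
  obtain ⟨ψ, rfl⟩ := H1.mk_surjective d
  rw [cup11_mk, cup11_mk]
  congr 1
  ext q x
  show χ.1 q.2 (q.1⁻¹ • x) * (θ x * ψ.1 q.1 x) = ψ.1 q.1 x * (θ x * χ.1 q.2 (q.1⁻¹ • x))
  ring

end Theta

end Fermat.Agent.CFT.LD
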