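import Fermat.Agent.CFT.LC.LES
import Fermat.Agent.CFT.LC.Cup
import Fermat.Agent.CFT.LC.Tools
import Fermat.Agent.CFT.PT.Defs

/-!
# Duality by dévissage: the formal part
-/

set_option autoImplicit false
set_option linter.unusedSectionVars false

namespace Fermat.Agent.CFT.LD

open Fermat.Agent.CFT.LC Module
open Fermat.Agent.CFT.PT (mu mu_apply)

section LinAlg

variable {K M N P : Type*} [Field K] [AddCommGroup M] [Module K M] [AddCommGroup N] [Module K N]
  [AddCommGroup P] [Module K P]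

/-- extension of functionals -/
theorem exists_extend_functional (f : M →ₗ[K] N) (l : M →ₗ[K] K)
    (h : LinearMap.ker f ≤ LinearMap.ker l) : ∃ l' : N →ₗ[K] K, ∀ m, l' (f m) = l m := by
  have h1 : l ∈ LinearMap.range f.dualMap := by
    rw [LinearMap.range_dualMap_eq_dualAnnihilator_ker, Submodule.mem_dualAnnihilator]
    intro m hm
    exact h hm
  obtain ⟨l', hl'⟩ := h1
  exact ⟨l', fun m => LinearMap.congr_fun hl' m⟩

/-- A pairing which is nondegenerate on both sides with one finite-dimensional factor: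
the other factor is finite-dimensional. -/
theorem finite_of_nondeg [FiniteDimensional K M] (b : M →ₗ[K] N →ₗ[K] K)
    (hr : ∀ n, (∀ m, b m n = 0) → n = 0) : FiniteDimensional K N := by
  refine FiniteDimensional.of_injective (b.flip) ?_
  rw [injective_iff_map_eq_zero]
  intro n hn
  exact hr n fun m => LinearMap.congr_fun hn m

theorem surj_of_nondeg [FiniteDimensional K M] (b : M →ₗ[K] N →ₗ[K] K)
    (hl : ∀ m, (∀ n, b m n = 0) → m = 0) (hr : ∀ n, (∀ m, b m n = 0) → n = 0)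
    (l : N →ₗ[K] K) : ∃ m, ∀ n, b m n = l n := by
  have := finite_of_nondeg b hr
  have h1 : Function.Injective b := by
    rw [injective_iff_map_eq_zero]
    intro n hn
    exact hl n fun m => LinearMap.congr_fun hn m
  have h2 : Function.Injective b.flip := by
    rw [injective_iff_map_eq_zero]
    intro n hn
    exact hr n fun m => LinearMap.congr_fun hn m
  have h3 : finrank K M ≤ finrank K (Module.Dual K N) := LinearMap.finrank_le_finrank_of_injective h1
  have h4 : finrank K N ≤ finrank K (Module.Dual K M) := LinearMap.finrank_le_finrank_of_injective h2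
  rw [Subspace.dual_finrank_eq] at h3 h4
  have h5 : Function.Surjective b := by
    have h6 : finrank K M = finrank K (Module.Dual K N) := by
      rw [Subspace.dual_finrank_eq]
      exact le_antisymm h3 h4
    exact (LinearMap.injective_iff_surjective_of_finrank_eq_finrank h6).mp h1
  obtain ⟨m, hm⟩ := h5 l
  exact ⟨m, fun n => LinearMap.congr_fun hm n⟩

end LinAlg

section Adj

variable {k : Type*} [CommRing k] {G : Type*} [Group G] {L : Lvl G}
variable {A B C A' B' C' X : Type*} [AddCommGroup A] [Module k A] [AddCommGroup B] [Module k B]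
  [AddCommGroup C] [Module k C] [AddCommGroup A'] [Module k A'] [AddCommGroup B'] [Module k B']
  [AddCommGroup C'] [Module k C'] [AddCommGroup X] [Module k X]
  {ρA : Representation k G A} {ρB : Representation k G B} {ρC : Representation k G C}
  {ρA' : Representation k G A'} {ρB' : Representation k G B'} {ρC' : Representation k G C'}
  {ρX : Representation k G X}
  {PA : A →ₗ[k] A' →ₗ[k] X} {PB : B →ₗ[k] B' →ₗ[k] X} {PC : C →ₗ[k] C' →ₗ[k] X}
  (hPA : IsPairing ρA ρA' ρX PA) (hPB : IsPairing ρB ρB' ρX PB) (hPC : IsPairing ρC ρC' ρX PC)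

section

variable {i : A →ₗ[k] B} {q' : B' →ₗ[k] A'} (hi : ∀ g a, i (ρA g a) = ρB g (i a))
  (hq' : ∀ g b, q' (ρB' g b) = ρA' g (q' b)) (hadj : ∀ a b', PB (i a) b' = PA a (q' b'))

include hadj

theorem cup02_adj (v : LC.H0 ρA) (z : LC.H2 ρB' L) :
    cup02 hPB L ((Mor.coeff L i hi).H0 v) z = cup02 hPA L v ((Mor.coeff L q' hq').H2 z) := by
  obtain ⟨c, rfl⟩ := H2.mk_surjective z
  rw [Mor.H2_mk, cup02_mk, cup02_mk]
  congr 1
  ext p
  exact hadj _ _

theorem cup20_adj (z : LC.H2 ρA L) (w : LC.H0 ρB') :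
    cup20 hPB L ((Mor.coeff L i hi).H2 z) w = cup20 hPA L z ((Mor.coeff L q' hq').H0 w) := by
  obtain ⟨c, rfl⟩ := H2.mk_surjective z
  rw [Mor.H2_mk, cup20_mk, cup20_mk]
  congr 1
  ext p
  exact hadj _ _

theorem cup11_adj (hB' : Smooth L ρB') (hA' : Smooth L ρA') (x : LC.H1 ρA L)
    (y : LC.H1 ρB' L) :
    cup11 hPB hB' ((Mor.coeff L i hi).H1 x) y = cup11 hPA hA' x ((Mor.coeff L q' hq').H1 y) := by
  obtain ⟨a, rfl⟩ := H1.mk_surjective x
  obtain ⟨b, rfl⟩ := H1.mk_surjective y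
  rw [Mor.H1_mk, Mor.H1_mk, cup11_mk, cup11_mk]
  congr 1
  ext p
  show PB (i (a.1 p.1)) (ρB' p.1 (b.1 p.2)) = PA (a.1 p.1) (ρA' p.1 (q' (b.1 p.2)))
  rw [hadj, hq']

end

variable (s : SES L ρA ρB ρC) (s' : SES L ρC' ρB' ρA')
  (hadj1 : ∀ a b', PB (s.i a) b' = PA a (s'.q b'))
  (hadj2 : ∀ b c', PC (s.q b) c' = PB b (s'.i c'))

include hPB hadj1 hadj2

theorem cup_δ01 (hA' : Smooth L ρA') (c : LC.H0 ρC) (y : LC.H1 ρA' L) :
    cup11 hPA hA' (s.δ0 c) y + cup02 hPC L c (s'.δ1 y) = 0 := by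
  obtain ⟨b, rfl⟩ := s.P0_surjective c
  obtain ⟨y, rfl⟩ := s'.P1_surjective y
  rw [s.δ0_P0, s'.δ1_P1]
  have hy' : (s'.q.compLeft G) y.1 ∈ Z1 ρA' L := y.2.2
  have h1 : s'.P1 y = H1.mk ρA' L ⟨_, hy'⟩ := s'.P1_apply y _ fun g => rfl
  rw [h1]
  exact cup_delta_01 hPA hPB hPC hA' hadj1 hadj2 s'.q_comm b.2 (s.D0 b) (s.i_D0 b)
    (s'.mem_E1.mp y.2).1 ⟨_, hy'⟩ (fun g => rfl) (s'.D1 y) (s'.i_D1 y)

theorem cup_δ10 (hC' : Smooth L ρC') (x : LC.H1 ρC L) (w : LC.H0 ρA') :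
    cup20 hPA L (s.δ1 x) w = cup11 hPC hC' x (s'.δ0 w) := by
  obtain ⟨b, rfl⟩ := s'.P0_surjective w
  obtain ⟨x, rfl⟩ := s.P1_surjective x
  rw [s'.δ0_P0, s.δ1_P1]
  have hx' : (s.q.compLeft G) x.1 ∈ Z1 ρC L := x.2.2
  have h1 : s.P1 x = H1.mk ρC L ⟨_, hx'⟩ := s.P1_apply x _ fun g => rfl
  rw [h1]
  exact cup_delta_10 hPA hPB hPC hC' s'.smooth hadj1 hadj2 s'.q_comm s'.i_comm
    (s.mem_E1.mp x.2).1 ⟨_, hx'⟩ (fun g => rfl) (s.D1 x) (s.i_D1 x) b.2 (s'.D0 b) (s'.i_D0 b)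

end Adj

variable {p : ℕ} [hp : Fact p.Prime] {G : Type} [Group G]

/-- Perfect pairings of smooth representations with values in `μ`. -/
@[ext] structure PPair (L : Lvl G) (χ₀ : G →* (ZMod p)ˣ) (V W : Type) [AddCommGroup V]
    [Module (ZMod p) V] [AddCommGroup W] [Module (ZMod p) W] where
  /-- the left representation -/
  ρV : Representation (ZMod p) G V
  /-- the right representation -/
  ρW : Representation (ZMod p) G W
  smV : Smooth L ρV
  smW : Smooth L ρW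
  /-- the pairing -/
  B : V →ₗ[ZMod p] W →ₗ[ZMod p] ZMod p
  pair : IsPairing ρV ρW (mu χ₀) B
  left : ∀ v, (∀ w, B v w = 0) → v = 0
  right : ∀ w, (∀ v, B v w = 0) → w = 0

namespace PPair

variable {L : Lvl G} {χ₀ : G →* (ZMod p)ˣ} {V W : Type} [AddCommGroup V]
    [Module (ZMod p) V] [AddCommGroup W] [Module (ZMod p) W] (P : PPair L χ₀ V W)

/-- the flipped pairing -/
def flip : PPair L χ₀ W V where
  ρV := P.ρW
  ρW := P.ρV
  smV := P.smW
  smW := P.smV
  B := P.B.flip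
  pair := P.pair.flip
  left := P.right
  right := P.left

/-- nondegeneracy in degree 0 -/
def Inj0 : Prop := ∀ v : LC.H0 P.ρV, (∀ z : LC.H2 P.ρW L, cup02 P.pair L v z = 0) → v = 0

/-- nondegeneracy in degree 1 -/
def Inj1 : Prop := ∀ x : LC.H1 P.ρV L,
  (∀ y : LC.H1 P.ρW L, cup11 P.pair P.smW x y = 0) → x = 0

/-- nondegeneracy in degree 2 -/
def Inj2 : Prop := ∀ z : LC.H2 P.ρV L, (∀ w : LC.H0 P.ρW, cup20 P.pair L z w = 0) → z = 0

/-- representability of functionals on `H²` -/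
def Surj0 (inv : LC.H2 (mu χ₀) L →ₗ[ZMod p] ZMod p) : Prop :=
  ∀ l : LC.H2 P.ρW L →ₗ[ZMod p] ZMod p, ∃ v : LC.H0 P.ρV, ∀ z, inv (cup02 P.pair L v z) = l z

/-- representability of functionals on `H¹` -/
def Surj1 (inv : LC.H2 (mu χ₀) L →ₗ[ZMod p] ZMod p) : Prop :=
  ∀ l : LC.H1 P.ρW L →ₗ[ZMod p] ZMod p, ∃ x : LC.H1 P.ρV L,
    ∀ y, inv (cup11 P.pair P.smW x y) = l y

variable {P}

theorem Inj1.flip' (h : P.flip.Inj1) (y : LC.H1 P.ρW L)
    (hy : ∀ x : LC.H1 P.ρV L, cup11 P.pair P.smW x y = 0) : y = 0 := by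
  apply h
  intro x
  have h1 := cup11_comm P.pair P.smV P.smW x y
  rw [hy x] at h1
  exact neg_eq_zero.mp h1.symm

theorem Inj2.flip' (h : P.flip.Inj2) (z : LC.H2 P.ρW L)
    (hz : ∀ v : LC.H0 P.ρV, cup02 P.pair L v z = 0) : z = 0 := by
  apply h
  intro v
  exact hz v

variable {inv : LC.H2 (mu χ₀) L →ₗ[ZMod p] ZMod p} (hinv : Function.Injective inv)

include hinv

theorem surj0_of_inj [FiniteDimensional (ZMod p) V] (h0 : P.Inj0) (h2 : P.flip.Inj2) :
    P.Surj0 inv := by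
  intro l
  refine surj_of_nondeg ((cup02 P.pair L).compr₂ inv) (fun v hv => h0 v fun z => ?_)
    (fun z hz => h2.flip' z fun v => ?_) l
  · exact hinv ((hv z).trans (map_zero inv).symm)
  · exact hinv ((hz v).trans (map_zero inv).symm)

theorem surj1_of_inj [FiniteDimensional (ZMod p) (LC.H1 P.ρV L)] (h0 : P.Inj1)
    (h2 : P.flip.Inj1) : P.Surj1 inv := by
  intro l
  refine surj_of_nondeg ((cup11 P.pair P.smW).compr₂ inv) (fun v hv => h0 v fun z => ?_)
    (fun z hz => h2.flip' z fun v => ?_) l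
  · exact hinv ((hv z).trans (map_zero inv).symm)
  · exact hinv ((hz v).trans (map_zero inv).symm)

end PPair

section Devissage

variable {L : Lvl G} {χ₀ : G →* (ZMod p)ˣ} {A B C A' B' C' : Type}
  [AddCommGroup A] [Module (ZMod p) A] [AddCommGroup B] [Module (ZMod p) B]
  [AddCommGroup C] [Module (ZMod p) C] [AddCommGroup A'] [Module (ZMod p) A']
  [AddCommGroup B'] [Module (ZMod p) B'] [AddCommGroup C'] [Module (ZMod p) C']
  (P : PPair L χ₀ A A') (R : PPair L χ₀ B B') (S : PPair L χ₀ C C')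
  (s : SES L P.ρV R.ρV S.ρV) (s' : SES L S.ρW R.ρW P.ρW)
  (hadj1 : ∀ a b', R.B (s.i a) b' = P.B a (s'.q b'))
  (hadj2 : ∀ b c', S.B (s.q b) c' = R.B b (s'.i c'))
  {inv : LC.H2 (mu χ₀) L →ₗ[ZMod p] ZMod p} (hinv : Function.Injective inv)

include hadj1 in
theorem inj0_of_inj0 (h0 : R.Inj0) : P.Inj0 := by
  intro v hv
  apply s.H0_injective
  rw [map_zero]
  apply h0
  intro z
  rw [cup02_adj P.pair R.pair s.i_comm s'.q_comm hadj1]
  exact hv _

include hadj1 hadj2 hinv in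
theorem inj1_of_inj0 (hS : S.Inj0) (hR : R.Surj0 inv) (hR1 : R.Inj1) : P.Inj1 := by
  intro x hx
  have h1 : s.mi.H1 x = 0 := by
    apply hR1
    intro y
    rw [cup11_adj P.pair R.pair s.i_comm s'.q_comm hadj1 R.smW P.smW]
    exact hx _
  obtain ⟨c, rfl⟩ := (s.exact_δ0_H1 x).mp h1
  have h2 : LinearMap.ker s'.mi.H2 ≤ LinearMap.ker (inv ∘ₗ cup02 S.pair L c) := by
    intro z hz
    obtain ⟨y, rfl⟩ := (s'.exact_δ1_H2 z).mp hz
    rw [LinearMap.mem_ker, LinearMap.comp_apply]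
    have h3 := cup_δ01 P.pair R.pair S.pair s s' hadj1 hadj2 P.smW c y
    rw [hx y, zero_add] at h3
    rw [h3, map_zero]
  obtain ⟨l, hl⟩ := exists_extend_functional _ _ h2
  obtain ⟨w, hw⟩ := hR l
  have h4 : c - s.mq.H0 w = 0 := by
    apply hS
    intro z
    rw [map_sub, LinearMap.sub_apply, sub_eq_zero]
    apply hinv
    have h5 := hl z
    rw [← hw] at h5
    rw [LinearMap.comp_apply] at h5
    rw [← h5]
    congr 1
    exact (cup02_adj R.pair S.pair (A := B) (B := C) (A' := B') (B' := C') s.q_comm s'.i_comm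
      hadj2 w z).symm
  rw [sub_eq_zero.mp h4]
  exact (s.exact_H0_δ0 _).mpr ⟨w, rfl⟩

include hadj1 hadj2 hinv in
theorem inj2_of_inj1 (hS : S.Inj1) (hR : R.Surj1 inv) (hR2 : R.Inj2) : P.Inj2 := by
  intro x hx
  have h1 : s.mi.H2 x = 0 := by
    apply hR2
    intro y
    rw [cup20_adj P.pair R.pair s.i_comm s'.q_comm hadj1]
    exact hx _
  obtain ⟨c, rfl⟩ := (s.exact_δ1_H2 x).mp h1
  have h2 : LinearMap.ker s'.mi.H1 ≤ LinearMap.ker (inv ∘ₗ cup11 S.pair S.smW c) := by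
    intro z hz
    obtain ⟨y, rfl⟩ := (s'.exact_δ0_H1 z).mp hz
    rw [LinearMap.mem_ker, LinearMap.comp_apply]
    rw [← cup_δ10 P.pair R.pair S.pair s s' hadj1 hadj2 S.smW c y, hx y, map_zero]
  obtain ⟨l, hl⟩ := exists_extend_functional _ _ h2
  obtain ⟨w, hw⟩ := hR l
  have h4 : c - s.mq.H1 w = 0 := by
    apply hS
    intro z
    rw [map_sub, LinearMap.sub_apply, sub_eq_zero]
    apply hinv
    have h5 := hl z
    rw [← hw] at h5
    rw [LinearMap.comp_apply] at h5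
    rw [← h5]
    congr 1
    exact (cup11_adj R.pair S.pair (A := B) (B := C) (A' := B') (B' := C') s.q_comm s'.i_comm
      hadj2 S.smW R.smW w z).symm
  rw [sub_eq_zero.mp h4]
  exact (s.exact_H1_δ1 _).mpr ⟨w, rfl⟩

end Devissage

end Fermat.Agent.CFT.LD
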