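import Fermat.Agent.CFT.LD.Lines

/-!
# `p`-towers and Sylow arguments: `H²` of an oriented transitive set is a line, and
push forward is surjective on `H²`.
-/

set_option autoImplicit false
set_option linter.unusedSectionVars false

namespace Fermat.Agent.CFT.LD

open Fermat.Agent.CFT.LC Module
open Fermat.Agent.CFT.PT (mu mu_apply)

section Groups

variable {p : ℕ} [hp : Fact p.Prime]

/-- A nontrivial `p`-group surjects onto `ZMod p`. -/
theorem exists_surj_of_card {Q : Type*} [Group Q] {n : ℕ} (h : Nat.card Q = p ^ (n + 1)) :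
    ∃ f : Q →* Multiplicative (ZMod p), Function.Surjective f := by
  have hfin : Finite Q := Nat.finite_of_card_ne_zero (by
    rw [h]; exact pow_ne_zero _ hp.out.ne_zero)
  obtain ⟨K, hK⟩ := Sylow.exists_subgroup_card_pow_prime (G := Q) p (n := n)
    (by rw [h]; exact pow_dvd_pow _ n.le_succ)
  have h1 : K.index = p := by
    have := K.card_mul_index
    rw [hK, h, pow_succ] at this
    exact Nat.eq_of_mul_eq_mul_left (pow_pos hp.out.pos _) this
  have h2 : K.Normal := by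
    apply Subgroup.normal_of_index_eq_minFac_card
    rw [h1, h, hp.out.pow_minFac n.succ_ne_zero]
  have h3 : Nat.card (Q ⧸ K) = p := h1
  have h4 : Nat.card (Multiplicative (ZMod p)) = p := Nat.card_zmod p
  refine ⟨(mulEquivOfPrimeCardEq h3 h4).toMonoidHom.comp (QuotientGroup.mk' K), ?_⟩
  exact (mulEquivOfPrimeCardEq h3 h4).surjective.comp (QuotientGroup.mk'_surjective K)

/-- Sylow subgroups relative to `N ≤ U`. -/
theorem exists_sylow_between {G : Type*} [Group G] {N U : Subgroup G} (hNU : N ≤ U)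
    (hnorm : (N.subgroupOf U).Normal) (hfin : N.relIndex U ≠ 0) :
    ∃ P : Subgroup G, N ≤ P ∧ P ≤ U ∧ (∃ k, N.relIndex P = p ^ k) ∧
      ¬ p ∣ P.relIndex U := by
  set Q := ↥U ⧸ N.subgroupOf U with hQ
  have hcard : Nat.card Q = N.relIndex U := rfl
  have hfinQ : Finite Q := Nat.finite_of_card_ne_zero (by rw [hcard]; exact hfin)
  obtain ⟨S⟩ : Nonempty (Sylow p Q) := inferInstance
  set π := QuotientGroup.mk' (N.subgroupOf U) with hπ
  have hsurj : Function.Surjective π := QuotientGroup.mk'_surjective _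
  set P := ((S : Subgroup Q).comap π).map U.subtype with hP
  have hPU : P ≤ U := by
    rintro _ ⟨u, _, rfl⟩
    exact u.2
  have hNP : N ≤ P := by
    intro n hn
    refine ⟨⟨n, hNU hn⟩, ?_, rfl⟩
    show π ⟨n, hNU hn⟩ ∈ (S : Subgroup Q)
    have : π ⟨n, hNU hn⟩ = 1 := (QuotientGroup.eq_one_iff _).mpr hn
    rw [this]
    exact one_mem _
  have h1 : P.relIndex U = (S : Subgroup Q).index := by
    rw [Subgroup.relIndex, ← Subgroup.index_comap_of_surjective _ hsurj, hP]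
    congr 1
    exact Subgroup.comap_map_eq_self_of_injective U.subtype_injective _
  obtain ⟨k, hk⟩ := IsPGroup.iff_card.mp S.isPGroup'
  refine ⟨P, hNP, hPU, ⟨k, ?_⟩, ?_⟩
  · have h2 := Subgroup.relIndex_mul_relIndex N P U hNP hPU
    rw [← hcard, ← (S : Subgroup Q).card_mul_index, hk, h1] at h2
    refine Nat.eq_of_mul_eq_mul_right ?_ h2
    exact Nat.pos_of_ne_zero (Subgroup.index_ne_zero_of_finite)
  · rw [h1]
    exact S.not_dvd_index

end Groups

variable {p : ℕ} [hp : Fact p.Prime] {G : Type} [Group G] {L : Lvl G}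
variable {A : Type} [AddCommGroup A] {ρ : Representation ℤ G A} {χ₀ : G →* (ZMod p)ˣ} {δ : ℕ}

section Step

variable {X : Type} [MulAction G X] [Finite X] [Nonempty X] [MulAction.IsPretransitive G X]
  (hX : SmoothSet L X)

theorem relIndex_tors {χ : Z1 (FX p G X) L} (x₀ : X)
    (h : ∃ s : G, s • x₀ = x₀ ∧ χ.1 s x₀ = 1) :
    (MulAction.stabilizer G (⟨x₀, 0⟩ : Tors χ)).relIndex (MulAction.stabilizer G x₀) = p := by
  obtain ⟨s, hs, h1⟩ := h
  have hker : (MulAction.stabilizer G (⟨x₀, 0⟩ : Tors χ)).subgroupOf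
      (MulAction.stabilizer G x₀) = (stabHom χ x₀).ker := by
    ext u
    rw [Subgroup.mem_subgroupOf, mem_stabilizer_tors, MonoidHom.mem_ker]
    exact ⟨fun h => h.2, fun h => ⟨u.2, h⟩⟩
  have hsurj : Function.Surjective (stabHom χ x₀) := by
    intro c
    refine ⟨⟨s, MulAction.mem_stabilizer_iff.mpr hs⟩ ^ (c.toAdd).val, ?_⟩
    rw [map_pow]
    apply Multiplicative.toAdd.injective
    rw [toAdd_pow, stabHom_apply]
    show _ • χ.1 s x₀ = _
    rw [h1, nsmul_eq_mul, mul_one, ZMod.natCast_zmod_val]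
  rw [Subgroup.relIndex, hker, Subgroup.index_ker, MonoidHom.range_eq_top.mpr hsurj]
  rw [Nat.card_congr (Subgroup.topEquiv (G := Multiplicative (ZMod p))).toEquiv]
  exact Nat.card_zmod p

include hX in
/-- Cocycles with prescribed character on the stabiliser. -/
theorem exists_cocycle (x₀ : X) (φ : ↥(MulAction.stabilizer G x₀) →* Multiplicative (ZMod p))
    (hφ : (L.restrict (MulAction.stabilizer G x₀)).IsOpen φ.ker) :
    ∃ χ : Z1 (FX p G X) L, stabHom χ x₀ = φ := by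
  have h1 : (fun u => (φ u).toAdd) ∈ Z1 ((tr p G).comp (MulAction.stabilizer G x₀).subtype)
      (L.restrict (MulAction.stabilizer G x₀)) := by
    rw [mem_Z1]
    refine ⟨fun g h => ?_, ?_⟩
    · rw [map_mul, toAdd_mul, add_comm]
      rfl
    · obtain ⟨N, hN, h⟩ := hφ
      refine ⟨N, hN, fun g s hs => ?_⟩
      have h2 : φ s = 1 := h hs
      simp only [map_mul, h2, mul_one]
  obtain ⟨t, ht⟩ := shM_H1_surjective (ρ := tr p G) hX x₀ (H1.mk ((tr p G).comp (MulAction.stabilizer G x₀).subtype)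
    (L.restrict (MulAction.stabilizer G x₀)) ⟨_, h1⟩)
  obtain ⟨χ, rfl⟩ := H1.mk_surjective t
  refine ⟨χ, ?_⟩
  rw [Mor.H1_mk, ← sub_eq_zero, ← map_sub, H1.mk_eq_zero_iff] at ht
  obtain ⟨v, hv⟩ := ht
  ext u
  have h2 := hv u
  have h3 : χ.1 u x₀ - (φ u).toAdd = 0 := by
    refine Eq.trans h2 ?_
    show v - v = 0
    exact sub_self v
  rw [stabHom_apply]
  exact sub_eq_zero.mp h3

include hX in
/-- One step of a `p`-tower. -/
theorem exists_tors_step {n : ℕ} (x₀ : X) {N : Subgroup G} (hN : L.IsOpen N)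
    (hNU : N ≤ MulAction.stabilizer G x₀)
    (hnorm : (N.subgroupOf (MulAction.stabilizer G x₀)).Normal)
    (hidx : N.relIndex (MulAction.stabilizer G x₀) = p ^ (n + 1)) :
    ∃ χ : Z1 (FX p G X) L, H1.mk (FX p G X) L χ ≠ 0 ∧
      N ≤ MulAction.stabilizer G (⟨x₀, 0⟩ : Tors χ) ∧
      (N.subgroupOf (MulAction.stabilizer G (⟨x₀, 0⟩ : Tors χ))).Normal ∧
      N.relIndex (MulAction.stabilizer G (⟨x₀, 0⟩ : Tors χ)) = p ^ n := by
  set U := MulAction.stabilizer G x₀ with hU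
  obtain ⟨f, hf⟩ := exists_surj_of_card (Q := ↥U ⧸ N.subgroupOf U) hidx
  set φ := f.comp (QuotientGroup.mk' (N.subgroupOf U)) with hφ
  have hφs : Function.Surjective φ := hf.comp (QuotientGroup.mk'_surjective _)
  have hker : N.subgroupOf U ≤ φ.ker := by
    intro u hu
    rw [MonoidHom.mem_ker, hφ, MonoidHom.comp_apply]
    have : QuotientGroup.mk' (N.subgroupOf U) u = 1 := (QuotientGroup.eq_one_iff _).mpr hu
    rw [this, map_one]
  obtain ⟨W, hW, hWN⟩ := hN
  obtain ⟨χ, hχ⟩ := exists_cocycle hX x₀ φ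
    ⟨_, ⟨W, hW, rfl⟩, fun u hu => hker (hWN hu)⟩
  have h1 : ∃ s : G, s • x₀ = x₀ ∧ χ.1 s x₀ = 1 := by
    obtain ⟨s, hs⟩ := hφs (Multiplicative.ofAdd 1)
    refine ⟨s, s.2, ?_⟩
    rw [← stabHom_apply, hχ, hs]
    rfl
  have h2 : H1.mk (FX p G X) L χ ≠ 0 := by
    intro h0
    rw [H1.mk_eq_zero_iff] at h0
    obtain ⟨v, hv⟩ := h0
    obtain ⟨s, hs, hs1⟩ := h1
    have h3 := congrFun (hv s) x₀
    have h4 : s⁻¹ • x₀ = x₀ := by rw [inv_smul_eq_iff, hs]
    rw [hs1, Pi.sub_apply, FX_apply, h4, sub_self] at h3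
    exact one_ne_zero h3
  have h3 : N ≤ MulAction.stabilizer G (⟨x₀, 0⟩ : Tors χ) := by
    intro g hg
    rw [mem_stabilizer_tors]
    refine ⟨hNU hg, ?_⟩
    show χ.1 g x₀ = 0
    have h4 : φ ⟨g, hNU hg⟩ = 1 := hker (show (⟨g, hNU hg⟩ : ↥U) ∈ N.subgroupOf U from hg)
    rw [← hχ] at h4
    exact congrArg Multiplicative.toAdd h4
  have hVU : MulAction.stabilizer G (⟨x₀, 0⟩ : Tors χ) ≤ U :=
    fun g hg => ((mem_stabilizer_tors χ _ g).mp hg).1
  refine ⟨χ, h2, h3, ⟨fun n hn g => ?_⟩, ?_⟩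
  · have := hnorm.conj_mem ⟨n, hVU n.2⟩ hn ⟨g, hVU g.2⟩
    exact this
  · have h5 := Subgroup.relIndex_mul_relIndex N _ U h3 hVU
    rw [relIndex_tors x₀ h1, hidx, pow_succ] at h5
    exact Nat.eq_of_mul_eq_mul_right hp.out.pos h5

end Step

/-- A class which dies on a subgroup `N` such that `stab / N` is a `p`-group is a symbol. -/
theorem Form.mem_line_of_res (F : Form p L ρ χ₀ δ) : ∀ (n : ℕ) (X : Type) [MulAction G X]
    [Finite X] [Nonempty X] [MulAction.IsPretransitive G X] (hX : SmoothSet L X)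
    (θ : X → (ZMod p)ˣ) (_ : IsOri χ₀ θ) (x₀ : X) (N : Subgroup G) (_ : L.IsOpen N)
    (_ : N ≤ MulAction.stabilizer G x₀) (_ : (N.subgroupOf (MulAction.stabilizer G x₀)).Normal)
    (_ : N.relIndex (MulAction.stabilizer G x₀) = p ^ n) (t : H2 (MX χ₀ X) L),
    (Mor.resSub (MX χ₀ X) L N).H2 t = 0 → t ∈ F.line hX := by
  intro n
  induction n with
  | zero =>
    intro X _ _ _ _ hX θ hθ x₀ N hN hNU hnorm hidx t ht
    have h1 : t = 0 := by
      refine H2_eq_zero_of_res hX x₀ N ?_ ht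
      rw [pow_zero, Subgroup.relIndex_eq_one] at hidx
      exact hidx
    rw [h1]
    exact zero_mem _
  | succ n ih =>
    intro X _ _ _ _ hX θ hθ x₀ N hN hNU hnorm hidx t ht
    obtain ⟨χ, hχ, h1, h2, h3⟩ := exists_tors_step hX x₀ hN hNU hnorm hidx
    have := isPretransitive_tors hχ
    apply F.mem_line_of_pull hX hθ hχ
    exact ih (Tors χ) (Tors.smoothSet χ hX) _ (hθ.comp (pt_equiv χ)) ⟨x₀, 0⟩ N hN h1 h2 h3 _
      (res_pull_H2 N _ (pt_equiv χ) ht)

/-- The fibres of `G ⧸ P → X`. -/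
theorem card_fib_quot {X : Type} [MulAction G X] [Finite X] [MulAction.IsPretransitive G X]
    {Z : Type} [MulAction G Z] [Finite Z] [MulAction.IsPretransitive G Z] (x₀ : X) (z₀ : Z)
    (φ : Z → X) (hφ : ∀ (g : G) z, φ (g • z) = g • φ z) (h0 : φ z₀ = x₀) (x : X) :
    Nat.card {z // φ z = x} =
      (MulAction.stabilizer G z₀).relIndex (MulAction.stabilizer G x₀) := by
  have hne : Nonempty X := ⟨x₀⟩
  have h1 : Nat.card Z = Nat.card {z // φ z = x} * Nat.card X := by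
    have : Fintype X := Fintype.ofFinite X
    have : Fintype Z := Fintype.ofFinite Z
    rw [Nat.card_congr (Equiv.sigmaFiberEquiv φ).symm, Nat.card_sigma]
    rw [Finset.sum_congr rfl fun y _ => card_fib_eq hφ y x, Finset.sum_const, Finset.card_univ,
      smul_eq_mul, ← Nat.card_eq_fintype_card (α := X), mul_comm]
  have hle : MulAction.stabilizer G z₀ ≤ MulAction.stabilizer G x₀ := by
    intro g hg
    rw [MulAction.mem_stabilizer_iff, ← h0, ← hφ, MulAction.mem_stabilizer_iff.mp hg]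
  have h2 := Subgroup.relIndex_mul_index hle
  rw [MulAction.index_stabilizer_of_transitive, MulAction.index_stabilizer_of_transitive, h1]
    at h2
  exact (Nat.eq_of_mul_eq_mul_right Nat.card_pos h2).symm

section Sylow

variable {X : Type} [MulAction G X] [Finite X] [Nonempty X] [MulAction.IsPretransitive G X]
  (hX : SmoothSet L X)

/-- Data: a Sylow covering of `X` above a level. -/
theorem exists_sylow_cover {N : Subgroup G} (hN : N ∈ L.levels) (hNχ : N ≤ χ₀.ker) (x₀ : X)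
    (hNU : N ≤ MulAction.stabilizer G x₀) :
    ∃ P : Subgroup G, L.IsOpen P ∧ N ≤ P ∧ P ≤ MulAction.stabilizer G x₀ ∧ P ≤ χ₀.ker ∧
      (∃ k, N.relIndex P = p ^ k) ∧ ¬ p ∣ P.relIndex (MulAction.stabilizer G x₀) := by
  have hnorm := L.normal N hN
  have hfin := L.finiteIndex N hN
  obtain ⟨P, h1, h2, ⟨k, hk⟩, h4⟩ := exists_sylow_between (p := p) hNU
    (hnorm.subgroupOf _) (by
      intro h0
      have := Subgroup.relIndex_mul_index hNU
      rw [h0, zero_mul] at this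
      exact hfin.index_ne_zero this.symm)
  refine ⟨P, ⟨N, hN, h1⟩, h1, h2, ?_, ⟨k, hk⟩, h4⟩
  intro g hg
  have hn2 : (N.subgroupOf P).Normal := hnorm.subgroupOf P
  have h5 : g ^ (p ^ k) ∈ N := by
    have h6 : ((⟨g, hg⟩ : ↥P) : ↥P ⧸ N.subgroupOf P) ^ (p ^ k) = 1 := by
      rw [← hk]
      exact pow_card_eq_one'
    rw [← QuotientGroup.mk_pow, QuotientGroup.eq_one_iff] at h6
    exact h6
  rw [MonoidHom.mem_ker]
  have h7 : χ₀ g ^ (p ^ k) = 1 := by
    rw [← map_pow]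
    exact hNχ h5
  have h8 : χ₀ g ^ (p - 1) = 1 := ZMod.units_pow_card_sub_one_eq_one p (χ₀ g)
  have h9 : Nat.Coprime (p ^ k) (p - 1) := by
    apply Nat.Coprime.pow_left
    rw [Nat.coprime_comm]
    exact (Nat.coprime_self_sub_left (n := p) (m := 1) hp.out.one_le).mpr
      (Nat.coprime_one_left p) |> fun h => by simpa using h
  have h10 := orderOf_dvd_of_pow_eq_one h7
  have h11 := orderOf_dvd_of_pow_eq_one h8
  exact orderOf_eq_one_iff.mp (Nat.eq_one_of_dvd_coprimes h9 h10 h11)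

theorem isUnit_natCast {m : ℕ} (h : ¬ p ∣ m) : ((m : ℕ) : ZMod p) ≠ 0 := by
  rwa [Ne, ZMod.natCast_eq_zero_iff]

/-- Every class of degree two on an oriented transitive set is a symbol. -/
theorem Form.line_eq_top (F : Form p L ρ χ₀ δ) {θ : X → (ZMod p)ˣ} (hθ : IsOri χ₀ θ) :
    F.line hX = ⊤ := by
  rw [eq_top_iff]
  intro t _
  obtain ⟨x₀⟩ := (inferInstance : Nonempty X)
  obtain ⟨N, hN, hNU, hres⟩ := exists_res_eq_zero (Smooth.mapRep F.smooth_mu hX) t
    (hX.isOpen_stabilizer x₀)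
  obtain ⟨P, hPo, hNP, hPU, hPχ, ⟨k, hk⟩, hcop⟩ := exists_sylow_cover (p := p) (χ₀ := χ₀) hN
    (hNU.trans (hθ.le_ker x₀)) x₀ hNU
  have hfin : Finite (G ⧸ P) := by
    have := hPo.finiteIndex
    infer_instance
  have hst : MulAction.stabilizer G ((1 : G) : G ⧸ P) = P := MulAction.stabilizer_quotient P
  have hXs : SmoothSet L (G ⧸ P) := SmoothSet.quotient hPo
  obtain ⟨φ, hφ, h0⟩ := exists_equivariant (G := G) ((1 : G) : G ⧸ P) x₀ (fun g hg => by
    have h1 : g ∈ MulAction.stabilizer G ((1 : G) : G ⧸ P) := hg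
    rw [hst] at h1
    exact hPU h1)
  set m := P.relIndex (MulAction.stabilizer G x₀) with hm
  have hcard : ∀ x, Nat.card {z // φ z = x} = m := by
    intro x
    rw [card_fib_quot x₀ ((1 : G) : G ⧸ P) φ hφ h0, hst]
  have hm0 : (m : ZMod p) ≠ 0 := isUnit_natCast hcop
  obtain ⟨c, hc⟩ := F.exists_ne_zero hX hθ
  have hc' : (pullM (tr p G) L φ hφ).H1 c ≠ 0 := by
    intro h1
    have h2 := push_pull_H1 φ hφ m hcard c
    rw [h1, map_zero, ← Nat.cast_smul_eq_nsmul (ZMod p)] at h2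
    exact (smul_ne_zero hm0 hc) h2.symm
  have h3 : (pullM (mu χ₀) L φ hφ).H2 t ∈ F.line hXs := by
    refine F.mem_line_of_res k (G ⧸ P) hXs _ (hθ.comp hφ) ((1 : G) : G ⧸ P) N ⟨N, hN, le_rfl⟩
      ?_ ?_ ?_ _ (res_pull_H2 N φ hφ (hres N le_rfl))
    · rw [hst]; exact hNP
    · rw [hst]; exact (L.normal N hN).subgroupOf P
    · rw [hst]; exact hk
  rw [F.line_eq hXs (hθ.comp hφ) hc'] at h3
  obtain ⟨d, hd⟩ := h3
  have h4 := push_pull_H2 φ hφ m hcard t
  rw [← hd, push_beta F.smooth_mu hX hXs, ← Nat.cast_smul_eq_nsmul (ZMod p)] at h4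
  have h5 : t = ((m : ZMod p)⁻¹) • beta F.smooth_mu hX c ((pushM (mu χ₀) L φ hφ).H1 d) := by
    rw [h4, smul_smul, inv_mul_cancel₀ hm0, one_smul]
  rw [h5]
  exact Submodule.smul_mem _ _ (F.mem_line hX _ _)

theorem Form.finrank_H2 (F : Form p L ρ χ₀ δ) (hX : SmoothSet L X) {θ : X → (ZMod p)ˣ}
    (hθ : IsOri χ₀ θ) : finrank (ZMod p) (H2 (MX χ₀ X) L) = 1 := by
  rw [← finrank_top, ← F.line_eq_top hX hθ]
  exact F.finrank_line hX hθ

end Sylow

/-- Surjectivity of push forward in a `p`-tower. -/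
theorem Form.push_surjective_tower (F : Form p L ρ χ₀ δ) : ∀ (n : ℕ) (X : Type) [MulAction G X]
    [Finite X] [Nonempty X] [MulAction.IsPretransitive G X] (_ : SmoothSet L X)
    (θ : X → (ZMod p)ˣ) (_ : IsOri χ₀ θ) (x₀ : X) (N : Subgroup G) (_ : L.IsOpen N)
    (_ : N ≤ MulAction.stabilizer G x₀) (_ : (N.subgroupOf (MulAction.stabilizer G x₀)).Normal)
    (_ : N.relIndex (MulAction.stabilizer G x₀) = p ^ n) (Z : Type) [MulAction G Z] [Finite Z]
    [MulAction.IsPretransitive G Z] (z₀ : Z) (_ : MulAction.stabilizer G z₀ = N) (φ : Z → X)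
    (hφ : ∀ (g : G) z, φ (g • z) = g • φ z) (_ : φ z₀ = x₀),
    Function.Surjective (pushM (mu χ₀) L φ hφ).H2 := by
  intro n
  induction n with
  | zero =>
    intro X _ _ _ _ hX θ hθ x₀ N hN hNU hnorm hidx Z _ _ _ z₀ hz₀ φ hφ h0 t
    refine ⟨(pullM (mu χ₀) L φ hφ).H2 t, ?_⟩
    rw [push_pull_H2 φ hφ 1, one_smul]
    intro x
    rw [card_fib_quot x₀ z₀ φ hφ h0, hz₀, hidx, pow_zero]
  | succ n ih =>
    intro X _ _ _ _ hX θ hθ x₀ N hN hNU hnorm hidx Z _ _ _ z₀ hz₀ φ hφ h0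
    obtain ⟨χ, hχ, h1, h2, h3⟩ := exists_tors_step hX x₀ hN hNU hnorm hidx
    have := isPretransitive_tors hχ
    obtain ⟨ψ, hψ, hψ0⟩ := exists_equivariant (G := G) z₀ (⟨x₀, 0⟩ : Tors χ) (fun g hg => by
      have h4 : g ∈ MulAction.stabilizer G z₀ := hg
      rw [hz₀] at h4
      exact h1 h4)
    have hs := ih (Tors χ) (Tors.smoothSet χ hX) _ (hθ.comp (pt_equiv χ)) ⟨x₀, 0⟩ N hN h1 h2 h3
      Z z₀ hz₀ ψ hψ hψ0
    have hcomp : φ = Tors.pt ∘ ψ := by
      refine equivariant_ext hφ (fun g z => ?_) z₀ ?_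
      · rw [Function.comp_apply, hψ]; rfl
      · rw [Function.comp_apply, hψ0, h0]
    subst hcomp
    intro t
    obtain ⟨t₁, ht₁, hne⟩ := F.exists_push_ne_zero hX hθ hχ
    obtain ⟨s, hs'⟩ := (finrank_eq_one_iff_of_nonzero' _ hne).mp (F.finrank_H2 hX hθ) t
    obtain ⟨t₂, ht₂⟩ := hs (s • t₁)
    refine ⟨t₂, ?_⟩
    rw [← push_push_H2 Tors.pt (pt_equiv χ) ψ hψ hφ, ht₂, map_smul, hs']

/-- Surjectivity of push forward on `H²` with coefficients in `μ_p`. -/
theorem Form.push_surjective (F : Form p L ρ χ₀ δ) {X : Type} [MulAction G X] [Finite X]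
    [Nonempty X] [MulAction.IsPretransitive G X] (_ : SmoothSet L X) {Z : Type}
    [MulAction G Z] [Finite Z] [Nonempty Z] [MulAction.IsPretransitive G Z]
    (hZ : SmoothSet L Z) (φ : Z → X) (hφ : ∀ (g : G) z, φ (g • z) = g • φ z) :
    Function.Surjective (pushM (mu χ₀) L φ hφ).H2 := by
  obtain ⟨z₀⟩ := (inferInstance : Nonempty Z)
  have hχo : L.IsOpen χ₀.ker := by
    obtain ⟨N, hN, h⟩ := F.smooth_mu 1
    refine ⟨N, hN, fun g hg => ?_⟩
    have := h g hg
    rw [mu_apply, mul_one] at this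
    exact Units.ext this
  obtain ⟨N, hN, hNle⟩ := (hZ.isOpen_stabilizer z₀).inf hχo
  have hNz : N ≤ MulAction.stabilizer G z₀ := hNle.trans inf_le_left
  have hNχ : N ≤ χ₀.ker := hNle.trans inf_le_right
  set x₀ := φ z₀ with hx₀
  have hzx : MulAction.stabilizer G z₀ ≤ MulAction.stabilizer G x₀ := by
    intro g hg
    rw [MulAction.mem_stabilizer_iff, hx₀, ← hφ, MulAction.mem_stabilizer_iff.mp hg]
  obtain ⟨P, hPo, hNP, hPU, hPχ, ⟨k, hk⟩, hcop⟩ := exists_sylow_cover (p := p) (χ₀ := χ₀) hN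
    hNχ x₀ (hNz.trans hzx)
  -- the sets
  have hNo : L.IsOpen N := ⟨N, hN, le_rfl⟩
  have hfinP : Finite (G ⧸ P) := by
    have := hPo.finiteIndex
    infer_instance
  have hfinN : Finite (G ⧸ N) := by
    have := hNo.finiteIndex
    infer_instance
  have hstP : MulAction.stabilizer G ((1 : G) : G ⧸ P) = P := MulAction.stabilizer_quotient P
  have hstN : MulAction.stabilizer G ((1 : G) : G ⧸ N) = N := MulAction.stabilizer_quotient N
  have hPs : SmoothSet L (G ⧸ P) := SmoothSet.quotient hPo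
  have hNs : SmoothSet L (G ⧸ N) := SmoothSet.quotient hNo
  obtain ⟨ψ, hψ, hψ0⟩ := exists_equivariant (G := G) ((1 : G) : G ⧸ P) x₀ (fun g hg => by
    have h1 : g ∈ MulAction.stabilizer G ((1 : G) : G ⧸ P) := hg
    rw [hstP] at h1
    exact hPU h1)
  obtain ⟨ψ', hψ', hψ'0⟩ := exists_equivariant (G := G) ((1 : G) : G ⧸ N)
    ((1 : G) : G ⧸ P) (fun g hg => by
      have h1 : g ∈ MulAction.stabilizer G ((1 : G) : G ⧸ N) := hg
      rw [hstN] at h1
      have h2 := hNP h1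
      rw [← hstP] at h2
      exact h2)
  obtain ⟨η, hη, hη0⟩ := exists_equivariant (G := G) ((1 : G) : G ⧸ N) z₀ (fun g hg => by
      have h1 : g ∈ MulAction.stabilizer G ((1 : G) : G ⧸ N) := hg
      rw [hstN] at h1
      exact hNz h1)
  obtain ⟨θ, hθ⟩ := exists_isOri (χ₀ := χ₀) ((1 : G) : G ⧸ P) (by rw [hstP]; exact hPχ)
  have h1 : Function.Surjective (pushM (mu χ₀) L ψ' hψ').H2 := by
    refine F.push_surjective_tower k (G ⧸ P) hPs θ hθ ((1 : G) : G ⧸ P) N hNo ?_ ?_ ?_ (G ⧸ N)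
      ((1 : G) : G ⧸ N) hstN ψ' hψ' hψ'0
    · rw [hstP]; exact hNP
    · rw [hstP]; exact (L.normal N hN).subgroupOf P
    · rw [hstP]; exact hk
  have h2 : Function.Surjective (pushM (mu χ₀) L ψ hψ).H2 := by
    intro t
    set m := P.relIndex (MulAction.stabilizer G x₀) with hm
    have hcard : ∀ x, Nat.card {z // ψ z = x} = m := by
      intro x
      rw [card_fib_quot x₀ ((1 : G) : G ⧸ P) ψ hψ hψ0, hstP]
    have hm0 : (m : ZMod p) ≠ 0 := isUnit_natCast hcop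
    refine ⟨(m : ZMod p)⁻¹ • (pullM (mu χ₀) L ψ hψ).H2 t, ?_⟩
    rw [map_smul, push_pull_H2 ψ hψ m hcard, ← Nat.cast_smul_eq_nsmul (ZMod p), smul_smul,
      inv_mul_cancel₀ hm0, one_smul]
  have hc1 : ∀ (g : G) z, (ψ ∘ ψ') (g • z) = g • (ψ ∘ ψ') z := fun g z => by
    rw [Function.comp_apply, hψ', hψ, Function.comp_apply]
  have hc2 : ∀ (g : G) z, (φ ∘ η) (g • z) = g • (φ ∘ η) z := fun g z => by
    rw [Function.comp_apply, hη, hφ, Function.comp_apply]
  have heq : ψ ∘ ψ' = φ ∘ η := by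
    refine equivariant_ext hc1 hc2 ((1 : G) : G ⧸ N) ?_
    rw [Function.comp_apply, Function.comp_apply, hψ'0, hψ0, hη0]
  intro t
  obtain ⟨t₁, rfl⟩ := h2 t
  obtain ⟨t₂, rfl⟩ := h1 t₁
  refine ⟨(pushM (mu χ₀) L η hη).H2 t₂, ?_⟩
  rw [push_push_H2 φ hφ η hη hc2, push_push_H2 ψ hψ ψ' hψ' hc1]
  congr 1
  have : ∀ (a b : (G ⧸ N) → X) (ha : ∀ (g : G) z, a (g • z) = g • a z)
      (hb : ∀ (g : G) z, b (g • z) = g • b z), a = b →
      (pushM (mu χ₀) L a ha).H2 = (pushM (mu χ₀) L b hb).H2 := by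
    rintro a b ha hb rfl
    rfl
  exact this _ _ _ _ heq.symm

end Fermat.Agent.CFT.LD
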