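import Fermat.Agent.CFT.LD.Dual1
import Fermat.Agent.CFT.LD.Tower

/-!
# Duality for induced modules
-/

set_option autoImplicit false
set_option linter.unusedSectionVars false

namespace Fermat.Agent.CFT.LD

open Fermat.Agent.CFT.LC Module
open Fermat.Agent.CFT.PT (mu mu_apply)

section Sum

variable {k : Type*} [CommRing k] {G : Type*} [Group G] {M : Type*} [AddCommGroup M] [Module k M]
  {L : Lvl G} (ρ : Representation k G M) {X : Type*} [MulAction G X]

/-- the map to the point -/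
def toPt (X : Type*) : X → PUnit.{1} := fun _ => PUnit.unit

theorem toPt_equiv (g : G) (x : X) : toPt X (g • x) = g • toPt X x := rfl

/-- sum of the values -/
noncomputable def sumL (k : Type*) [CommRing k] (X : Type*) [Finite X] (M : Type*)
    [AddCommGroup M] [Module k M] : (X → M) →ₗ[k] M :=
  LinearMap.proj PUnit.unit ∘ₗ push k (toPt X)

theorem sumL_apply [Fintype X] (f : X → M) : sumL k X M f = ∑ x, f x := by
  show push k (toPt X) f PUnit.unit = _
  rw [push_apply]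
  have : Fintype {x : X // toPt X x = PUnit.unit} := Fintype.ofFinite _
  rw [finsum_eq_sum_of_fintype]
  exact Fintype.sum_equiv (Equiv.subtypeUnivEquiv fun x => rfl) _ _ fun x => rfl

theorem sumL_comm [Finite X] (g : G) (f : X → M) :
    sumL k X M (mapRep ρ X g f) = ρ g (sumL k X M f) := by
  show push k (toPt X) (mapRep ρ X g f) PUnit.unit = _
  rw [push_equiv ρ toPt_equiv]
  rfl

/-- the sum as a morphism -/
noncomputable def sumM (L : Lvl G) (X : Type*) [MulAction G X] [Finite X] :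
    Mor (mapRep ρ X) L ρ L := Mor.coeff L (sumL k X M) (sumL_comm ρ)

/-- evaluation at the point -/
def evIso (L : Lvl G) : MorIso (mapRep ρ PUnit.{1}) L ρ L :=
  MorIso.coeff L (LinearEquiv.funUnique PUnit.{1} k M) fun _ _ => rfl

theorem sumM_eq [Finite X] : sumM ρ L X = (evIso ρ L).m.comp (pushM ρ L (toPt X) toPt_equiv) := by
  ext1
  · rfl
  · rfl

end Sum

variable {p : ℕ} [hp : Fact p.Prime] {G : Type} [Group G] {L : Lvl G}
variable {A : Type} [AddCommGroup A] {ρ : Representation ℤ G A} {χ₀ : G →* (ZMod p)ˣ} {δ : ℕ}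

section Pt

variable {X : Type} [MulAction G X] [Finite X] [Nonempty X] [MulAction.IsPretransitive G X]
  (hX : SmoothSet L X)

instance : MulAction.IsPretransitive G PUnit.{1} := ⟨fun _ _ => ⟨1, rfl⟩⟩

theorem smoothSet_punit (L : Lvl G) : SmoothSet L PUnit.{1} := by
  intro x
  obtain ⟨N, hN⟩ := L.nonempty
  exact ⟨N, hN, fun _ _ => rfl⟩

include hX in
theorem Form.sum_surjective (F : Form p L ρ χ₀ δ) :
    Function.Surjective (sumM (mu χ₀) L X).H2 := by
  rw [sumM_eq]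
  intro t
  obtain ⟨t₁, ht₁⟩ := (evIso (mu χ₀) L).H2.surjective t
  obtain ⟨t₂, ht₂⟩ := F.push_surjective (smoothSet_punit L) hX (toPt X) toPt_equiv t₁
  exact ⟨t₂, by rw [Mor.H2_comp, ht₂]; exact ht₁⟩

theorem Form.sum_injective (F : Form p L ρ χ₀ δ) (hX : SmoothSet L X)
    {θ : X → (ZMod p)ˣ} (hθ : IsOri χ₀ θ)
    (hne : ∃ t : LC.H2 (mu χ₀) L, t ≠ 0) : Function.Injective (sumM (mu χ₀) L X).H2 := by
  obtain ⟨t, ht⟩ := hne
  obtain ⟨t₁, rfl⟩ := F.sum_surjective hX t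
  have h1 : t₁ ≠ 0 := by
    rintro rfl
    exact ht (map_zero _)
  rw [injective_iff_map_eq_zero]
  intro t₂ h2
  obtain ⟨c, rfl⟩ := (finrank_eq_one_iff_of_nonzero' _ h1).mp (F.finrank_H2 hX hθ) t₂
  rw [map_smul, smul_eq_zero] at h2
  rcases h2 with h2 | h2
  · rw [h2, zero_smul]
  · exact absurd h2 ht

end Pt

section Ind

variable {V W : Type} [AddCommGroup V] [Module (ZMod p) V] [AddCommGroup W] [Module (ZMod p) W]
  (P : PPair L χ₀ V W) {X : Type} [MulAction G X] [Finite X]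
  (hX : SmoothSet L X)

theorem mapPair_isPairing : IsPairing (mapRep P.ρV X) (mapRep P.ρW X) (MX χ₀ X)
    (mapPair P.B X) := IsPairing.mapRep P.pair X

/-- the induced pairing -/
noncomputable def PPair.ind : PPair L χ₀ (X → V) (X → W) where
  ρV := mapRep P.ρV X
  ρW := mapRep P.ρW X
  smV := Smooth.mapRep P.smV hX
  smW := Smooth.mapRep P.smW hX
  B := (mapPair P.B X).compr₂ (sumL (ZMod p) X (ZMod p))
  pair := by
    intro g f f'
    rw [LinearMap.compr₂_apply, LinearMap.compr₂_apply, mapPair_isPairing P g, sumL_comm]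
  left := by
    intro f h
    have : Fintype X := Fintype.ofFinite X
    classical
    funext x
    apply P.left
    intro w
    have h1 := h (Pi.single x w)
    rw [LinearMap.compr₂_apply, sumL_apply, Finset.sum_eq_single x] at h1
    · simpa using h1
    · intro y _ hy
      rw [mapPair_apply, Pi.single_eq_of_ne hy, map_zero]
    · intro h; exact absurd (Finset.mem_univ _) h
  right := by
    intro f h
    have : Fintype X := Fintype.ofFinite X
    classical
    funext x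
    apply P.right
    intro w
    have h1 := h (Pi.single x w)
    rw [LinearMap.compr₂_apply, sumL_apply, Finset.sum_eq_single x] at h1
    · simpa using h1
    · intro y _ hy
      rw [mapPair_apply, Pi.single_eq_of_ne hy, map_zero, LinearMap.zero_apply]
    · intro h; exact absurd (Finset.mem_univ _) h

theorem PPair.ind_B (f : X → V) (f' : X → W) :
    (P.ind hX).B f f' = sumL (ZMod p) X (ZMod p) (mapPair P.B X f f') := rfl

/-- pairing with an invariant function -/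
noncomputable def bE (E : ↥(H0 (mapRep P.ρW X))) : Mor (mapRep P.ρV X) L (MX χ₀ X) L :=
  Mor.coeff L ((mapPair P.B X).flip E.1) fun g v => by
    have h1 := mapPair_isPairing P (X := X) g v E.1
    rw [(mem_H0 _).mp E.2] at h1
    exact h1

theorem bE_φ (E : ↥(H0 (mapRep P.ρW X))) (f : X → V) (x : X) :
    (bE P E).φ f x = P.B (f x) (E.1 x) := rfl

/-- multiplication by an invariant function -/
def mE (E : ↥(H0 (mapRep P.ρW X))) : Mor (FX p G X) L (mapRep P.ρW X) L :=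
  Mor.coeff L
    { toFun := fun f x => f x • E.1 x
      map_add' := fun f f' => funext fun x => by simp [add_smul]
      map_smul' := fun c f => funext fun x => by simp [mul_smul] } fun g f => by
    funext x
    show f (g⁻¹ • x) • E.1 x = P.ρW g (f (g⁻¹ • x) • E.1 (g⁻¹ • x))
    have h1 := congrFun ((mem_H0 _).mp E.2 g) x
    rw [mapRep_apply] at h1
    rw [map_smul, h1]

theorem mE_φ (E : ↥(H0 (mapRep P.ρW X))) (f : X → ZMod p) (x : X) :
    (mE P E).φ f x = f x • E.1 x := rfl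

theorem cup11_ind (hM : Smooth L (mu χ₀)) (E : ↥(H0 (mapRep P.ρW X)))
    (x : LC.H1 (mapRep P.ρV X) L) (c : LC.H1 (FX p G X) L) :
    cup11 (P.ind hX).pair (P.ind hX).smW x ((mE P E).H1 c) =
      - (sumM (mu χ₀) L X).H2 (beta hM hX c ((bE P E).H1 x)) := by
  have h1 := cup11_comm (isPairing_FX (mu χ₀) X).flip (Smooth.mapRep hM hX) (smooth_FX hX)
    ((bE P E).H1 x) c
  have h2 : cup11 (isPairing_FX (mu χ₀) X).flip (smooth_FX hX) ((bE P E).H1 x) c =
      - beta hM hX c ((bE P E).H1 x) := h1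
  rw [← map_neg, ← h2]
  obtain ⟨x, rfl⟩ := H1.mk_surjective x
  obtain ⟨c, rfl⟩ := H1.mk_surjective c
  rw [Mor.H1_mk, Mor.H1_mk, cup11_mk, Mor.H2_mk]
  erw [cup11_mk]
  congr 1
  ext q
  show sumL (ZMod p) X (ZMod p) _ = sumL (ZMod p) X (ZMod p) _
  congr 1
  funext y
  show P.B (x.1 q.1 y) (P.ρW q.1 (c.1 q.2 (q.1⁻¹ • y) • E.1 (q.1⁻¹ • y))) =
    c.1 q.2 (q.1⁻¹ • y) • P.B (x.1 q.1 y) (E.1 y)
  have h3 := congrFun ((mem_H0 _).mp E.2 q.1) y
  rw [mapRep_apply] at h3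
  rw [map_smul, h3, map_smul]

theorem cup20_ind (E : ↥(H0 (mapRep P.ρW X)))
    (z : LC.H2 (mapRep P.ρV X) L) :
    cup20 (P.ind hX).pair L z E = (sumM (mu χ₀) L X).H2 ((bE P E).H2 z) := by
  obtain ⟨z, rfl⟩ := H2.mk_surjective z
  rfl

/-- multiplication by a function -/
def mulL (η : X → ZMod p) : (X → ZMod p) →ₗ[ZMod p] (X → ZMod p) where
  toFun f x := f x • η x
  map_add' f f' := funext fun x => by simp [add_mul]
  map_smul' c f := funext fun x => by simp [mul_assoc]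

theorem cup02_ind {θ : X → (ZMod p)ˣ} (hθ : IsOri χ₀ θ) (E : ↥(H0 (mapRep P.ρW X)))
    (f : ↥(H0 (mapRep P.ρV X))) (h : ∀ x, P.B (f.1 x) (E.1 x) = θ x)
    (t : LC.H2 (FX p G X) L) :
    cup02 (P.ind hX).pair L f ((mE P E).H2 t) =
      (sumM (mu χ₀) L X).H2 ((thetaIso hθ L).H2 t) := by
  obtain ⟨t, rfl⟩ := H2.mk_surjective t
  rw [Mor.H2_mk]
  erw [cup02_mk]
  rw [MorIso.H2_apply, Mor.H2_mk, Mor.H2_mk]
  congr 1
  ext q
  show sumL (ZMod p) X (ZMod p) _ = sumL (ZMod p) X (ZMod p) _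
  congr 1
  funext y
  show P.B (f.1 y) (t.1 q y • E.1 y) = θ y * t.1 q y
  rw [map_smul, h, smul_eq_mul, mul_comm]

variable [Nonempty X] [MulAction.IsPretransitive G X] (F : Form p L ρ χ₀ δ)
  (hne : ∃ t : LC.H2 (mu χ₀) L, t ≠ 0) (x₀ : X)
  (hW : ∀ g : G, g • x₀ = x₀ → ∀ w, P.ρW g w = w)
  (hV : ∀ g : G, g • x₀ = x₀ → ∀ v, P.ρV g v = v)
  (hχ : MulAction.stabilizer G x₀ ≤ χ₀.ker)

include F hne hW in
theorem ind_inj0 : (P.ind hX).Inj0 := by
  intro f h
  by_contra hf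
  have hf0 : f.1 x₀ ≠ 0 := by
    intro h0
    exact hf (Subtype.ext (H0_ext f.2 (zero_mem _) x₀ h0))
  obtain ⟨w, hw⟩ : ∃ w, P.B (f.1 x₀) w ≠ 0 := by
    by_contra hcon
    push Not at hcon
    exact hf0 (P.left _ hcon)
  obtain ⟨E, hE, hE0⟩ := exists_H0_of_inv (ρ := P.ρW) x₀ w fun u hu => hW u hu w
  have h1 : ∀ x, P.B (f.1 x) (E x) ≠ 0 := by
    intro x
    obtain ⟨g, rfl⟩ := MulAction.exists_smul_eq G x₀ x
    rw [mem_H0_mapRep.mp f.2, mem_H0_mapRep.mp hE, P.pair, mu_apply, hE0]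
    exact mul_ne_zero (Units.ne_zero _) hw
  set θ : X → (ZMod p)ˣ := fun x => Units.mk0 _ (h1 x) with hθdef
  have hθ : IsOri χ₀ θ := by
    intro g x
    apply Units.ext
    rw [Units.val_mul, hθdef]
    simp only [Units.val_mk0]
    rw [mem_H0_mapRep.mp f.2, mem_H0_mapRep.mp hE, P.pair, mu_apply]
  obtain ⟨t, ht⟩ := hne
  apply ht
  obtain ⟨t₁, rfl⟩ := F.sum_surjective hX t
  obtain ⟨t₂, rfl⟩ := (thetaIso hθ L).H2.surjective t₁
  rw [← cup02_ind P hX hθ ⟨E, hE⟩ f (fun x => rfl) t₂]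
  exact h _

include F hne hW hχ in
/-- key lemma in degree 1 -/
theorem ind_key1 (x : Z1 (mapRep P.ρV X) L) (w : W)
    (h : ∀ y : LC.H1 (mapRep P.ρW X) L, cup11 (P.ind hX).pair (P.ind hX).smW
      (H1.mk (mapRep P.ρV X) L x) y = 0) (g : G) (hg : g • x₀ = x₀) :
    P.B (x.1 g x₀) w = 0 := by
  obtain ⟨E, hE, hE0⟩ := exists_H0_of_inv (ρ := P.ρW) x₀ w fun u hu => hW u hu w
  obtain ⟨θ, hθ⟩ := exists_isOri x₀ hχ
  have h1 : (bE P ⟨E, hE⟩).H1 (H1.mk (mapRep P.ρV X) L x) = 0 := by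
    refine F.right_nondeg hX hθ fun c => ?_
    apply F.sum_injective hX hθ hne
    rw [map_zero, ← neg_eq_zero, ← cup11_ind P hX F.smooth_mu]
    exact h _
  rw [Mor.H1_mk, H1.mk_eq_zero_iff] at h1
  obtain ⟨v, hv⟩ := h1
  have h2 := congrFun (hv g) x₀
  have h3 : g⁻¹ • x₀ = x₀ := by rw [inv_smul_eq_iff, hg]
  have h4 : χ₀ g = 1 := hχ hg
  rw [Pi.sub_apply, mapRep_apply, mu_apply, h4, h3, Units.val_one, one_mul, sub_self] at h2
  rw [← hE0]
  exact h2

include F hne hW hχ in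
theorem ind_inj1 : (P.ind hX).Inj1 := by
  intro x h
  obtain ⟨x, rfl⟩ := H1.mk_surjective x
  have h1 : ∀ g : G, g • x₀ = x₀ → x.1 g x₀ = 0 := fun g hg =>
    P.left _ fun w => ind_key1 P hX F hne x₀ hW hχ x w h g hg
  rw [H1.mk_eq_zero_iff]
  exact coboundary_of_stab (ρ := P.ρV) x.2 x₀ 0 fun g hg => by rw [h1 g hg]; simp

/-- coordinates through the pairing -/
theorem exists_coord [FiniteDimensional (ZMod p) V] [FiniteDimensional (ZMod p) W]
    (l : V →ₗ[ZMod p] ZMod p) : ∃ w, ∀ v, P.B v w = l v :=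
  surj_of_nondeg P.B.flip P.right P.left l

include F hne hW hV hχ in
theorem ind_key2 [FiniteDimensional (ZMod p) V] [FiniteDimensional (ZMod p) W]
    (z : LC.H2 (mapRep P.ρV X) L)
    (h : ∀ w : LC.H0 (mapRep P.ρW X), cup20 (P.ind hX).pair L z w = 0) : z = 0 := by
  obtain ⟨z, rfl⟩ := H2.mk_surjective z
  obtain ⟨θ, hθ⟩ := exists_isOri x₀ hχ
  set b := Module.finBasis (ZMod p) V with hb
  choose w hw using fun i => exists_coord P (b.coord i)
  choose E hE hE0 using fun i => exists_H0_of_inv (ρ := P.ρW) x₀ (w i) fun u hu => hW u hu (w i)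
  have h1 : ∀ i, (bE P ⟨E i, hE i⟩).H2 (H2.mk (mapRep P.ρV X) L z) = 0 := by
    intro i
    apply F.sum_injective hX hθ hne
    rw [map_zero, ← cup20_ind P hX]
    exact h _
  have h1' : ∀ i, ∃ y : G → X → ZMod p, IsLC₁ L y ∧
      d1 (MX χ₀ X) y = ((bE P ⟨E i, hE i⟩).z2 z).1 := fun i => by
    have h2 := h1 i
    rw [Mor.H2_mk, H2.mk_eq_zero_iff] at h2
    exact h2
  choose y hy hy' using h1'
  apply shM_H2_injective (ρ := P.ρV) hX x₀
  rw [map_zero, Mor.H2_mk, H2.mk_eq_zero_iff]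
  refine ⟨fun u => ∑ i, y i u x₀ • b i, ?_, ?_⟩
  · have h2 : IsLC₁ (L.restrict (MulAction.stabilizer G x₀))
        (fun (u : ↥(MulAction.stabilizer G x₀)) i => y i u x₀) :=
      isLC₁_pi fun i => ((hy i).pullback (L.cont_comap _)).comp fun f => f x₀
    exact h2.comp fun f => ∑ i, f i • b i
  · funext q
    show P.ρV (q.1 : G) (∑ i, y i q.2 x₀ • b i) - ∑ i, y i (q.1 * q.2 : G) x₀ • b i
      + ∑ i, y i q.1 x₀ • b i = z.1 ((q.1 : G), (q.2 : G)) x₀
    rw [hV _ q.1.2, ← Finset.sum_sub_distrib, ← Finset.sum_add_distrib]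
    rw [← b.sum_repr (z.1 ((q.1 : G), (q.2 : G)) x₀)]
    refine Finset.sum_congr rfl fun i _ => ?_
    rw [← sub_smul, ← add_smul]
    congr 1
    have h3 := congrFun (congrFun (hy' i) ((q.1 : G), (q.2 : G))) x₀
    have h4 : (q.1 : G)⁻¹ • x₀ = x₀ := by rw [inv_smul_eq_iff]; exact q.1.2.symm
    have h5 : χ₀ (q.1 : G) = 1 := hχ q.1.2
    have h6 : P.B (z.1 ((q.1 : G), (q.2 : G)) x₀) (E i x₀) =
        b.coord i (z.1 ((q.1 : G), (q.2 : G)) x₀) := by rw [hE0, hw]
    rw [Basis.coord_apply] at h6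
    rw [← h6]
    refine Eq.trans ?_ h3
    show _ = mu χ₀ (q.1 : G) (y i q.2 ((q.1 : G)⁻¹ • x₀)) - y i (q.1 * q.2 : G) x₀ + y i q.1 x₀
    rw [mu_apply, h5, h4, Units.val_one, one_mul]

include F hne hW hV hχ in
theorem ind_inj2 [FiniteDimensional (ZMod p) V] [FiniteDimensional (ZMod p) W] :
    (P.ind hX).Inj2 := fun z h => ind_key2 P hX F hne x₀ hW hV hχ z h

include F hX hne hW hV hχ in
theorem ind_finite1 [FiniteDimensional (ZMod p) V] [FiniteDimensional (ZMod p) W] :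
    FiniteDimensional (ZMod p) (LC.H1 (mapRep P.ρV X) L) := by
  obtain ⟨θ, hθ⟩ := exists_isOri x₀ hχ
  obtain ⟨h0, -⟩ := Form.finrank_H1 x₀ hχ F hX
  set b := Module.finBasis (ZMod p) V with hb
  choose w hw using fun i => exists_coord P (b.coord i)
  choose E hE hE0 using fun i => exists_H0_of_inv (ρ := P.ρW) x₀ (w i) fun u hu => hW u hu (w i)
  refine FiniteDimensional.of_injective
    (LinearMap.pi fun i => (bE P ⟨E i, hE i⟩).H1 : LC.H1 (mapRep P.ρV X) L →ₗ[ZMod p]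
      (Fin _ → LC.H1 (MX χ₀ X) L)) ?_
  rw [injective_iff_map_eq_zero]
  intro x hx
  obtain ⟨x, rfl⟩ := H1.mk_surjective x
  rw [H1.mk_eq_zero_iff]
  refine coboundary_of_stab (ρ := P.ρV) x.2 x₀ 0 fun g hg => ?_
  rw [map_zero, sub_zero]
  apply b.ext_elem
  intro i
  have h1 : (bE P ⟨E i, hE i⟩).H1 (H1.mk (mapRep P.ρV X) L x) = 0 := congrFun hx i
  rw [Mor.H1_mk, H1.mk_eq_zero_iff] at h1
  obtain ⟨v, hv⟩ := h1
  have h2 := congrFun (hv g) x₀
  have h3 : g⁻¹ • x₀ = x₀ := by rw [inv_smul_eq_iff, hg]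
  have h4 : χ₀ g = 1 := hχ hg
  rw [Pi.sub_apply, mapRep_apply, mu_apply, h4, h3, Units.val_one, one_mul, sub_self] at h2
  have h5 : P.B (x.1 g x₀) (E i x₀) = 0 := h2
  rw [hE0, hw, Basis.coord_apply] at h5
  rw [h5, map_zero]
  rfl

end Ind

end Fermat.Agent.CFT.LD
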