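import Fermat.Agent.CFT.LD.Dual2

/-!
# Local duality for a `p`-class formation
-/

set_option autoImplicit false
set_option linter.unusedSectionVars false

namespace Fermat.Agent.CFT.LD

open Fermat.Agent.CFT.LC Module
open Fermat.Agent.CFT.PT (mu mu_apply)

section SubQuot

variable {k : Type*} [CommRing k] {G : Type*} [Group G] {V : Type*} [AddCommGroup V] [Module k V]
  (ρ : Representation k G V) (S : Submodule k V) (hS : ∀ g, ∀ v ∈ S, ρ g v ∈ S)

/-- sub-representation -/
def subRep : Representation k G S where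
  toFun g := (ρ g).restrict (hS g)
  map_one' := by ext x; simp
  map_mul' g h := by ext x; simp

@[simp] theorem coe_subRep_apply (g : G) (v : S) : (subRep ρ S hS g v : V) = ρ g v := rfl

/-- quotient representation -/
def quotRep : Representation k G (V ⧸ S) where
  toFun g := S.mapQ S (ρ g) (hS g)
  map_one' := by
    refine LinearMap.ext fun x => ?_
    obtain ⟨x, rfl⟩ := S.mkQ_surjective x
    simp
  map_mul' g h := by
    refine LinearMap.ext fun x => ?_
    obtain ⟨x, rfl⟩ := S.mkQ_surjective x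
    simp

@[simp] theorem quotRep_mkQ (g : G) (v : V) : quotRep ρ S hS g (S.mkQ v) = S.mkQ (ρ g v) := rfl

variable {ρ S hS} {L : Lvl G}

theorem Smooth.subRep (h : Smooth L ρ) : Smooth L (LD.subRep ρ S hS) := by
  intro v
  obtain ⟨N, hN, h1⟩ := h v
  exact ⟨N, hN, fun g hg => Subtype.ext (h1 g hg)⟩

theorem Smooth.quotRep (h : Smooth L ρ) : Smooth L (LD.quotRep ρ S hS) := by
  intro v
  obtain ⟨v, rfl⟩ := S.mkQ_surjective v
  obtain ⟨N, hN, h1⟩ := h v
  exact ⟨N, hN, fun g hg => by rw [quotRep_mkQ, h1 g hg]⟩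

end SubQuot

variable {p : ℕ} [hp : Fact p.Prime] {G : Type} [Group G] {L : Lvl G}
variable {A : Type} [AddCommGroup A] {ρ : Representation ℤ G A} {χ₀ : G →* (ZMod p)ˣ} {δ : ℕ}

section Quo

variable {V W : Type} [AddCommGroup V] [Module (ZMod p) V] [AddCommGroup W] [Module (ZMod p) W]
  (P : PPair L χ₀ V W) {X : Type} [MulAction G X] [Finite X]
  (hX : SmoothSet L X)

theorem ind_flip : (P.ind hX).flip = P.flip.ind hX := by
  refine PPair.ext rfl rfl ?_
  refine LinearMap.ext fun f => LinearMap.ext fun f' => ?_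
  rfl

/-- constant functions -/
def constL (k : Type*) [CommRing k] (X : Type*) (M : Type*) [AddCommGroup M] [Module k M] :
    M →ₗ[k] (X → M) := LinearMap.pi fun _ => LinearMap.id

@[simp] theorem constL_apply {k : Type*} [CommRing k] {X : Type*} {M : Type*} [AddCommGroup M]
    [Module k M] (m : M) (x : X) : constL k X M m x = m := rfl

theorem sumL_B (v : V) (f' : X → W) :
    sumL (ZMod p) X (ZMod p) (fun x => P.B v (f' x)) = P.B v (sumL (ZMod p) X W f') := by
  have : Fintype X := Fintype.ofFinite X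
  rw [sumL_apply, sumL_apply, map_sum]

theorem const_stable (g : G) (f : X → V) (hf : f ∈ LinearMap.range (constL (ZMod p) X V)) :
    mapRep P.ρV X g f ∈ LinearMap.range (constL (ZMod p) X V) := by
  obtain ⟨v, rfl⟩ := hf
  exact ⟨P.ρV g v, rfl⟩

theorem ker_sum_stable (g : G) (f : X → W) (hf : f ∈ LinearMap.ker (sumL (ZMod p) X W)) :
    mapRep P.ρW X g f ∈ LinearMap.ker (sumL (ZMod p) X W) := by
  rw [LinearMap.mem_ker] at hf ⊢
  rw [sumL_comm, hf, map_zero]

/-- the quotient pairing -/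
noncomputable def PPair.quo [Nonempty X] :
    PPair L χ₀ ((X → V) ⧸ LinearMap.range (constL (ZMod p) X V))
      ↥(LinearMap.ker (sumL (ZMod p) X W)) where
  ρV := quotRep (mapRep P.ρV X) _ (const_stable P)
  ρW := subRep (mapRep P.ρW X) _ (ker_sum_stable P)
  smV := Smooth.quotRep (Smooth.mapRep P.smV hX)
  smW := Smooth.subRep (Smooth.mapRep P.smW hX)
  B := (LinearMap.range (constL (ZMod p) X V)).liftQ
    ((P.ind hX).B.compl₂ (LinearMap.ker (sumL (ZMod p) X W)).subtype) (by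
      rintro _ ⟨v, rfl⟩
      rw [LinearMap.mem_ker]
      refine LinearMap.ext fun f' => ?_
      show sumL (ZMod p) X (ZMod p) (fun x => P.B v (f'.1 x)) = 0
      rw [sumL_B, LinearMap.mem_ker.mp f'.2, map_zero])
  pair := by
    intro g f f'
    obtain ⟨f, rfl⟩ := Submodule.mkQ_surjective _ f
    exact (P.ind hX).pair g f f'.1
  left := by
    intro f h
    obtain ⟨f, rfl⟩ := Submodule.mkQ_surjective _ f
    have : Fintype X := Fintype.ofFinite X
    classical
    obtain ⟨x₀⟩ := (inferInstance : Nonempty X)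
    rw [Submodule.mkQ_apply, Submodule.Quotient.mk_eq_zero]
    refine ⟨f x₀, funext fun x => ?_⟩
    rw [constL_apply]
    symm
    rw [← sub_eq_zero]
    apply P.left
    intro w
    have hmem : (Pi.single x w - Pi.single x₀ w : X → W) ∈
        LinearMap.ker (sumL (ZMod p) X W) := by
      rw [LinearMap.mem_ker, map_sub, sumL_apply, sumL_apply, Finset.sum_pi_single',
        Finset.sum_pi_single']
      simp
    have h1 : (P.ind hX).B f (Pi.single x w - Pi.single x₀ w) = 0 := h ⟨_, hmem⟩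
    have h2 : ∀ y : X, (P.ind hX).B f (Pi.single y w) = P.B (f y) w := by
      intro y
      rw [PPair.ind_B, sumL_apply, Finset.sum_eq_single y]
      · simp
      · intro z _ hz
        rw [mapPair_apply, Pi.single_eq_of_ne hz, map_zero]
      · intro h; exact absurd (Finset.mem_univ _) h
    rw [map_sub, h2, h2] at h1
    rw [map_sub, LinearMap.sub_apply]
    exact h1
  right := by
    intro f h
    apply Subtype.ext
    apply (P.ind hX).right
    intro v
    exact h (Submodule.mkQ _ v)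

variable [Nonempty X]

/-- the exact sequence `V → (X → V) → quo` -/
noncomputable def sesV : SES L P.ρV (P.ind hX).ρV (P.quo hX).ρV where
  i := constL (ZMod p) X V
  q := Submodule.mkQ _
  i_comm _ _ := rfl
  q_comm _ _ := rfl
  inj := by
    obtain ⟨x₀⟩ := (inferInstance : Nonempty X)
    intro v v' h
    exact congrFun h x₀
  surj := Submodule.mkQ_surjective _
  exact b hb := by
    rw [Submodule.mkQ_apply, Submodule.Quotient.mk_eq_zero] at hb
    exact hb
  q_i a := by
    rw [Submodule.mkQ_apply, Submodule.Quotient.mk_eq_zero]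
    exact ⟨a, rfl⟩
  smooth := Smooth.mapRep P.smV hX

/-- the exact sequence `ker → (X → W) → W` -/
noncomputable def sesW : SES L (P.quo hX).ρW (P.ind hX).ρW P.ρW where
  i := Submodule.subtype _
  q := sumL (ZMod p) X W
  i_comm _ _ := rfl
  q_comm g b := sumL_comm P.ρW g b
  inj := Subtype.val_injective
  surj := by
    obtain ⟨x₀⟩ := (inferInstance : Nonempty X)
    intro w
    have : Fintype X := Fintype.ofFinite X
    classical
    refine ⟨Pi.single x₀ w, ?_⟩
    rw [sumL_apply, Finset.sum_pi_single']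
    simp
  exact b hb := ⟨⟨b, hb⟩, rfl⟩
  q_i a := a.2
  smooth := Smooth.mapRep P.smW hX

theorem ses_adj1 (a : V) (b' : X → W) :
    (P.ind hX).B ((sesV P hX).i a) b' = P.B a ((sesW P hX).q b') := sumL_B P a b'

theorem ses_adj2 (b : X → V) (c' : ↥(LinearMap.ker (sumL (ZMod p) X W))) :
    (P.quo hX).B ((sesV P hX).q b) c' = (P.ind hX).B b ((sesW P hX).i c') := rfl

end Quo

section Main

theorem isOpen_ker_χ (F : Form p L ρ χ₀ δ) : L.IsOpen χ₀.ker := by
  obtain ⟨N, hN, h⟩ := F.smooth_mu 1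
  refine ⟨N, hN, fun g hg => ?_⟩
  have := h g hg
  rw [mu_apply, mul_one] at this
  exact Units.ext this

/-- dimension of `H²(μ)` -/
theorem Form.finrank_H2_mu (F : Form p L ρ χ₀ δ) (hne : ∃ t : LC.H2 (mu χ₀) L, t ≠ 0) :
    finrank (ZMod p) (LC.H2 (mu χ₀) L) = 1 := by
  have hko := isOpen_ker_χ F
  have hfin : Finite (G ⧸ χ₀.ker) := by
    have := hko.finiteIndex
    infer_instance
  have hX : SmoothSet L (G ⧸ χ₀.ker) := SmoothSet.quotient hko
  have hst : MulAction.stabilizer G ((1 : G) : G ⧸ χ₀.ker) = χ₀.ker :=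
    MulAction.stabilizer_quotient _
  obtain ⟨θ, hθ⟩ := exists_isOri (χ₀ := χ₀) ((1 : G) : G ⧸ χ₀.ker) hst.le
  rw [← F.finrank_H2 hX hθ]
  exact (LinearEquiv.ofBijective (sumM (mu χ₀) L (G ⧸ χ₀.ker)).H2
    ⟨F.sum_injective hX hθ hne, F.sum_surjective hX⟩).finrank_eq.symm

theorem Form.exists_inv (F : Form p L ρ χ₀ δ) (hne : ∃ t : LC.H2 (mu χ₀) L, t ≠ 0) :
    Nonempty (LC.H2 (mu χ₀) L ≃ₗ[ZMod p] ZMod p) := by
  have h1 := F.finrank_H2_mu hne
  have h2 : FiniteDimensional (ZMod p) (LC.H2 (mu χ₀) L) :=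
    FiniteDimensional.of_finrank_eq_succ h1
  exact ⟨LinearEquiv.ofFinrankEq _ _ (by rw [h1, finrank_self])⟩

variable {V W : Type} [AddCommGroup V] [Module (ZMod p) V] [AddCommGroup W] [Module (ZMod p) W]
  [FiniteDimensional (ZMod p) V] [FiniteDimensional (ZMod p) W]

/-- A level acting trivially on everything. -/
theorem exists_good_level (F : Form p L ρ χ₀ δ) (P : PPair L χ₀ V W) :
    ∃ N ∈ L.levels, N ≤ χ₀.ker ∧ (∀ g ∈ N, ∀ v, P.ρV g v = v) ∧
      (∀ g ∈ N, ∀ w, P.ρW g w = w) := by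
  obtain ⟨N₁, h1, h1', h1''⟩ := PT.exists_level_trivial_le P.smV (isOpen_ker_χ F)
  obtain ⟨N₂, h2, h2'⟩ := PT.exists_level_trivial P.smW
  obtain ⟨N, hN, h3, h4⟩ := L.directed N₁ h1 N₂ h2
  refine ⟨N, hN, h3.trans h1', fun g hg v => ?_, fun g hg w => ?_⟩
  · rw [h1'' g (h3 hg)]; rfl
  · rw [h2' g (h4 hg)]; rfl

variable (F : Form p L ρ χ₀ δ) (hne : ∃ t : LC.H2 (mu χ₀) L, t ≠ 0)

include F hne in
/-- The data needed for the dévissage. -/
theorem exists_good_set (P : PPair L χ₀ V W) :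
    ∃ N : Subgroup G, ∃ _ : Finite (G ⧸ N), ∃ hX : SmoothSet L (G ⧸ N),
      (P.ind hX).Inj0 ∧ (P.ind hX).Inj1 ∧ (P.ind hX).Inj2 ∧
      (P.ind hX).flip.Inj0 ∧ (P.ind hX).flip.Inj1 ∧ (P.ind hX).flip.Inj2 ∧
      FiniteDimensional (ZMod p) (LC.H1 (P.ind hX).ρV L) := by
  obtain ⟨N, hN, hNχ, hNV, hNW⟩ := exists_good_level F P
  have hNo : L.IsOpen N := ⟨N, hN, le_rfl⟩
  have hfin : Finite (G ⧸ N) := by
    have := hNo.finiteIndex
    infer_instance
  have hX : SmoothSet L (G ⧸ N) := SmoothSet.quotient hNo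
  have hst : MulAction.stabilizer G ((1 : G) : G ⧸ N) = N := MulAction.stabilizer_quotient _
  set x₀ : G ⧸ N := ((1 : G) : G ⧸ N) with hx₀
  have hχ : MulAction.stabilizer G x₀ ≤ χ₀.ker := by rw [hst]; exact hNχ
  have hW : ∀ g : G, g • x₀ = x₀ → ∀ w, P.ρW g w = w := fun g hg => hNW g (by
    rw [← hst]; exact hg)
  have hV : ∀ g : G, g • x₀ = x₀ → ∀ v, P.ρV g v = v := fun g hg => hNV g (by
    rw [← hst]; exact hg)
  refine ⟨N, hfin, hX, ?_, ?_, ?_, ?_, ?_, ?_, ?_⟩
  · exact ind_inj0 P hX F hne x₀ hW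
  · exact ind_inj1 P hX F hne x₀ hW hχ
  · exact ind_inj2 P hX F hne x₀ hW hV hχ
  · rw [ind_flip]; exact ind_inj0 P.flip hX F hne x₀ hV
  · rw [ind_flip]; exact ind_inj1 P.flip hX F hne x₀ hV hχ
  · rw [ind_flip]; exact ind_inj2 P.flip hX F hne x₀ hV hW hχ
  · exact ind_finite1 P hX F hne x₀ hW hV hχ

include F hne in
theorem Form.inj0 (P : PPair L χ₀ V W) : P.Inj0 := by
  obtain ⟨N, hfin, hX, h0, -⟩ := exists_good_set F hne P
  exact inj0_of_inj0 P (P.ind hX) (P.quo hX) (sesV P hX) (sesW P hX) (ses_adj1 P hX) h0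

include F hne in
theorem Form.inj1 (P : PPair L χ₀ V W) : P.Inj1 := by
  obtain ⟨inv⟩ := F.exists_inv hne
  obtain ⟨N, hfin, hX, h0, h1, h2, h0', h1', h2', hf⟩ := exists_good_set F hne P
  exact inj1_of_inj0 P (P.ind hX) (P.quo hX) (sesV P hX) (sesW P hX) (ses_adj1 P hX)
    (ses_adj2 P hX) (inv := inv.toLinearMap) inv.injective (F.inj0 hne _)
    (PPair.surj0_of_inj inv.injective h0 h2') h1

include F hne in
theorem Form.inj2 (P : PPair L χ₀ V W) : P.Inj2 := by
  obtain ⟨inv⟩ := F.exists_inv hne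
  obtain ⟨N, hfin, hX, h0, h1, h2, h0', h1', h2', hf⟩ := exists_good_set F hne P
  exact inj2_of_inj1 P (P.ind hX) (P.quo hX) (sesV P hX) (sesW P hX) (ses_adj1 P hX)
    (ses_adj2 P hX) (inv := inv.toLinearMap) inv.injective (F.inj1 hne _)
    (PPair.surj1_of_inj inv.injective h1 h1') h2

include F hne in
theorem Form.fin1 (P : PPair L χ₀ V W) : FiniteDimensional (ZMod p) (LC.H1 P.ρV L) := by
  obtain ⟨N, hfin, hX, h0, h1, h2, h0', h1', h2', hf⟩ := exists_good_set F hne P
  have h3 : FiniteDimensional (ZMod p) (LC.H0 (P.quo hX).ρV) := inferInstance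
  exact finite_of_exact (sesV P hX).exact_δ0_H1

include F hne in
theorem Form.fin2 (P : PPair L χ₀ V W) : FiniteDimensional (ZMod p) (LC.H2 P.ρV L) := by
  obtain ⟨inv⟩ := F.exists_inv hne
  refine finite_of_nondeg (M := LC.H0 P.ρW) ((cup20 P.pair L).compr₂ inv.toLinearMap).flip ?_
  intro z hz
  refine F.inj2 hne P z fun w => inv.injective ?_
  rw [map_zero]
  exact hz w

end Main

end Fermat.Agent.CFT.LD
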