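import Fermat.Agent.CFT.LD.Package

/-!
# Complements: nonvanishing of `H²(μ)`, restriction to subgroups of index `p`,
surjectivity of corestriction
-/

set_option autoImplicit false
set_option linter.unusedSectionVars false

namespace Fermat.Agent.CFT.LD

open Fermat.Agent.CFT.LC Module
open Fermat.Agent.CFT.PT (mu mu_apply mu_comp)

variable {p : ℕ} [hp : Fact p.Prime] {G : Type} [Group G] {L : Lvl G}
variable {A : Type} [AddCommGroup A] {ρ : Representation ℤ G A} {χ₀ : G →* (ZMod p)ˣ} {δ : ℕ}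

/-- the cocycle on the point attached to a character -/
def homZ1 (φ : G →* Multiplicative (ZMod p)) (hφ : L.IsOpen φ.ker) :
    Z1 (FX p G PUnit.{1}) L :=
  ⟨fun g _ => (φ g).toAdd, by
    rw [mem_Z1]
    refine ⟨fun g h => funext fun x => ?_, ?_⟩
    · show (φ (g * h)).toAdd = (φ h).toAdd + (φ g).toAdd
      rw [map_mul, toAdd_mul, add_comm]
    · obtain ⟨N, hN, h⟩ := hφ
      refine ⟨N, hN, fun g s hs => ?_⟩
      have h2 : φ s = 1 := h hs
      simp only [map_mul, h2, mul_one]⟩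

theorem homZ1_ne_zero {φ : G →* Multiplicative (ZMod p)} (hφ : L.IsOpen φ.ker) (h1 : φ ≠ 1) :
    H1.mk (FX p G PUnit.{1}) L (homZ1 φ hφ) ≠ 0 := by
  intro h
  rw [H1.mk_eq_zero_iff] at h
  obtain ⟨v, hv⟩ := h
  apply h1
  ext g
  have h2 := congrFun (hv g) PUnit.unit
  have h3 : (φ g).toAdd = v PUnit.unit - v PUnit.unit := h2
  rw [sub_self] at h3
  rw [h3]
  rfl

/-- `H²(G, μ)` is nonzero as soon as `G` has a nontrivial character with values in `ZMod p`. -/
theorem Form.exists_ne_of_hom (F : Form p L ρ χ₀ δ) {φ : G →* Multiplicative (ZMod p)}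
    (hφ : L.IsOpen φ.ker) (h1 : φ ≠ 1) : ∃ t : LC.H2 (mu χ₀) L, t ≠ 0 := by
  have h2 := F.finrank_range_beta (smoothSet_punit L) (homZ1_ne_zero hφ h1)
  by_contra hcon
  push Not at hcon
  have h3 : beta F.smooth_mu (smoothSet_punit L) (H1.mk (FX p G PUnit.{1}) L (homZ1 φ hφ)) = 0 := by
    refine LinearMap.ext fun d => ?_
    apply (evIso (mu χ₀) L).H2.injective
    rw [LinearMap.zero_apply, map_zero]
    exact hcon _
  rw [h3, LinearMap.range_zero, finrank_bot] at h2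
  exact zero_ne_one h2

/-- the local duality package from a nontrivial character -/
noncomputable def Form.inv₀ (F : Form p L ρ χ₀ δ) {φ : G →* Multiplicative (ZMod p)}
    (hφ : L.IsOpen φ.ker) (h1 : φ ≠ 1) : LC.H2 (mu χ₀) L ≃ₗ[ZMod p] ZMod p :=
  Classical.choice (F.exists_inv (F.exists_ne_of_hom hφ h1))

/-- Restriction to the kernel of a nontrivial character kills `H²(μ)`. -/
theorem Form.res_ker_eq_zero (F : Form p L ρ χ₀ δ) {φ : G →* Multiplicative (ZMod p)}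
    (hφ : L.IsOpen φ.ker) (h1 : φ ≠ 1) (t : LC.H2 (mu χ₀) L) :
    (Mor.resSub (mu χ₀) L φ.ker).H2 t = 0 := by
  set χ := homZ1 φ hφ with hχ
  have hχ0 := homZ1_ne_zero hφ h1
  have hr := F.finrank_range_beta (smoothSet_punit L) hχ0
  have h2 : finrank (ZMod p) (LC.H2 (MX χ₀ PUnit.{1}) L) = 1 := by
    rw [(evIso (mu χ₀) L).H2.finrank_eq]
    exact F.finrank_H2_mu (F.exists_ne_of_hom hφ h1)
  have hfd : FiniteDimensional (ZMod p) (LC.H2 (MX χ₀ PUnit.{1}) L) :=
    FiniteDimensional.of_finrank_eq_succ h2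
  have h3 : LinearMap.range (beta F.smooth_mu (smoothSet_punit L)
      (H1.mk (FX p G PUnit.{1}) L χ)) = ⊤ := by
    apply Submodule.eq_top_of_finrank_eq
    rw [hr, h2]
  obtain ⟨t₁, rfl⟩ := (evIso (mu χ₀) L).H2.surjective t
  have h4 : t₁ ∈ LinearMap.range (beta F.smooth_mu (smoothSet_punit L)
      (H1.mk (FX p G PUnit.{1}) L χ)) := by rw [h3]; trivial
  obtain ⟨d, rfl⟩ := h4
  have h5 := pull_beta_self F.smooth_mu (smoothSet_punit L) χ d
  set y₀ : Tors χ := ⟨PUnit.unit, 0⟩ with hy₀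
  let m : Mor (MX χ₀ (Tors χ)) L ((mu χ₀).comp φ.ker.subtype) (L.restrict φ.ker) :=
    { f := φ.ker.subtype
      φ := LinearMap.proj y₀
      cont := L.cont_comap _
      comm := fun h v => by
        have h6 : (h : G)⁻¹ • y₀ = y₀ := by
          ext
          · show (0 : ZMod p) + (φ (h : G)⁻¹).toAdd = 0
            have : φ (h : G)⁻¹ = 1 := φ.ker.inv_mem h.2
            rw [this]
            simp
        show mu χ₀ (h : G) (v ((h : G)⁻¹ • y₀)) = mu χ₀ (h : G) (v y₀)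
        rw [h6] }
  have h6 : m.comp (pullM (mu χ₀) L (Tors.pt (χ := χ)) (pt_equiv χ)) =
      (Mor.resSub (mu χ₀) L φ.ker).comp (evIso (mu χ₀) L).m := by
    ext1
    · rfl
    · rfl
  rw [MorIso.H2_apply, ← Mor.H2_comp, ← h6, Mor.H2_comp, h5, map_zero]

/-- Corestriction is surjective on `H²(μ)`. -/
theorem Form.cor2_surjective (F : Form p L ρ χ₀ δ) {X : Type} [Fintype X]
    {π : G →* Equiv.Perm X} (hπ : L.IsOpen π.ker) {x₀ : X} (hx₀ : ∀ x, ∃ g, π g x₀ = x) :
    Function.Surjective (cor2 (mu χ₀) hπ hx₀) := by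
  let _ : MulAction G X := MulAction.compHom X π
  have hX : SmoothSet L X := by
    obtain ⟨N, hN, h⟩ := hπ
    intro x
    refine ⟨N, hN, fun s hs => ?_⟩
    have h2 : π s = 1 := h hs
    show π s x = x
    rw [h2]
    rfl
  have : Nonempty X := ⟨x₀⟩
  have : MulAction.IsPretransitive G X := by
    refine ⟨fun x y => ?_⟩
    obtain ⟨g, hg⟩ := hx₀ x
    obtain ⟨h, hh⟩ := hx₀ y
    refine ⟨h * g⁻¹, ?_⟩
    show π (h * g⁻¹) x = y
    rw [map_mul, map_inv, Equiv.Perm.mul_apply, ← hg, ← Equiv.Perm.mul_apply (π g)⁻¹,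
      inv_mul_cancel, Equiv.Perm.one_apply, hh]
  intro t
  obtain ⟨t₁, ht₁⟩ := F.sum_surjective hX t
  let m : Mor (mapRep (mu χ₀) X) L (funRep π (mu χ₀)) L :=
    Mor.coeff L LinearMap.id fun g v => by
      funext x
      show mu χ₀ g (v (π g⁻¹ x)) = mu χ₀ g (v ((π g)⁻¹ x))
      rw [map_inv]
  refine ⟨(shMor π (mu χ₀) L x₀).H2 (m.H2 t₁), ?_⟩
  rw [cor2, LinearMap.comp_apply]
  have h1 : (shapiro2 (mu χ₀) hπ hx₀).symm ((shMor π (mu χ₀) L x₀).H2 (m.H2 t₁)) = m.H2 t₁ :=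
    (shapiro2 (mu χ₀) hπ hx₀).symm_apply_apply (m.H2 t₁)
  rw [LinearEquiv.coe_coe, h1, ← ht₁, ← Mor.H2_comp]
  congr 2
  ext1
  · rfl
  · refine LinearMap.ext fun f => ?_
    show (∑ x, LinearMap.proj x : (X → ZMod p) →ₗ[ZMod p] ZMod p) f =
      sumL (ZMod p) X (ZMod p) f
    rw [sumL_apply]
    simp

end Fermat.Agent.CFT.LD
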