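import Fermat.Agent.CFT.LD.Trans
import Fermat.Agent.CFT.PT.Defs

/-!
# `p`-class formations (in degree `p`)

`Form p L ρ χ₀ δ` : axioms in terms of open subgroups; consequences for transitive `G`-sets.
-/

set_option autoImplicit false

namespace Fermat.Agent.CFT.LD

open Fermat.Agent.CFT.LC
open Fermat.Agent.CFT.PT (mu mu_apply)

section Invs

variable {G : Type*} [Group G] {A : Type*} [AddCommGroup A] (ρ : Representation ℤ G A)

/-- the invariants of a subgroup -/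
def invs (U : Subgroup G) : AddSubgroup A where
  carrier := {a | ∀ u ∈ U, ρ u a = a}
  add_mem' {a b} ha hb u hu := by
    show ρ u (a + b) = a + b
    rw [map_add, ha u hu, hb u hu]
  zero_mem' u _ := map_zero _
  neg_mem' {a} ha u hu := by
    show ρ u (-a) = -a
    rw [map_neg, ha u hu]

theorem mem_invs {U : Subgroup G} {a : A} : a ∈ invs ρ U ↔ ∀ u ∈ U, ρ u a = a := Iff.rfl

/-- the norm operator `∑_{i < p} s^i` -/
def nrm (p : ℕ) (s : G) : A →+ A where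
  toFun a := ∑ i ∈ Finset.range p, ρ (s ^ i) a
  map_zero' := by simp
  map_add' a b := by simp [Finset.sum_add_distrib]

@[simp] theorem nrm_apply (p : ℕ) (s : G) (a : A) :
    nrm ρ p s a = ∑ i ∈ Finset.range p, ρ (s ^ i) a := rfl

end Invs

/-- the representation on functions `X → μ_p` -/
noncomputable abbrev MX {p : ℕ} [Fact p.Prime] {G : Type} [Group G] (χ₀ : G →* (ZMod p)ˣ) (X : Type)
    [MulAction G X] : Representation (ZMod p) G (X → ZMod p) := mapRep (mu χ₀) X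

/-- A `p`-class formation (only the degree `p` information). -/
structure Form (p : ℕ) [Fact p.Prime] {G : Type} [Group G] (L : Lvl G) {A : Type}
    [AddCommGroup A] (ρ : Representation ℤ G A) (χ₀ : G →* (ZMod p)ˣ) (δ : ℕ) where
  /-- the identification of the twisted module with the `p`-torsion -/
  μ : MuMod ρ (mu χ₀)
  smooth : Smooth L ρ
  smooth_mu : Smooth L (mu χ₀)
  div : ∀ a : A, ∃ b, p • b = a
  h90 : ∀ U : Subgroup G, L.IsOpen U → ∀ f ∈ Z1 (ρ.comp U.subtype) (L.restrict U),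
    ∃ a, ∀ u : U, f u = ρ u a - a
  card : ∀ U : Subgroup G, L.IsOpen U → U ≤ χ₀.ker →
    ((invs ρ U).map (nsmulAddMonoidHom p)).relIndex (invs ρ U) = p ^ (2 + δ * U.index)
  norm : ∀ U V : Subgroup G, L.IsOpen V → V ≤ U → (V.subgroupOf U).Normal → V.relIndex U = p →
    ∀ s ∈ U, s ∉ V → ((invs ρ V).map (nrm ρ p s)).relIndex (invs ρ U) = p

variable {p : ℕ} [hp : Fact p.Prime] {G : Type} [Group G] {L : Lvl G} {A : Type}
  [AddCommGroup A] {ρ : Representation ℤ G A} {χ₀ : G →* (ZMod p)ˣ} {δ : ℕ}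

namespace Form

variable (F : Form p L ρ χ₀ δ) {X : Type} [MulAction G X]

include F in
theorem h90X [MulAction.IsPretransitive G X] [Nonempty X] (hX : SmoothSet L X) :
    H90 L ρ X := by
  intro f hf
  obtain ⟨x₀⟩ := (inferInstance : Nonempty X)
  have h1 : (shM ρ L x₀).c1 f ∈ Z1 (ρ.comp (MulAction.stabilizer G x₀).subtype)
      (L.restrict (MulAction.stabilizer G x₀)) := (shM ρ L x₀).c1_mem_Z1 hf
  obtain ⟨a, ha⟩ := F.h90 _ (hX.isOpen_stabilizer x₀) _ h1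
  exact coboundary_of_stab hf x₀ a fun g hg => ha ⟨g, hg⟩

theorem kum_unique {μ : MuMod ρ (mu χ₀)} {ψ ψ' : Z1 (MX χ₀ X) L} {F₁ F₂ : X → A}
    (h : IsKum μ ψ.1 F₁) (h' : IsKum μ ψ'.1 F₂) (h0 : p • F₁ = p • F₂) :
    H1.mk (MX χ₀ X) L ψ = H1.mk (MX χ₀ X) L ψ' := by
  rw [← sub_eq_zero, ← map_sub, H1.mk_eq_zero_iff]
  have h1 : IsKum μ (ψ - ψ').1 (F₁ - F₂) := by
    have := h.add h'.neg
    rw [← sub_eq_add_neg, ← sub_eq_add_neg] at this
    exact this
  obtain ⟨v, hv⟩ := h1.to_coboundary (b := 0) (zero_mem _) (by rw [smul_sub, h0, sub_self, smul_zero])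
  exact ⟨v, fun g => funext fun x => hv g x⟩

variable [Finite X]

/-- the Kummer map -/
noncomputable def kum (hX : SmoothSet L X) :
    ↥(H0 (mapRep ρ X)) →+ H1 (MX χ₀ X) L :=
  AddMonoidHom.mk' (fun a => H1.mk (MX χ₀ X) L (exists_kum F.μ F.smooth hX F.div a.2).choose) (by
    intro a b
    have ha := (exists_kum F.μ F.smooth hX F.div a.2).choose_spec
    have hb := (exists_kum F.μ F.smooth hX F.div b.2).choose_spec
    have hab := (exists_kum F.μ F.smooth hX F.div (a + b).2).choose_spec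
    obtain ⟨F₁, h1, h1'⟩ := ha
    obtain ⟨F₂, h2, h2'⟩ := hb
    obtain ⟨F₃, h3, h3'⟩ := hab
    rw [← map_add]
    refine kum_unique h3 (h1.add h2) ?_
    rw [h3', smul_add, h1', h2']
    rfl)

theorem kum_eq (hX : SmoothSet L X) {a : ↥(H0 (mapRep ρ X))} {ψ : Z1 (MX χ₀ X) L}
    {F₁ : X → A} (h : IsKum F.μ ψ.1 F₁) (ha : p • F₁ = a.1) : F.kum hX a = H1.mk (MX χ₀ X) L ψ := by
  obtain ⟨F₂, h2, h2'⟩ := (exists_kum F.μ F.smooth hX F.div a.2).choose_spec
  exact kum_unique h2 h (by rw [h2', ha])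

theorem exists_kum_eq (hX : SmoothSet L X) (a : ↥(H0 (mapRep ρ X))) :
    ∃ (ψ : Z1 (MX χ₀ X) L) (F₁ : X → A), IsKum F.μ ψ.1 F₁ ∧ p • F₁ = a.1 ∧
      F.kum hX a = H1.mk (MX χ₀ X) L ψ := by
  obtain ⟨ψ, F₁, h1, h2⟩ := exists_kum F.μ F.smooth hX F.div a.2
  exact ⟨ψ, F₁, h1, h2, F.kum_eq hX h1 h2⟩

theorem kum_surjective [MulAction.IsPretransitive G X] [Nonempty X] (hX : SmoothSet L X) :
    Function.Surjective (F.kum hX) := by
  intro t
  obtain ⟨ψ, rfl⟩ := H1.mk_surjective t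
  obtain ⟨F₁, h⟩ := exists_isKum F.μ (F.h90X hX) ψ
  exact ⟨⟨p • F₁, h.smul_mem_H0⟩, F.kum_eq hX h rfl⟩

theorem kum_eq_zero_iff (hX : SmoothSet L X) (a : ↥(H0 (mapRep ρ X))) :
    F.kum hX a = 0 ↔ ∃ b ∈ H0 (mapRep ρ X), p • b = a.1 := by
  obtain ⟨ψ, F₁, h1, h2, h3⟩ := F.exists_kum_eq hX a
  rw [h3, H1.mk_eq_zero_iff]
  constructor
  · rintro ⟨v, hv⟩
    obtain ⟨b, hb, hb'⟩ := h1.of_coboundary v fun g x => congrFun (hv g) x
    exact ⟨b, hb, hb'.trans h2⟩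
  · rintro ⟨b, hb, hb'⟩
    obtain ⟨v, hv⟩ := h1.to_coboundary hb (hb'.trans h2.symm)
    exact ⟨v, fun g => funext fun x => hv g x⟩

end Form

section Eval

variable {X : Type} [MulAction G X] [MulAction.IsPretransitive G X]

/-- evaluation of invariants at a point -/
def ev (ρ : Representation ℤ G A) (x₀ : X) :
    ↥(H0 (mapRep ρ X)) →+ ↥(invs ρ (MulAction.stabilizer G x₀)) where
  toFun f := ⟨f.1 x₀, fun u hu => by
    have := mem_H0_mapRep.mp f.2 u x₀
    rw [← this, MulAction.mem_stabilizer_iff.mp hu]⟩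
  map_zero' := rfl
  map_add' _ _ := rfl

omit [MulAction.IsPretransitive G X] in
@[simp] theorem coe_ev (x₀ : X) (f : ↥(H0 (mapRep ρ X))) : (ev ρ x₀ f : A) = f.1 x₀ := rfl

theorem ev_surjective (x₀ : X) : Function.Surjective (ev ρ x₀) := by
  rintro ⟨a, ha⟩
  obtain ⟨f, hf, h⟩ := exists_H0_of_inv (ρ := ρ) x₀ a fun u hu => ha u hu
  exact ⟨⟨f, hf⟩, Subtype.ext h⟩

variable (F : Form p L ρ χ₀ δ) [Finite X] [Nonempty X] (hX : SmoothSet L X)

include F hX in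
theorem Form.cardX (x₀ : X) (h0 : MulAction.stabilizer G x₀ ≤ χ₀.ker) :
    Nat.card (H1 (MX χ₀ X) L) = p ^ (2 + δ * Nat.card X) := by
  have h1 := F.card _ (hX.isOpen_stabilizer x₀) h0
  rw [MulAction.index_stabilizer_of_transitive] at h1
  rw [← h1, ← AddSubgroup.index_bot, ← AddSubgroup.index_comap_of_surjective _
    (F.kum_surjective hX), AddSubgroup.relIndex,
    ← AddSubgroup.index_comap_of_surjective _ (ev_surjective (ρ := ρ) x₀)]
  congr 1
  ext f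
  rw [AddSubgroup.mem_comap, AddSubgroup.mem_bot, F.kum_eq_zero_iff, AddSubgroup.mem_comap,
    AddSubgroup.mem_addSubgroupOf, AddSubgroup.mem_map]
  constructor
  · rintro ⟨b, hb, hb'⟩
    refine ⟨b x₀, (ev ρ x₀ ⟨b, hb⟩).2, ?_⟩
    exact congrFun hb' x₀
  · rintro ⟨b, hb, hb'⟩
    obtain ⟨f', hf', h'⟩ := exists_H0_of_inv (ρ := ρ) x₀ b fun u hu => hb u hu
    refine ⟨f', hf', H0_ext ((H0 (mapRep ρ X)).smul_of_tower_mem p hf') f.2 x₀ ?_⟩
    rw [Pi.smul_apply, h']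
    exact hb'

end Eval

end Fermat.Agent.CFT.LD
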