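import Mathlib
import Fermat.Agent.CFT.LC.Basic

/-!
# Functions on finite `G`-sets as coefficient modules

For a `G`-set `X` and a representation `ρ` on `M` we consider the representation on `X → M`
given by `(g f)(x) = g f(g⁻¹ x)`, pull back and push forward along equivariant maps.
-/

set_option autoImplicit false

namespace Fermat.Agent.CFT.LD

open Fermat.Agent.CFT.LC

section Defs

variable {k : Type*} [CommRing k] {G : Type*} [Group G] {M : Type*} [AddCommGroup M] [Module k M]
variable (ρ : Representation k G M) (X : Type*) [MulAction G X]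

/-- functions on a `G`-set, `(g f)(x) = g f(g⁻¹ x)`. -/
def mapRep : Representation k G (X → M) where
  toFun g :=
    { toFun := fun f x => ρ g (f (g⁻¹ • x))
      map_add' := fun f f' => by ext x; simp
      map_smul' := fun c f => by ext x; simp }
  map_one' := by ext f x; simp
  map_mul' g h := by
    refine LinearMap.ext fun f => funext fun x => ?_
    simp [mul_smul]

@[simp] theorem mapRep_apply (g : G) (f : X → M) (x : X) :
    mapRep ρ X g f x = ρ g (f (g⁻¹ • x)) := rfl

/-- every point has an open stabiliser -/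
def SmoothSet (L : Lvl G) (X : Type*) [MulAction G X] : Prop :=
  ∀ x : X, ∃ N ∈ L.levels, ∀ s ∈ N, s • x = x

variable {ρ X}

theorem SmoothSet.exists_level {L : Lvl G} (h : SmoothSet L X) [Finite X] :
    ∃ N ∈ L.levels, ∀ s ∈ N, ∀ x : X, s • x = x := by
  choose N hN h1 using h
  obtain ⟨W, hW, h2⟩ := L.exists_level_le_finite N hN
  exact ⟨W, hW, fun s hs x => h1 x s (h2 x hs)⟩

theorem Smooth.mapRep {L : Lvl G} (hρ : Smooth L ρ) (hX : SmoothSet L X) [Finite X] :
    Smooth L (LD.mapRep ρ X) := by
  intro f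
  obtain ⟨N, hN, h1⟩ := hX.exists_level
  obtain ⟨N', hN', h2⟩ := hρ.exists_level_of_finite (Set.finite_range f)
  obtain ⟨W, hW, h3, h4⟩ := L.directed N hN N' hN'
  refine ⟨W, hW, fun s hs => funext fun x => ?_⟩
  rw [mapRep_apply, h1 s⁻¹ (N.inv_mem (h3 hs)) x]
  exact h2 s (h4 hs) _ ⟨x, rfl⟩

theorem mem_H0_mapRep {f : X → M} :
    f ∈ H0 (mapRep ρ X) ↔ ∀ (g : G) (x : X), f (g • x) = ρ g (f x) := by
  rw [mem_H0]
  constructor
  · intro h g x
    have := congrFun (h g) (g • x)
    rw [mapRep_apply, inv_smul_smul] at this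
    exact this.symm
  · intro h g
    funext x
    rw [mapRep_apply, ← h, smul_inv_smul]

theorem SmoothSet.quotient {L : Lvl G} {U : Subgroup G} (hU : L.IsOpen U) :
    SmoothSet L (G ⧸ U) := by
  obtain ⟨N, hN, hNU⟩ := hU
  have := L.normal N hN
  intro x
  obtain ⟨g, rfl⟩ := QuotientGroup.mk_surjective x
  refine ⟨N, hN, fun s hs => ?_⟩
  show ((s * g : G) : G ⧸ U) = g
  rw [eq_comm, QuotientGroup.eq]
  have h1 : g⁻¹ * (s * g) = g⁻¹ * s * g⁻¹⁻¹ := by group
  rw [h1]
  exact hNU (this.conj_mem s hs g⁻¹)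

theorem SmoothSet.of_surj {L : Lvl G} {Y : Type*} [MulAction G Y] (hX : SmoothSet L X)
    {φ : X → Y} (hφ : ∀ (g : G) x, φ (g • x) = g • φ x) (hs : Function.Surjective φ) :
    SmoothSet L Y := by
  intro y
  obtain ⟨x, rfl⟩ := hs y
  obtain ⟨N, hN, h⟩ := hX x
  exact ⟨N, hN, fun s hs => by rw [← hφ, h s hs]⟩

end Defs

section PullPush

variable {k : Type*} [CommRing k] {G : Type*} [Group G] {M : Type*} [AddCommGroup M] [Module k M]
variable (ρ : Representation k G M) {X Y Z : Type*} [MulAction G X] [MulAction G Y]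
  [MulAction G Z]

/-- pull back of functions -/
def pull (k : Type*) [CommRing k] {M : Type*} [AddCommGroup M] [Module k M] {X Y : Type*}
    (φ : Y → X) : (X → M) →ₗ[k] (Y → M) where
  toFun f y := f (φ y)
  map_add' _ _ := rfl
  map_smul' _ _ := rfl

@[simp] theorem pull_apply (φ : Y → X) (f : X → M) (y : Y) : pull k φ f y = f (φ y) := rfl

theorem pull_equiv {φ : Y → X} (hφ : ∀ (g : G) y, φ (g • y) = g • φ y) (g : G) (f : X → M) :
    pull k φ (mapRep ρ X g f) = mapRep ρ Y g (pull k φ f) := by
  funext y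
  simp [hφ]

open Classical in
/-- push forward of functions (sum over the fibres) -/
noncomputable def push (k : Type*) [CommRing k] {M : Type*} [AddCommGroup M] [Module k M]
    {X Y : Type*} [Finite Y] (φ : Y → X) : (Y → M) →ₗ[k] (X → M) where
  toFun f x := ∑ᶠ y : {y // φ y = x}, f y.1
  map_add' f f' := by
    funext x
    have : Fintype {y // φ y = x} := Fintype.ofFinite _
    simp only [finsum_eq_sum_of_fintype, Pi.add_apply, Finset.sum_add_distrib]
  map_smul' c f := by
    funext x
    have : Fintype {y // φ y = x} := Fintype.ofFinite _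
    simp only [finsum_eq_sum_of_fintype, Pi.smul_apply, Finset.smul_sum, RingHom.id_apply]

theorem push_apply [Finite Y] (φ : Y → X) (f : Y → M) (x : X) :
    push k φ f x = ∑ᶠ y : {y // φ y = x}, f y.1 := rfl

theorem push_equiv [Finite Y] {φ : Y → X} (hφ : ∀ (g : G) y, φ (g • y) = g • φ y) (g : G)
    (f : Y → M) : push k φ (mapRep ρ Y g f) = mapRep ρ X g (push k φ f) := by
  funext x
  rw [mapRep_apply, push_apply, push_apply]
  have h1 : Finite {y // φ y = x} := inferInstance
  have : Fintype {y // φ y = x} := Fintype.ofFinite _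
  have : Fintype {y // φ y = g⁻¹ • x} := Fintype.ofFinite _
  rw [finsum_eq_sum_of_fintype, finsum_eq_sum_of_fintype, map_sum]
  let e : {y // φ y = x} ≃ {y // φ y = g⁻¹ • x} :=
    { toFun := fun y => ⟨g⁻¹ • y.1, by rw [hφ, y.2]⟩
      invFun := fun y => ⟨g • y.1, by rw [hφ, y.2, smul_inv_smul]⟩
      left_inv := fun y => by ext; simp
      right_inv := fun y => by ext; simp }
  exact Fintype.sum_equiv e _ _ fun y => rfl

theorem push_push [Finite Y] [Finite Z] (φ : Y → X) (ψ : Z → Y) (f : Z → M) :
    push k φ (push k ψ f) = push k (φ ∘ ψ) f := by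
  funext x
  simp only [push_apply]
  have : Fintype {y // φ y = x} := Fintype.ofFinite _
  have : Fintype {z // (φ ∘ ψ) z = x} := Fintype.ofFinite _
  have : ∀ y, Fintype {z // ψ z = y} := fun _ => Fintype.ofFinite _
  simp only [finsum_eq_sum_of_fintype]
  rw [← Fintype.sum_sigma' (fun (y : {y // φ y = x}) (z : {z // ψ z = y.1}) => f z.1)]
  refine Fintype.sum_equiv
    { toFun := fun z => ⟨z.2.1, by rw [Function.comp_apply, z.2.2, z.1.2]⟩
      invFun := fun z => ⟨⟨ψ z.1, z.2⟩, ⟨z.1, rfl⟩⟩
      left_inv := ?_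
      right_inv := fun z => rfl } _ _ fun z => rfl
  rintro ⟨⟨y, hy⟩, ⟨z, hz⟩⟩
  dsimp only at hz
  subst hz
  rfl

theorem push_pull_of_card [Finite Y] (φ : Y → X) (m : ℕ)
    (h : ∀ x, Nat.card {y // φ y = x} = m) (f : X → M) :
    push k φ (pull k φ f) = m • f := by
  funext x
  rw [push_apply]
  have : Fintype {y // φ y = x} := Fintype.ofFinite _
  rw [finsum_eq_sum_of_fintype]
  have h1 : ∀ y : {y // φ y = x}, pull k φ f y.1 = f x := fun y => by rw [pull_apply, y.2]
  simp only [h1, Finset.sum_const, Finset.card_univ, Pi.smul_apply, ← h x,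
    Nat.card_eq_fintype_card]

/-- the projection formula -/
theorem push_mul [Finite Y] {V W P : Type*} [AddCommGroup V] [Module k V] [AddCommGroup W]
    [Module k W] [AddCommGroup P] [Module k P] (B : V →ₗ[k] W →ₗ[k] P) (φ : Y → X) (f : X → V)
    (f' : Y → W) :
    push k φ (fun y => B (pull k φ f y) (f' y)) = fun x => B (f x) (push k φ f' x) := by
  funext x
  simp only [push_apply]
  have : Fintype {y // φ y = x} := Fintype.ofFinite _
  simp only [finsum_eq_sum_of_fintype]
  rw [map_sum]
  exact Finset.sum_congr rfl fun y _ => by rw [pull_apply, y.2]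

theorem push_naturality [Finite Y] {M' : Type*} [AddCommGroup M'] [Module k M']
    (θ : M →ₗ[k] M') (φ : Y → X) (f : Y → M) :
    push k φ (fun y => θ (f y)) = fun x => θ (push k φ f x) := by
  funext x
  simp only [push_apply]
  have : Fintype {y // φ y = x} := Fintype.ofFinite _
  simp only [finsum_eq_sum_of_fintype, map_sum]

end PullPush

section Prod

variable {k : Type*} [CommRing k] {G : Type*} [Group G] {V W P : Type*} [AddCommGroup V]
  [Module k V] [AddCommGroup W] [Module k W] [AddCommGroup P] [Module k P]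

/-- pointwise product -/
def mapPair (B : V →ₗ[k] W →ₗ[k] P) (X : Type*) : (X → V) →ₗ[k] (X → W) →ₗ[k] (X → P) :=
  LinearMap.mk₂ k (fun f f' x => B (f x) (f' x))
    (fun _ _ _ => funext fun x => by simp)
    (fun _ _ _ => funext fun x => by simp)
    (fun _ _ _ => funext fun x => by simp)
    (fun _ _ _ => funext fun x => by simp)

@[simp] theorem mapPair_apply (B : V →ₗ[k] W →ₗ[k] P) (X : Type*) (f : X → V) (f' : X → W)
    (x : X) : mapPair B X f f' x = B (f x) (f' x) := rfl

end Prod

end Fermat.Agent.CFT.LD
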