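import Mathlib
import Fermat.Agent.CFT.LC.Basic
import Fermat.Agent.CFT.LC.Cup
import Fermat.Agent.CFT.LD.MapRep

/-!
# The `ZMod p`-torsor attached to a cocycle with values in functions on a `G`-set
-/

set_option autoImplicit false

namespace Fermat.Agent.CFT.LD

open Fermat.Agent.CFT.LC

section Triv

variable (p : ℕ) (G : Type*) [Group G]

/-- the trivial representation on `ZMod p` -/
abbrev tr : Representation (ZMod p) G (ZMod p) := Representation.trivial (ZMod p) G (ZMod p)

/-- the representation on functions `X → ZMod p` -/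
abbrev FX (X : Type*) [MulAction G X] : Representation (ZMod p) G (X → ZMod p) :=
  mapRep (tr p G) X

variable {p G}

theorem smooth_tr (L : Lvl G) : Smooth L (tr p G) := by
  intro v
  obtain ⟨N, hN⟩ := L.nonempty
  exact ⟨N, hN, fun s _ => rfl⟩

@[simp] theorem tr_apply (g : G) (c : ZMod p) : tr p G g c = c := rfl

@[simp] theorem FX_apply {X : Type*} [MulAction G X] (g : G) (f : X → ZMod p) (x : X) :
    FX p G X g f x = f (g⁻¹ • x) := rfl

theorem smooth_FX {L : Lvl G} {X : Type*} [MulAction G X] [Finite X] (hX : SmoothSet L X) :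
    Smooth L (FX p G X) := Smooth.mapRep (smooth_tr L) hX

theorem coc {L : Lvl G} {X : Type*} [MulAction G X] (χ : Z1 (FX p G X) L) (g h : G) (x : X) :
    χ.1 (g * h) x = χ.1 h (g⁻¹ • x) + χ.1 g x := by
  have := congrFun (((mem_Z1 _ _).mp χ.2).1 g h) x
  simpa using this

theorem coc_one {L : Lvl G} {X : Type*} [MulAction G X] (χ : Z1 (FX p G X) L) (x : X) :
    χ.1 1 x = 0 := by
  rw [Z1.map_one χ.2]; rfl

theorem coc_inv {L : Lvl G} {X : Type*} [MulAction G X] (χ : Z1 (FX p G X) L) (g : G) (x : X) :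
    χ.1 g⁻¹ (g⁻¹ • x) = - χ.1 g x := by
  have := coc χ g g⁻¹ x
  rw [mul_inv_cancel, coc_one] at this
  exact eq_neg_of_add_eq_zero_left this.symm

end Triv

variable {p : ℕ} {G : Type*} [Group G] {X : Type*} [MulAction G X] {L : Lvl G}

/-- The torsor over `X` attached to a cocycle `χ`. -/
@[ext] structure Tors (χ : Z1 (FX p G X) L) where
  /-- the point of `X` -/
  pt : X
  /-- the index -/
  ix : ZMod p

namespace Tors

variable (χ : Z1 (FX p G X) L)

instance : MulAction G (Tors χ) where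
  smul g y := ⟨g • y.pt, y.ix + χ.1 g (g • y.pt)⟩
  one_smul y := by
    show (⟨(1 : G) • y.pt, y.ix + χ.1 1 ((1 : G) • y.pt)⟩ : Tors χ) = y
    ext
    · exact one_smul G y.pt
    · simp [coc_one]
  mul_smul g h y := by
    show (⟨(g * h) • y.pt, y.ix + χ.1 (g * h) ((g * h) • y.pt)⟩ : Tors χ) =
      ⟨g • h • y.pt, y.ix + χ.1 h (h • y.pt) + χ.1 g (g • h • y.pt)⟩
    ext
    · exact mul_smul g h y.pt
    · simp only
      rw [coc, mul_smul, inv_smul_smul, add_assoc]

theorem smul_def (g : G) (y : Tors χ) : g • y = ⟨g • y.pt, y.ix + χ.1 g (g • y.pt)⟩ := rfl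

@[simp] theorem smul_pt (g : G) (y : Tors χ) : (g • y).pt = g • y.pt := rfl

@[simp] theorem smul_ix (g : G) (y : Tors χ) : (g • y).ix = y.ix + χ.1 g (g • y.pt) := rfl

theorem inv_smul_ix (g : G) (y : Tors χ) : (g⁻¹ • y).ix = y.ix - χ.1 g y.pt := by
  rw [smul_ix, coc_inv, sub_eq_add_neg]

/-- the underlying set is a product -/
def equivProd : Tors χ ≃ X × ZMod p where
  toFun y := (y.pt, y.ix)
  invFun y := ⟨y.1, y.2⟩
  left_inv _ := rfl
  right_inv _ := rfl

instance [Finite X] [NeZero p] : Finite (Tors χ) := Finite.of_equiv _ (equivProd χ).symm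

theorem smoothSet [Finite X] (hX : SmoothSet L X) : SmoothSet L (Tors χ) := by
  intro y
  obtain ⟨N, hN, h1⟩ := hX.exists_level
  obtain ⟨N', hN', h2⟩ := ((mem_Z1 _ _).mp χ.2).2
  obtain ⟨W, hW, h3, h4⟩ := L.directed N hN N' hN'
  refine ⟨W, hW, fun s hs => ?_⟩
  have h5 : χ.1 s = 0 := by
    have := h2 1 s (h4 hs)
    rw [one_mul] at this
    rw [this]
    exact Z1.map_one χ.2
  ext
  · exact h1 s (h3 hs) _
  · rw [smul_ix, h5]; simp

/-- the rotation -/
def R (y : Tors χ) : Tors χ := ⟨y.pt, y.ix + 1⟩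

@[simp] theorem R_pt (y : Tors χ) : (R χ y).pt = y.pt := rfl
@[simp] theorem R_ix (y : Tors χ) : (R χ y).ix = y.ix + 1 := rfl

theorem R_smul (g : G) (y : Tors χ) : R χ (g • y) = g • R χ y := by
  ext
  · rfl
  · simp [add_right_comm]

section D

variable {k : Type*} [CommRing k] {M : Type*} [AddCommGroup M] [Module k M]

/-- the difference operator `h ↦ h ∘ R - h`. -/
def D (χ : Z1 (FX p G X) L) : (Tors χ → M) →+ (Tors χ → M) where
  toFun h y := h (R χ y) - h y
  map_zero' := by ext; simp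
  map_add' h h' := by ext y; simp only [Pi.add_apply]; abel

@[simp] theorem D_apply (h : Tors χ → M) (y : Tors χ) : D χ h y = h (R χ y) - h y := rfl

theorem D_equiv (ρ : Representation k G M) (g : G) (h : Tors χ → M) :
    D χ (mapRep ρ _ g h) = mapRep ρ _ g (D χ h) := by
  funext y
  simp only [D_apply, mapRep_apply, ← R_smul, map_sub]

theorem D_pull (w : X → M) : D χ (fun y => w y.pt) = 0 := by
  funext y
  simp

variable [NeZero p]

theorem exists_of_D_eq_zero {h : Tors χ → M} (h0 : D χ h = 0) :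
    ∀ y, h y = h ⟨y.pt, 0⟩ := by
  have h1 : ∀ (x : X) (n : ℕ), h ⟨x, (n : ZMod p)⟩ = h ⟨x, 0⟩ := by
    intro x n
    induction n with
    | zero => simp
    | succ n ih =>
      have := congrFun h0 ⟨x, n⟩
      rw [D_apply, Pi.zero_apply, sub_eq_zero] at this
      rw [← ih, ← this, R, Nat.cast_succ]
  intro y
  have := h1 y.pt y.ix.val
  rw [ZMod.natCast_zmod_val] at this
  exact this

theorem sum_range_eq (f : ZMod p → M) :
    ∑ j ∈ Finset.range p, f (j : ZMod p) = ∑ i : ZMod p, f i := by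
  refine Finset.sum_bij (fun j _ => (j : ZMod p)) (fun _ _ => Finset.mem_univ _) ?_ ?_
    (fun _ _ => rfl)
  · intro a ha b hb hab
    rw [Finset.mem_range] at ha hb
    have := congrArg ZMod.val hab
    rwa [ZMod.val_cast_of_lt ha, ZMod.val_cast_of_lt hb] at this
  · intro b _
    exact ⟨b.val, Finset.mem_range.mpr (ZMod.val_lt b), ZMod.natCast_zmod_val b⟩

theorem exists_D_eq {f : Tors χ → M} (h0 : ∀ x, ∑ i : ZMod p, f ⟨x, i⟩ = 0) :
    ∃ h : Tors χ → M, D χ h = f := by
  refine ⟨fun y => ∑ j ∈ Finset.range y.ix.val, f ⟨y.pt, j⟩, funext fun y => ?_⟩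
  simp only [D_apply, R_pt, R_ix]
  by_cases hp1 : y.ix.val + 1 < p
  · have h1 : (y.ix + 1).val = y.ix.val + 1 := by
      have : y.ix + 1 = ((y.ix.val + 1 : ℕ) : ZMod p) := by
        rw [Nat.cast_succ, ZMod.natCast_zmod_val]
      rw [this, ZMod.val_cast_of_lt hp1]
    rw [h1, Finset.sum_range_succ, ZMod.natCast_zmod_val]
    abel
  · have h2 : y.ix.val + 1 = p := by
      have := ZMod.val_lt y.ix
      omega
    have h1 : y.ix + 1 = 0 := by
      have : y.ix + 1 = ((y.ix.val + 1 : ℕ) : ZMod p) := by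
        rw [Nat.cast_succ, ZMod.natCast_zmod_val]
      rw [this, h2, ZMod.natCast_self]
    have h3 := sum_range_eq (fun i : ZMod p => f ⟨y.pt, i⟩)
    rw [h0 y.pt] at h3
    have h4 : ∑ j ∈ Finset.range (y.ix.val + 1), f ⟨y.pt, (j : ZMod p)⟩ = 0 := by
      rw [h2]; exact h3
    rw [Finset.sum_range_succ, ZMod.natCast_zmod_val] at h4
    rw [h1, ZMod.val_zero, Finset.sum_range_zero, zero_sub, neg_eq_iff_add_eq_zero]
    exact h4

end D

section Push

variable {k : Type*} [CommRing k] {M : Type*} [AddCommGroup M] [Module k M]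

/-- the fibres of the projection are copies of `ZMod p` -/
def fibEquiv (x : X) : {y : Tors χ // y.pt = x} ≃ ZMod p where
  toFun y := y.1.ix
  invFun i := ⟨⟨x, i⟩, rfl⟩
  left_inv := by rintro ⟨⟨_, i⟩, rfl⟩; rfl
  right_inv _ := rfl

theorem push_pt [Finite X] [NeZero p] (f : Tors χ → M) (x : X) :
    push k (Tors.pt (χ := χ)) f x = ∑ i : ZMod p, f ⟨x, i⟩ := by
  rw [push_apply]
  have : Fintype {y : Tors χ // y.pt = x} := Fintype.ofFinite _
  rw [finsum_eq_sum_of_fintype]
  exact Fintype.sum_equiv (fibEquiv χ x) _ _ (by rintro ⟨⟨_, i⟩, rfl⟩; rfl)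

theorem card_fib (x : X) : Nat.card {y : Tors χ // y.pt = x} = p := by
  rw [Nat.card_congr (fibEquiv χ x), Nat.card_zmod]

end Push

end Tors

end Fermat.Agent.CFT.LD
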