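import Mathlib
import Fermat.Agent.CFT.LC.Basic
import Fermat.Agent.CFT.LC.Cup
import Fermat.Agent.CFT.LD.MapRep
import Fermat.Agent.CFT.LD.Torsor

/-!
# Kummer theory, symbols and the kernel of restriction to a cyclic covering

Explicit cochain computations.
-/

set_option autoImplicit false

namespace Fermat.Agent.CFT.LD

open Fermat.Agent.CFT.LC

section Carry

variable {p : ℕ}

/-- the carry of the addition of `a` and `b` -/
def carry (a b : ZMod p) : ℤ := ((a.val + b.val) / p : ℕ)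

theorem carry_spec [NeZero p] (a b : ZMod p) :
    (p : ℤ) * carry a b = a.val + b.val - (a + b).val := by
  have h1 := Nat.mod_add_div (a.val + b.val) p
  rw [← ZMod.val_add] at h1
  rw [carry]
  zify at h1
  push_cast at h1 ⊢
  linarith

theorem val_add_one_int [NeZero p] (hp : 1 < p) (i : ZMod p) :
    ((i + 1).val : ℤ) = i.val + 1 - p * (if i = -1 then 1 else 0) := by
  have : Fact (1 < p) := ⟨hp⟩
  by_cases h : i = -1
  · subst h
    have h1 : ((-1 : ZMod p).val : ℤ) = p - 1 := by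
      have h2 : (-1 : ZMod p) ≠ 0 := by
        rw [Ne, neg_eq_zero]; exact one_ne_zero
      have h3 := ZMod.val_add (-1 : ZMod p) 1
      have h4 := ZMod.val_one p
      have h5 := ZMod.val_lt (-1 : ZMod p)
      have h6 : (-1 : ZMod p) = ((p - 1 : ℕ) : ZMod p) := by
        rw [Nat.cast_sub hp.le, ZMod.natCast_self]; simp
      have h7 : (-1 : ZMod p).val = p - 1 := by
        rw [h6, ZMod.val_cast_of_lt (by omega)]
      rw [h7]
      push_cast [Nat.cast_sub hp.le]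
      ring
    simp [h1]
  · rw [if_neg h, mul_zero, sub_zero]
    have h1 : i.val + 1 < p := by
      have h2 := ZMod.val_lt i
      rcases Nat.lt_or_ge (i.val + 1) p with h3 | h3
      · exact h3
      · exfalso
        apply h
        have h4 : i.val + 1 = p := by omega
        have h5 : i + 1 = ((i.val + 1 : ℕ) : ZMod p) := by
          rw [Nat.cast_succ, ZMod.natCast_zmod_val]
        rw [h4, ZMod.natCast_self] at h5
        exact eq_neg_of_add_eq_zero_left h5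
    have h2 : i + 1 = ((i.val + 1 : ℕ) : ZMod p) := by
      rw [Nat.cast_succ, ZMod.natCast_zmod_val]
    rw [h2, ZMod.val_cast_of_lt h1]
    push_cast
    ring

end Carry

section Eps

variable {p : ℕ} [hp : Fact p.Prime] {G : Type*} [Group G] {X : Type*} [MulAction G X] {L : Lvl G}
  (χ : Z1 (FX p G X) L)

/-- the integral cochain `K` on the torsor -/
def Kf (g : G) (y : Tors χ) : ℤ := carry (χ.1 g y.pt) (y.ix - χ.1 g y.pt)

/-- the carry 2-cocycle -/
def eps (q : G × G) (x : X) : ℤ := carry (χ.1 q.1 x) (χ.1 q.2 (q.1⁻¹ • x))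

theorem Kf_spec (g : G) (y : Tors χ) :
    (p : ℤ) * Kf χ g y = (χ.1 g y.pt).val + (y.ix - χ.1 g y.pt).val - y.ix.val := by
  rw [Kf, carry_spec, add_sub_cancel]

theorem eps_spec (q : G × G) (x : X) :
    (p : ℤ) * eps χ q x =
      (χ.1 q.1 x).val + (χ.1 q.2 (q.1⁻¹ • x)).val - (χ.1 (q.1 * q.2) x).val := by
  rw [eps, carry_spec, coc, add_comm (χ.1 q.1 x)]

theorem pz_ne_zero : (p : ℤ) ≠ 0 := Int.natCast_ne_zero.mpr hp.out.ne_zero

theorem eps_eq (q : G × G) (y : Tors χ) :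
    eps χ q y.pt = Kf χ q.2 (q.1⁻¹ • y) - Kf χ (q.1 * q.2) y + Kf χ q.1 y := by
  apply mul_left_cancel₀ (pz_ne_zero (p := p))
  rw [mul_add, mul_sub, eps_spec, Kf_spec, Kf_spec, Kf_spec, Tors.inv_smul_ix, Tors.smul_pt]
  have h1 : y.ix - χ.1 q.1 y.pt - χ.1 q.2 (q.1⁻¹ • y.pt) = y.ix - χ.1 (q.1 * q.2) y.pt := by
    rw [coc]; ring
  rw [h1]
  ring

/-- the indicator function of the section of index `-1` -/
def sec (y : Tors χ) : ℤ := if y.ix = -1 then 1 else 0

theorem Kf_R (g : G) (y : Tors χ) :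
    Kf χ g (Tors.R χ y) - Kf χ g y = -(sec χ (g⁻¹ • y) - sec χ y) := by
  apply mul_left_cancel₀ (pz_ne_zero (p := p))
  rw [mul_sub, Kf_spec, Kf_spec, sec, sec, Tors.inv_smul_ix, Tors.R_pt, Tors.R_ix,
    val_add_one_int hp.out.one_lt]
  have h1 : y.ix + 1 - χ.1 g y.pt = (y.ix - χ.1 g y.pt) + 1 := by ring
  rw [h1, val_add_one_int hp.out.one_lt]
  ring

theorem Kf_isLC : IsLC₁ L (Kf χ) :=
  ((mem_Z1 _ _).mp χ.2).2.comp (fun (f : X → ZMod p) (y : Tors χ) =>
    carry (f y.pt) (y.ix - f y.pt))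

end Eps

section EA

variable {p : ℕ} [hp : Fact p.Prime] {G : Type*} [Group G] {X : Type*} [MulAction G X] {L : Lvl G}
  {A : Type*} [AddCommGroup A] (ρ : Representation ℤ G A) (χ : Z1 (FX p G X) L)

/-- the 2-cochain `ε · a` -/
def eA (a : X → A) (q : G × G) (x : X) : A := eps χ q x • a x

/-- the 1-cochain `- K · a` on the torsor -/
def phi (a : X → A) (g : G) (y : Tors χ) : A := -(Kf χ g y • a y.pt)

/-- `f₀ = a` on the section, `0` otherwise -/
def f0 (a : X → A) (y : Tors χ) : A := sec χ y • a y.pt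

theorem phi_isLC (a : X → A) : IsLC₁ L (phi χ a) :=
  (Kf_isLC χ).comp (fun (f : Tors χ → ℤ) (y : Tors χ) => -(f y • a y.pt))

variable {ρ}

theorem D_phi {a : X → A} (ha : a ∈ H0 (mapRep ρ X)) (g : G) :
    Tors.D χ (phi χ a g) = d0 (mapRep ρ (Tors χ)) (f0 χ a) g := by
  rw [mem_H0_mapRep] at ha
  funext y
  have h1 := ha g (g⁻¹ • y.pt)
  rw [smul_inv_smul] at h1
  simp only [Tors.D_apply, phi, f0, d0_apply, Pi.sub_apply, mapRep_apply, Tors.R_pt, map_zsmul,
    Tors.smul_pt, ← h1]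
  rw [neg_sub_neg, ← sub_smul, ← sub_smul]
  congr 1
  have := Kf_R χ g y
  linarith

theorem d1_phi {a : X → A} (ha : a ∈ H0 (mapRep ρ X)) (q : G × G) (y : Tors χ) :
    d1 (mapRep ρ (Tors χ)) (phi χ a) q y = - eA χ a q y.pt := by
  rw [mem_H0_mapRep] at ha
  have h1 := ha q.1 (q.1⁻¹ • y.pt)
  rw [smul_inv_smul] at h1
  simp only [d1_apply, Pi.add_apply, Pi.sub_apply, mapRep_apply, phi, eA, map_neg, map_zsmul,
    Tors.smul_pt, ← h1, eps_eq, add_smul, sub_smul]
  abel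

theorem push_f0 [Finite X] (a : X → A) : push ℤ (Tors.pt (χ := χ)) (f0 χ a) = a := by
  funext x
  rw [Tors.push_pt]
  simp only [f0, sec]
  rw [Finset.sum_eq_single (-1)]
  · simp
  · intro i _ hi
    simp [hi]
  · intro h
    exact absurd (Finset.mem_univ _) h

theorem push_D [Finite X] (h : Tors χ → A) : push ℤ (Tors.pt (χ := χ)) (Tors.D χ h) = 0 := by
  funext x
  rw [Tors.push_pt]
  simp only [Tors.D_apply, Tors.R, Finset.sum_sub_distrib, Pi.zero_apply]
  rw [sub_eq_zero]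
  exact Fintype.sum_equiv (Equiv.addRight 1) _ _ fun i => rfl

/-- Hilbert 90 for a `G`-set. -/
def H90 (L : Lvl G) (ρ : Representation ℤ G A) (X : Type*) [MulAction G X] : Prop :=
  ∀ f ∈ Z1 (mapRep ρ X) L, ∃ F : X → A, ∀ g, f g = d0 (mapRep ρ X) F g

variable [Finite X] (hX : SmoothSet L X)

/-- If `ε a` is a coboundary then `a` is a norm. -/
theorem norm_of_eA (hY : H90 L ρ (Tors χ)) {a : X → A} (ha : a ∈ H0 (mapRep ρ X))
    {y : G → X → A} (hy : IsLC₁ L y) (h : d1 (mapRep ρ X) y = eA χ a) :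
    ∃ b ∈ H0 (mapRep ρ (Tors χ)), push ℤ (Tors.pt (χ := χ)) b = a := by
  have h1 : (fun g => pull ℤ (Tors.pt (χ := χ)) (y g) + phi χ a g) ∈
      Z1 (mapRep ρ (Tors χ)) L := by
    refine ⟨LinearMap.mem_ker.mpr (funext fun q => funext fun z => ?_), ?_⟩
    · have h2 := d1_phi χ ha q z
      have h3 := congrFun (congrFun h q) z.pt
      simp only [d1_apply, Pi.add_apply, Pi.sub_apply, mapRep_apply, pull_apply, map_add,
        Pi.zero_apply, Tors.smul_pt] at h2 h3 ⊢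
      rw [← h3] at h2
      rw [← sub_eq_zero] at h2
      rw [← h2]
      abel
    · exact ((hy.comp (pull ℤ (Tors.pt (χ := χ)))).add (phi_isLC χ a))
  obtain ⟨h, hh⟩ := hY _ h1
  have h2 : ∀ g, d0 (mapRep ρ (Tors χ)) (f0 χ a) g =
      d0 (mapRep ρ (Tors χ)) (Tors.D χ h) g := by
    intro g
    rw [← D_phi χ ha g, d0_apply, ← Tors.D_equiv, ← map_sub, ← d0_apply, ← hh g, map_add]
    have : Tors.D χ (pull ℤ (Tors.pt (χ := χ)) (y g)) = 0 := Tors.D_pull χ (y g)
    rw [this, zero_add]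
  refine ⟨f0 χ a - Tors.D χ h, ?_, ?_⟩
  · rw [mem_H0]
    intro g
    have := h2 g
    rw [d0_apply, d0_apply, sub_eq_sub_iff_sub_eq_sub] at this
    rw [map_sub, this]
  · rw [map_sub, push_f0, push_D, sub_zero]

include hX in
/-- If `a` is a norm then `ε a` is a coboundary. -/
theorem eA_of_norm (hρ : Smooth L ρ) {b : Tors χ → A} (hb : b ∈ H0 (mapRep ρ (Tors χ)))
    {a : X → A} (ha : a ∈ H0 (mapRep ρ X)) (hab : push ℤ (Tors.pt (χ := χ)) b = a) :
    ∃ y : G → X → A, IsLC₁ L y ∧ d1 (mapRep ρ X) y = eA χ a := by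
  obtain ⟨h, hh⟩ := Tors.exists_D_eq χ (f := f0 χ a - b) (by
    intro x
    rw [← Tors.push_pt (k := ℤ), map_sub, push_f0, hab, sub_self]; rfl)
  have h1 : ∀ g, Tors.D χ (phi χ a g - d0 (mapRep ρ (Tors χ)) h g) = 0 := by
    intro g
    rw [map_sub, D_phi χ ha g, d0_apply, d0_apply, map_sub, Tors.D_equiv, hh, map_sub,
      (mem_H0 _).mp hb]
    abel
  have h2 := fun g => Tors.exists_of_D_eq_zero χ (h1 g)
  have hlc : IsLC₁ L (fun g => phi χ a g - d0 (mapRep ρ (Tors χ)) h g) :=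
    (phi_isLC χ a).sub
      ((((Smooth.mapRep hρ (Tors.smoothSet χ hX)).isLC₁_apply h).sub (isLC₁_const h)))
  refine ⟨fun g x => -(phi χ a g - d0 (mapRep ρ (Tors χ)) h g) ⟨x, 0⟩, ?_, ?_⟩
  · exact hlc.comp (fun (f : Tors χ → A) (x : X) => -f ⟨x, 0⟩)
  · funext q x
    have h3 := d1_phi χ ha q ⟨x, 0⟩
    have h4 := congrFun (congrFun (d1_d0 (mapRep ρ (Tors χ)) h) q) ⟨x, 0⟩
    have h5 := h2 q.2 (q.1⁻¹ • ⟨x, 0⟩)
    simp only [d1_apply, Pi.add_apply, Pi.sub_apply, mapRep_apply, Pi.zero_apply, d0_apply,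
      map_neg, Tors.smul_pt, map_sub] at h3 h4 h5 ⊢
    have h6 := congrArg (ρ q.1) h5
    simp only [map_sub] at h6
    rw [← neg_eq_iff_eq_neg.mpr h3]
    rw [← sub_eq_zero]
    rw [← sub_eq_zero] at h6
    have h7 : ∀ u v w : A, v = 0 → w = 0 → u = v + w → u = 0 := by
      intro u v w hv hw h; rw [h, hv, hw, add_zero]
    refine h7 _ _ _ h4 h6 ?_
    abel

include hX in
/-- A 2-cocycle with values in `X → A` which becomes trivial on the torsor is of the form
`ε a` up to a coboundary. -/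
theorem exists_eA (hY : H90 L ρ (Tors χ)) (hρ : Smooth L ρ)
    {c : G × G → X → A} {z : G → Tors χ → A} (hz : IsLC₁ L z)
    (hc : ∀ q y, c q y.pt = d1 (mapRep ρ (Tors χ)) z q y) :
    ∃ a ∈ H0 (mapRep ρ X), ∃ w : G → X → A, IsLC₁ L w ∧ c = eA χ a + d1 (mapRep ρ X) w := by
  have hj : (fun g => Tors.D χ (z g)) ∈ Z1 (mapRep ρ (Tors χ)) L := by
    refine ⟨LinearMap.mem_ker.mpr (funext fun q => funext fun y => ?_), ?_⟩
    · have h1 := hc q y
      have h2 := hc q (Tors.R χ y)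
      rw [Tors.R_pt, h1] at h2
      simp only [d1_apply, Pi.add_apply, Pi.sub_apply, mapRep_apply, Tors.D_apply, map_sub,
        Pi.zero_apply, Tors.R_smul] at h2 ⊢
      rw [← sub_eq_zero] at h2
      rw [← neg_eq_zero, ← h2]
      abel
    · exact hz.comp (Tors.D χ)
  obtain ⟨f, hf⟩ := hY _ hj
  have ha : push ℤ (Tors.pt (χ := χ)) f ∈ H0 (mapRep ρ X) := by
    rw [mem_H0]
    intro g
    rw [← push_equiv ρ (fun g y => Tors.smul_pt χ g y), ← sub_eq_zero, ← map_sub, ← d0_apply,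
      ← hf g, push_D]
  set a := push ℤ (Tors.pt (χ := χ)) f with ha'
  obtain ⟨h, hh⟩ := Tors.exists_D_eq χ (f := f - f0 χ a) (by
    intro x
    rw [← Tors.push_pt (k := ℤ), map_sub, push_f0, ← ha', sub_self]; rfl)
  have h1 : ∀ g, Tors.D χ (z g - d0 (mapRep ρ (Tors χ)) h g - phi χ a g) = 0 := by
    intro g
    rw [map_sub, map_sub, D_phi χ ha g, hf g, d0_apply, d0_apply, d0_apply, map_sub,
      Tors.D_equiv, hh, map_sub]
    abel
  have h2 := fun g => Tors.exists_of_D_eq_zero χ (h1 g)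
  have hlc : IsLC₁ L (fun g => z g - d0 (mapRep ρ (Tors χ)) h g - phi χ a g) :=
    (hz.sub
      ((((Smooth.mapRep hρ (Tors.smoothSet χ hX)).isLC₁_apply h).sub (isLC₁_const h)))).sub
      (phi_isLC χ a)
  refine ⟨-a, neg_mem ha, fun g x => (z g - d0 (mapRep ρ (Tors χ)) h g - phi χ a g) ⟨x, 0⟩,
    hlc.comp (fun (f : Tors χ → A) (x : X) => f ⟨x, 0⟩), ?_⟩
  funext q x
  have h3 := d1_phi χ ha q ⟨x, 0⟩
  have h4 := congrFun (congrFun (d1_d0 (mapRep ρ (Tors χ)) h) q) ⟨x, 0⟩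
  have h5 := h2 q.2 (q.1⁻¹ • ⟨x, 0⟩)
  have h8 := hc q ⟨x, 0⟩
  have h9 : eA χ (-a) q x = - eA χ a q x := by simp [eA]
  rw [Pi.add_apply, Pi.add_apply, h9]
  simp only [d1_apply, Pi.add_apply, Pi.sub_apply, mapRep_apply, Pi.zero_apply, d0_apply,
    Tors.smul_pt, map_sub] at h3 h4 h5 h8 ⊢
  have h6 := congrArg (ρ q.1) h5
  simp only [map_sub] at h6
  rw [h8, ← h3]
  rw [← sub_eq_zero]
  rw [← sub_eq_zero] at h6
  have h7 : ∀ u v w : A, v = 0 → w = 0 → u = v + w → u = 0 := by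
    intro u v w hv hw h; rw [h, hv, hw, add_zero]
  refine h7 _ _ _ h4 h6 ?_
  abel

end EA

end Fermat.Agent.CFT.LD
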