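import Fermat.Agent.CFT.LD.Beta

/-!
# The line of symbols; `H²` of oriented transitive sets is one-dimensional
-/

set_option autoImplicit false
set_option linter.unusedSectionVars false

namespace Fermat.Agent.CFT.LD

open Fermat.Agent.CFT.LC Module
open Fermat.Agent.CFT.PT (mu mu_apply)

section LinAlg

variable {K V W : Type*} [Field K] [AddCommGroup V] [Module K V] [AddCommGroup W] [Module K W]

theorem eq_of_mem_lines {W₁ W₂ : Submodule K V} (h1 : finrank K W₁ = 1) (h2 : finrank K W₂ = 1)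
    {v : V} (hv : v ≠ 0) (hv1 : v ∈ W₁) (hv2 : v ∈ W₂) : W₁ = W₂ := by
  have key : ∀ W : Submodule K V, finrank K W = 1 → v ∈ W → W = Submodule.span K {v} := by
    intro W h hvW
    apply le_antisymm
    · intro w hw
      have h3 : (⟨v, hvW⟩ : W) ≠ 0 := fun h => hv (congrArg Subtype.val h)
      obtain ⟨c, hc⟩ := (finrank_eq_one_iff_of_nonzero' _ h3).mp h ⟨w, hw⟩
      rw [Submodule.mem_span_singleton]
      exact ⟨c, congrArg Subtype.val hc⟩
    · rw [Submodule.span_singleton_le_iff_mem]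
      exact hvW
  rw [key W₁ h1 hv1, key W₂ h2 hv2]

theorem exists_smul_of_line {W₁ : Submodule K V} (h1 : finrank K W₁ = 1) {v w : V} (hv : v ≠ 0)
    (hv1 : v ∈ W₁) (hw : w ∈ W₁) : ∃ c : K, c • v = w := by
  have h3 : (⟨v, hv1⟩ : W₁) ≠ 0 := fun h => hv (congrArg Subtype.val h)
  obtain ⟨c, hc⟩ := (finrank_eq_one_iff_of_nonzero' _ h3).mp h1 ⟨w, hw⟩
  exact ⟨c, congrArg Subtype.val hc⟩

theorem exists_notMem_union {K₁ K₂ : Submodule K V} (h1 : K₁ ≠ ⊤) (h2 : K₂ ≠ ⊤) :
    ∃ v, v ∉ K₁ ∧ v ∉ K₂ := by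
  obtain ⟨u, hu⟩ : ∃ u, u ∉ K₁ := by
    by_contra h
    push Not at h
    exact h1 (eq_top_iff.mpr fun x _ => h x)
  obtain ⟨v, hv⟩ : ∃ v, v ∉ K₂ := by
    by_contra h
    push Not at h
    exact h2 (eq_top_iff.mpr fun x _ => h x)
  by_cases hu2 : u ∈ K₂
  · by_cases hv1 : v ∈ K₁
    · refine ⟨u + v, fun h => hu ?_, fun h => hv ?_⟩
      · exact (Submodule.add_mem_iff_left _ hv1).mp h
      · exact (Submodule.add_mem_iff_right _ hu2).mp h
    · exact ⟨v, hv1, hv⟩
  · exact ⟨u, hu, hu2⟩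

/-- Two maps with the same one-dimensional range and nested kernels are proportional. -/
theorem exists_smul_eq_of_ker_le {f g : V →ₗ[K] W} (h1 : finrank K (LinearMap.range f) = 1)
    (h2 : LinearMap.range g ≤ LinearMap.range f) (h3 : LinearMap.ker f ≤ LinearMap.ker g) :
    ∃ c : K, g = c • f := by
  obtain ⟨v, hv⟩ : ∃ v, f v ≠ 0 := by
    by_contra h
    push Not at h
    have : f = 0 := LinearMap.ext h
    rw [this, LinearMap.range_zero, finrank_bot] at h1
    exact zero_ne_one h1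
  obtain ⟨c, hc⟩ := exists_smul_of_line h1 hv ⟨v, rfl⟩ (h2 ⟨v, rfl⟩)
  refine ⟨c, LinearMap.ext fun w => ?_⟩
  obtain ⟨a, ha⟩ := exists_smul_of_line h1 hv ⟨v, rfl⟩ ⟨w, rfl⟩
  have h4 : w - a • v ∈ LinearMap.ker f := by
    rw [LinearMap.mem_ker, map_sub, map_smul, ha, sub_self]
  have h5 := h3 h4
  rw [LinearMap.mem_ker, map_sub, map_smul, sub_eq_zero] at h5
  rw [h5, ← hc, LinearMap.smul_apply, ← ha, smul_comm]

end LinAlg

variable {p : ℕ} [hp : Fact p.Prime] {G : Type} [Group G] {L : Lvl G}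
variable {A : Type} [AddCommGroup A] {ρ : Representation ℤ G A} {χ₀ : G →* (ZMod p)ˣ} {δ : ℕ}

section One

variable {X : Type} [MulAction G X]
variable (F : Form p L ρ χ₀ δ) [Finite X] [Nonempty X] [MulAction.IsPretransitive G X]
  (hX : SmoothSet L X) {θ : X → (ZMod p)ˣ} (hθ : IsOri χ₀ θ)

theorem Form.finrank_range (c : H1 (FX p G X) L) (hc : c ≠ 0) :
    finrank (ZMod p) (LinearMap.range (beta F.smooth_mu hX c)) = 1 := by
  obtain ⟨χ, rfl⟩ := H1.mk_surjective c
  exact F.finrank_range_beta hX hc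

theorem Form.beta_ne_zero {c : H1 (FX p G X) L} (hc : c ≠ 0) : beta F.smooth_mu hX c ≠ 0 := by
  intro h
  have := F.finrank_range hX c hc
  rw [h, LinearMap.range_zero, finrank_bot] at this
  exact zero_ne_one this

theorem Form.ker_beta_ne_top {c : H1 (FX p G X) L} (hc : c ≠ 0) :
    LinearMap.ker (beta F.smooth_mu hX c) ≠ ⊤ := by
  intro h
  exact F.beta_ne_zero hX hc (LinearMap.ker_eq_top.mp h)

include hθ in
theorem Form.range_aux {c d : H1 (FX p G X) L} (hc : c ≠ 0)
    (h : beta F.smooth_mu hX c ((thetaIso hθ L).H1 d) ≠ 0) :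
    LinearMap.range (beta F.smooth_mu hX c) = LinearMap.range (beta F.smooth_mu hX d) := by
  have hd : d ≠ 0 := by
    rintro rfl
    rw [map_zero, map_zero] at h
    exact h rfl
  refine eq_of_mem_lines (F.finrank_range hX c hc) (F.finrank_range hX d hd) h ⟨_, rfl⟩ ?_
  rw [beta_antisymm hθ]
  exact neg_mem ⟨_, rfl⟩

include hθ in
theorem Form.range_eq {c c' : H1 (FX p G X) L} (hc : c ≠ 0) (hc' : c' ≠ 0) :
    LinearMap.range (beta F.smooth_mu hX c) = LinearMap.range (beta F.smooth_mu hX c') := by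
  obtain ⟨d, hd, hd'⟩ := exists_notMem_union (F.ker_beta_ne_top hX hc) (F.ker_beta_ne_top hX hc')
  obtain ⟨e, rfl⟩ := (thetaIso hθ L).H1.surjective d
  rw [LinearMap.mem_ker] at hd hd'
  rw [F.range_aux hX hθ hc hd, F.range_aux hX hθ hc' hd']

/-- the line of symbols -/
noncomputable def Form.line : Submodule (ZMod p) (H2 (MX χ₀ X) L) :=
  ⨆ c, LinearMap.range (beta F.smooth_mu hX c)

theorem Form.mem_line (c : H1 (FX p G X) L) (d : H1 (MX χ₀ X) L) :
    beta F.smooth_mu hX c d ∈ F.line hX :=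
  Submodule.mem_iSup_of_mem c ⟨d, rfl⟩

include hθ in
theorem Form.line_eq {c : H1 (FX p G X) L} (hc : c ≠ 0) :
    F.line hX = LinearMap.range (beta F.smooth_mu hX c) := by
  apply le_antisymm
  · refine iSup_le fun c' => ?_
    by_cases hc' : c' = 0
    · rw [hc', map_zero, LinearMap.range_zero]
      exact bot_le
    · rw [F.range_eq hX hθ hc hc']
  · exact le_iSup (fun c => LinearMap.range (beta F.smooth_mu hX c)) c

include F hX hθ in
theorem Form.finrank_H1_FX :
    FiniteDimensional (ZMod p) (H1 (FX p G X) L) ∧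
      finrank (ZMod p) (H1 (FX p G X) L) = 2 + δ * Nat.card X := by
  obtain ⟨x₀⟩ := (inferInstance : Nonempty X)
  obtain ⟨h1, h2⟩ := Form.finrank_H1 x₀ (hθ.le_ker x₀) F hX
  refine ⟨Module.Finite.equiv (thetaIso hθ L).H1.symm, ?_⟩
  rw [(thetaIso hθ L).H1.finrank_eq, h2]

include F hX hθ in
theorem Form.exists_notMem_span (c : H1 (FX p G X) L) :
    ∃ e : H1 (FX p G X) L, e ∉ Submodule.span (ZMod p) {c} := by
  obtain ⟨h1, h2⟩ := F.finrank_H1_FX hX hθ
  by_contra h
  push Not at h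
  have h3 : Submodule.span (ZMod p) {c} = ⊤ := eq_top_iff.mpr fun x _ => h x
  have h4 := finrank_span_le_card (R := ZMod p) ({c} : Set (H1 (FX p G X) L))
  rw [h3, finrank_top, h2] at h4
  simp at h4
  omega

include F hX hθ in
theorem Form.exists_ne_zero : ∃ c : H1 (FX p G X) L, c ≠ 0 := by
  obtain ⟨e, he⟩ := F.exists_notMem_span hX hθ 0
  exact ⟨e, fun h => he (by rw [h]; exact zero_mem _)⟩

include hθ in
theorem Form.finrank_line : finrank (ZMod p) (F.line hX) = 1 := by
  obtain ⟨c, hc⟩ := F.exists_ne_zero hX hθ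
  rw [F.line_eq hX hθ hc]
  exact F.finrank_range hX c hc

include hθ in
/-- nondegeneracy on the right -/
theorem Form.right_nondeg {d : H1 (MX χ₀ X) L} (h : ∀ c, beta F.smooth_mu hX c d = 0) :
    d = 0 := by
  obtain ⟨e, rfl⟩ := (thetaIso hθ L).H1.surjective d
  by_contra hd
  have he : e ≠ 0 := by
    rintro rfl
    exact hd (map_zero _)
  apply F.beta_ne_zero hX he
  refine LinearMap.ext fun d' => ?_
  obtain ⟨c, rfl⟩ := (thetaIso hθ L).H1.surjective d'
  rw [beta_antisymm hθ, h c, neg_zero, LinearMap.zero_apply]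

/-- nondegeneracy on the left -/
theorem Form.left_nondeg {c : H1 (FX p G X) L} (h : ∀ d, beta F.smooth_mu hX c d = 0) :
    c = 0 := by
  by_contra hc
  exact F.beta_ne_zero hX hc (LinearMap.ext h)

section Tor

variable {χ : Z1 (FX p G X) L} (hχ : H1.mk (FX p G X) L χ ≠ 0)

include hθ hχ in
/-- There is a class on the torsor which is a symbol and has nonzero push forward. -/
theorem Form.exists_push_ne_zero :
    ∃ t ∈ F.line (Tors.smoothSet χ hX),
      (pushM (mu χ₀) L (Tors.pt (χ := χ)) (pt_equiv χ)).H2 t ≠ 0 := by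
  have := isPretransitive_tors hχ
  set c := H1.mk (FX p G X) L χ with hc
  obtain ⟨e, he⟩ := F.exists_notMem_span hX hθ c
  by_contra hcon
  push Not at hcon
  have he0 : e ≠ 0 := by
    rintro rfl
    exact he (zero_mem _)
  have h1 : ∀ d', beta F.smooth_mu hX e
      ((pushM (mu χ₀) L (Tors.pt (χ := χ)) (pt_equiv χ)).H1 d') = 0 := by
    intro d'
    rw [← push_beta F.smooth_mu hX (Tors.smoothSet χ hX)]
    exact hcon _ (F.mem_line _ _ _)
  have h2 : LinearMap.ker (beta F.smooth_mu hX c) ≤ LinearMap.ker (beta F.smooth_mu hX e) := by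
    intro d hd
    obtain ⟨a, rfl⟩ := F.kum_surjective hX d
    rw [LinearMap.mem_ker, hc, F.beta_kum_iff hX hχ] at hd
    obtain ⟨b, hb, hb'⟩ := hd
    rw [LinearMap.mem_ker, ← F.push_kum hX (Tors.smoothSet χ hX) Tors.pt (pt_equiv χ)
      ⟨b, hb⟩ a hb']
    exact h1 _
  obtain ⟨s, hs⟩ := exists_smul_eq_of_ker_le (F.finrank_range hX c hχ)
    (F.range_eq hX hθ he0 hχ).le h2
  have h3 : e - s • c = 0 := by
    apply F.left_nondeg hX
    intro d
    rw [map_sub, map_smul, hs, sub_self, LinearMap.zero_apply]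
  apply he
  rw [sub_eq_zero] at h3
  rw [h3]
  exact Submodule.smul_mem _ _ (Submodule.mem_span_singleton_self c)

include hθ hχ in
/-- Push forward is injective on the line of the torsor. -/
theorem Form.push_injective_line {t : H2 (MX χ₀ (Tors χ)) L}
    (ht : t ∈ F.line (Tors.smoothSet χ hX))
    (h : (pushM (mu χ₀) L (Tors.pt (χ := χ)) (pt_equiv χ)).H2 t = 0) : t = 0 := by
  have := isPretransitive_tors hχ
  obtain ⟨t₁, h1, h2⟩ := F.exists_push_ne_zero hX hθ hχ
  have h3 : t₁ ≠ 0 := by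
    rintro rfl
    exact h2 (map_zero _)
  obtain ⟨s, hs⟩ := exists_smul_of_line (F.finrank_line (Tors.smoothSet χ hX)
    (hθ.comp (pt_equiv χ))) h3 h1 ht
  rw [← hs, map_smul, smul_eq_zero] at h
  rcases h with h | h
  · rw [← hs, h, zero_smul]
  · exact absurd h h2

theorem nsmul_p_eq_zero {V : Type*} [AddCommGroup V] [Module (ZMod p) V] (v : V) : p • v = 0 := by
  rw [← Nat.cast_smul_eq_nsmul (ZMod p), ZMod.natCast_self, zero_smul]

include hθ hχ in
/-- If a class becomes a symbol on the torsor, it is a symbol. -/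
theorem Form.mem_line_of_pull {t : H2 (MX χ₀ X) L}
    (ht : (pullM (mu χ₀) L (Tors.pt (χ := χ)) (pt_equiv χ)).H2 t ∈
      F.line (Tors.smoothSet χ hX)) : t ∈ F.line hX := by
  have h1 : (pullM (mu χ₀) L (Tors.pt (χ := χ)) (pt_equiv χ)).H2 t = 0 := by
    apply F.push_injective_line hX hθ hχ ht
    rw [push_pull_H2 _ _ p (Tors.card_fib χ), nsmul_p_eq_zero]
  obtain ⟨d, hd⟩ := F.exists_beta hX hχ t h1
  rw [hd]
  exact F.mem_line hX _ _

end Tor

end One

end Fermat.Agent.CFT.LD
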