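import Fermat.Agent.CFT.LD.Form

/-!
# Restriction of a `p`-class formation to an open subgroup
-/

set_option autoImplicit false
set_option linter.unusedSectionVars false

namespace Fermat.Agent.CFT.LD

open Fermat.Agent.CFT.LC Module
open Fermat.Agent.CFT.PT (mu mu_apply mu_comp)

section Sub

variable {G : Type} [Group G] {A : Type} [AddCommGroup A] (ρ : Representation ℤ G A)

theorem invs_map {U : Subgroup G} (V : Subgroup U) :
    invs ρ (V.map U.subtype) = invs (ρ.comp U.subtype) V := by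
  ext a
  rw [mem_invs, mem_invs]
  constructor
  · intro h u hu
    exact h u ⟨u, hu, rfl⟩
  · rintro h _ ⟨u, hu, rfl⟩
    exact h u hu

theorem nrm_comp {U : Subgroup G} (p : ℕ) (s : U) :
    nrm (ρ.comp U.subtype) p s = nrm ρ p (s : G) := by
  ext a
  rw [nrm_apply, nrm_apply]
  rfl

theorem isOpen_map {L : Lvl G} {U : Subgroup G} (hU : L.IsOpen U) {V : Subgroup U}
    (hV : (L.restrict U).IsOpen V) : L.IsOpen (V.map U.subtype) := by
  obtain ⟨_, ⟨N, hN, rfl⟩, h⟩ := hV
  obtain ⟨N', hN', h'⟩ := hU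
  obtain ⟨W, hW, h1, h2⟩ := L.directed N hN N' hN'
  refine ⟨W, hW, fun g hg => ⟨⟨g, h' (h2 hg)⟩, h ?_, rfl⟩⟩
  exact h1 hg

end Sub

variable {p : ℕ} [hp : Fact p.Prime] {G : Type} [Group G] {L : Lvl G} {A : Type}
  [AddCommGroup A] {ρ : Representation ℤ G A} {χ₀ : G →* (ZMod p)ˣ} {δ : ℕ}

/-- Restriction of a formation to an open subgroup. -/
def Form.restrict (F : Form p L ρ χ₀ δ) {U : Subgroup G} (hU : L.IsOpen U) :
    Form p (L.restrict U) (ρ.comp U.subtype) (χ₀.comp U.subtype) (δ * U.index) where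
  μ :=
    { j := F.μ.j
      comm := fun g m => by
        have := F.μ.comm g m
        rw [← mu_comp]
        exact this
      inj := F.μ.inj
      surj := F.μ.surj }
  smooth := F.smooth.comp (L.cont_comap _)
  smooth_mu := by
    rw [← mu_comp]
    exact F.smooth_mu.comp (L.cont_comap _)
  div := F.div
  h90 := by
    intro V hV f hf
    set W := V.map U.subtype with hW
    let e : ↥V ≃* ↥W := V.equivMapOfInjective U.subtype U.subtype_injective
    have he : ∀ v : ↥V, ((e v : ↥W) : G) = ((v : ↥U) : G) := fun v => rfl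
    have he' : ∀ w : ↥W, (((e.symm w : ↥V) : ↥U) : G) = (w : G) := by
      intro w
      rw [← he, MulEquiv.apply_symm_apply]
    rw [mem_Z1] at hf
    have h1 : (f ∘ e.symm) ∈ Z1 (ρ.comp W.subtype) (L.restrict W) := by
      rw [mem_Z1]
      refine ⟨fun x y => ?_, ?_⟩
      · simp only [Function.comp_apply, map_mul, hf.1]
        congr 1
        show ρ (((e.symm x : ↥V) : ↥U) : G) _ = ρ (x : G) _
        rw [he']
      · obtain ⟨_, ⟨_, ⟨N, hN, rfl⟩, rfl⟩, h⟩ := hf.2
        refine ⟨_, ⟨N, hN, rfl⟩, fun g s hs => ?_⟩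
        simp only [Function.comp_apply, map_mul]
        apply h
        show (((e.symm s : ↥V) : ↥U) : G) ∈ N
        rw [he']
        exact hs
    obtain ⟨a, ha⟩ := F.h90 W (isOpen_map hU hV) _ h1
    refine ⟨a, fun u => ?_⟩
    have := ha (e u)
    simp only [Function.comp_apply, MulEquiv.symm_apply_apply] at this
    rw [this]
    rfl
  card := by
    intro V hV hVχ
    rw [← invs_map, F.card _ (isOpen_map hU hV), Subgroup.index_map_subtype]
    · congr 2
      ring
    · rintro _ ⟨v, hv, rfl⟩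
      exact hVχ hv
  norm := by
    intro V W hW hWV hn hidx s hs hs'
    rw [← invs_map, ← invs_map, nrm_comp]
    refine F.norm _ _ (isOpen_map hU hW) (Subgroup.map_mono hWV) ?_ ?_ s ⟨s, hs, rfl⟩ ?_
    · refine ⟨?_⟩
      rintro ⟨_, ⟨n, hn1, rfl⟩⟩ hn2 ⟨_, ⟨g, hg, rfl⟩⟩
      obtain ⟨n', hn', h1⟩ := hn2
      have h2 : n' = n := U.subtype_injective h1
      subst h2
      have h3 := hn.conj_mem ⟨n', hn1⟩ hn' ⟨g, hg⟩
      exact ⟨_, h3, rfl⟩
    · rw [Subgroup.relIndex_map_map_of_injective _ _ U.subtype_injective]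
      exact hidx
    · rintro ⟨s', hs1, h1⟩
      have h2 : s' = s := U.subtype_injective h1
      subst h2
      exact hs' hs1

end Fermat.Agent.CFT.LD
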