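import Fermat.Agent.CFT.LD.Dual3
import Fermat.Agent.CFT.LD.Restrict

/-!
# The local duality package of a `p`-class formation
-/

set_option autoImplicit false
set_option linter.unusedSectionVars false

namespace Fermat.Agent.CFT.LD

open Fermat.Agent.CFT.LC Module
open Fermat.Agent.CFT.PT (mu mu_apply dtw dtw_apply_apply evp evp_isPairing ContChar smooth_dtw
  Unip pair20 pair11 mu_comp)

variable {p : ℕ} [hp : Fact p.Prime] {G : Type} [Group G] {L : Lvl G}
variable {A : Type} [AddCommGroup A] {ρ : Representation ℤ G A} {χ₀ : G →* (ZMod p)ˣ} {δ : ℕ}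

theorem Form.contChar (F : Form p L ρ χ₀ δ) : ContChar L χ₀ := isOpen_ker_χ F

section Ev

variable {V : Type} [AddCommGroup V] [Module (ZMod p) V] [FiniteDimensional (ZMod p) V]

/-- the evaluation pairing between a representation and its twisted dual -/
noncomputable def evPair {σ : Representation (ZMod p) G V} (hσ : Smooth L σ)
    (hχ : ContChar L χ₀) : PPair L χ₀ V (Module.Dual (ZMod p) V) where
  ρV := σ
  ρW := dtw σ χ₀
  smV := hσ
  smW := smooth_dtw hσ hχ
  B := evp (ZMod p) V
  pair := evp_isPairing σ χ₀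
  left v h := (Module.forall_dual_apply_eq_zero_iff (ZMod p) v).mp h
  right _ h := LinearMap.ext h

end Ev

section Exact

variable {A₁ B₁ C₁ : Type} [AddCommGroup A₁] [Module (ZMod p) A₁] [AddCommGroup B₁]
  [Module (ZMod p) B₁] [AddCommGroup C₁] [Module (ZMod p) C₁]
  [FiniteDimensional (ZMod p) B₁]
  {ρA : Representation (ZMod p) G A₁} {ρB : Representation (ZMod p) G B₁}
  {ρC : Representation (ZMod p) G C₁}

/-- `H²` is right exact. -/
theorem Form.right_exact (F : Form p L ρ χ₀ δ) (hne : ∃ t : LC.H2 (mu χ₀) L, t ≠ 0)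
    (s : SES L ρA ρB ρC) : Function.Surjective s.mq.H2 := by
  have hC : FiniteDimensional (ZMod p) C₁ := Module.Finite.of_surjective s.q s.surj
  obtain ⟨inv⟩ := F.exists_inv hne
  set PB := evPair s.smooth F.contChar with hPB
  set PC := evPair s.smoothC F.contChar with hPC
  by_contra hns
  have h1 : LinearMap.range s.mq.H2 < ⊤ := by
    rw [lt_top_iff_ne_top]
    intro h
    exact hns (LinearMap.range_eq_top.mp h)
  obtain ⟨l, hl, hl'⟩ := Submodule.exists_le_ker_of_lt_top _ h1
  obtain ⟨w, hw⟩ := surj_of_nondeg (M := LC.H0 (dtw ρC χ₀)) (N := LC.H2 ρC L)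
    ((cup20 PC.pair L).compr₂ inv.toLinearMap).flip (fun w hw => by
      refine F.inj0 hne PC.flip w fun z => inv.injective ?_
      rw [map_zero]
      exact hw z) (fun z hz => by
      refine F.inj2 hne PC z fun w => inv.injective ?_
      rw [map_zero]
      exact hz w) l
  have hq : ∀ g (f : Module.Dual (ZMod p) C₁), s.q.dualMap (dtw ρC χ₀ g f) =
      dtw ρB χ₀ g (s.q.dualMap f) := by
    intro g f
    refine LinearMap.ext fun b => ?_
    rw [LinearMap.dualMap_apply, dtw_apply_apply, dtw_apply_apply, LinearMap.dualMap_apply,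
      s.q_comm]
  have h2 : (Mor.coeff L s.q.dualMap hq : Mor (dtw ρC χ₀) L (dtw ρB χ₀) L).H0 w = 0 := by
    refine F.inj0 hne PB.flip _ fun z => inv.injective ?_
    rw [map_zero]
    have h3 := hl' (show s.mq.H2 z ∈ LinearMap.range s.mq.H2 from ⟨z, rfl⟩)
    rw [LinearMap.mem_ker, ← hw] at h3
    refine Eq.trans ?_ h3
    show inv (cup20 PB.pair L z ((Mor.coeff L s.q.dualMap hq).H0 w)) =
      inv (cup20 PC.pair L ((Mor.coeff L s.q s.q_comm).H2 z) w)
    exact congrArg inv (cup20_adj (A := B₁) (B := C₁) (A' := Module.Dual (ZMod p) B₁)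
      (B' := Module.Dual (ZMod p) C₁) PB.pair PC.pair s.q_comm hq (fun a b' => rfl) z w).symm
  have h3 : w = 0 := by
    apply Subtype.ext
    have h4 : s.q.dualMap w.1 = 0 := congrArg Subtype.val h2
    refine LinearMap.ext fun c => ?_
    obtain ⟨b, rfl⟩ := s.surj c
    exact LinearMap.congr_fun h4 b
  apply hl
  refine LinearMap.ext fun z => ?_
  have h5 : l z = inv (cup20 PC.pair L z w) := (hw z).symm
  rw [h5, h3]
  exact (congrArg inv (map_zero (cup20 PC.pair L z))).trans (map_zero inv)

/-- additivity of the Euler characteristic -/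
theorem Form.additive (F : Form p L ρ χ₀ δ) (hne : ∃ t : LC.H2 (mu χ₀) L, t ≠ 0)
    (s : SES L ρA ρB ρC) :
    finrank (ZMod p) (LC.H0 ρB) + finrank (ZMod p) (LC.H1 ρA L) +
      finrank (ZMod p) (LC.H1 ρC L) + finrank (ZMod p) (LC.H2 ρB L) =
    finrank (ZMod p) (LC.H1 ρB L) + finrank (ZMod p) (LC.H0 ρA) +
      finrank (ZMod p) (LC.H0 ρC) + finrank (ZMod p) (LC.H2 ρA L) +
      finrank (ZMod p) (LC.H2 ρC L) := by
  have hC : FiniteDimensional (ZMod p) C₁ := Module.Finite.of_surjective s.q s.surj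
  have hA : FiniteDimensional (ZMod p) A₁ := FiniteDimensional.of_injective s.i s.inj
  have f1A := F.fin1 hne (evPair s.smoothA F.contChar)
  have f1B := F.fin1 hne (evPair s.smooth F.contChar)
  have f1C := F.fin1 hne (evPair s.smoothC F.contChar)
  have f2A := F.fin2 hne (evPair s.smoothA F.contChar)
  have f2B := F.fin2 hne (evPair s.smooth F.contChar)
  have f2C := F.fin2 hne (evPair s.smoothC F.contChar)
  change FiniteDimensional (ZMod p) (LC.H1 ρA L) at f1A
  change FiniteDimensional (ZMod p) (LC.H1 ρB L) at f1B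
  change FiniteDimensional (ZMod p) (LC.H1 ρC L) at f1C
  change FiniteDimensional (ZMod p) (LC.H2 ρA L) at f2A
  change FiniteDimensional (ZMod p) (LC.H2 ρB L) at f2B
  change FiniteDimensional (ZMod p) (LC.H2 ρC L) at f2C
  have e1 := finrank_eq_of_exact s.exact_H0
  have e2 := finrank_eq_of_exact s.exact_H0_δ0
  have e3 := finrank_eq_of_exact s.exact_δ0_H1
  have e4 := finrank_eq_of_exact s.exact_H1
  have e5 := finrank_eq_of_exact s.exact_H1_δ1
  have e6 := finrank_eq_of_exact s.exact_δ1_H2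
  have e7 := finrank_eq_of_exact s.exact_H2
  have e0 := LinearMap.finrank_range_of_inj s.H0_injective
  have e8 : finrank (ZMod p) (LinearMap.range s.mq.H2) = finrank (ZMod p) (LC.H2 ρC L) := by
    rw [LinearMap.range_eq_top.mpr (F.right_exact hne s), finrank_top]
  omega

end Exact

section Euler

theorem Form.exists_ne_of_trivial (F : Form p L ρ χ₀ δ) (hχ : ∀ g, χ₀ g = 1) :
    ∃ t : LC.H2 (mu χ₀) L, t ≠ 0 := by
  have hθ : IsOri (X := PUnit.{1}) χ₀ (fun _ => 1) := fun g x => by rw [hχ]; simp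
  have h1 := F.finrank_H2 (smoothSet_punit L) hθ
  have h2 : Nontrivial (LC.H2 (MX χ₀ PUnit.{1}) L) := by
    apply Module.nontrivial_of_finrank_pos (R := ZMod p)
    rw [h1]; exact one_pos
  obtain ⟨t, ht⟩ := exists_ne (0 : LC.H2 (MX χ₀ PUnit.{1}) L)
  refine ⟨(evIso (mu χ₀) L).H2 t, ?_⟩
  rw [Ne, LinearEquiv.map_eq_zero_iff]
  exact ht

/-- dimensions for the trivial module -/
theorem Form.trivial_dims (F : Form p L ρ χ₀ δ) (hχ : ∀ g, χ₀ g = 1) :
    finrank (ZMod p) (LC.H0 (tr p G)) = 1 ∧ finrank (ZMod p) (LC.H1 (tr p G) L) = 2 + δ ∧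
      finrank (ZMod p) (LC.H2 (tr p G) L) = 1 := by
  have hθ : IsOri (X := PUnit.{1}) χ₀ (fun _ => 1) := fun g x => by rw [hχ]; simp
  refine ⟨?_, ?_, ?_⟩
  · have h1 : LC.H0 (tr p G) = ⊤ := by
      rw [eq_top_iff]
      intro v _
      rw [mem_H0]
      intro g
      rfl
    rw [h1, finrank_top, finrank_self]
  · have h1 := (F.finrank_H1_FX (smoothSet_punit L) hθ).2
    rw [← (evIso (tr p G) L).H1.finrank_eq]
    simpa using h1
  · have h1 := F.finrank_H2 (smoothSet_punit L) hθ
    rw [← (evIso (tr p G) L).H2.finrank_eq, ← h1]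
    exact (thetaIso hθ L).H2.finrank_eq

variable {V : Type} [AddCommGroup V] [Module (ZMod p) V]

/-- The line spanned by an invariant vector. -/
theorem span_stable (σ : Representation (ZMod p) G V) {v : V} (hv : ∀ g, σ g v = v) (g : G)
    (w : V) (hw : w ∈ Submodule.span (ZMod p) {v}) : σ g w ∈ Submodule.span (ZMod p) {v} := by
  rw [Submodule.mem_span_singleton] at hw ⊢
  obtain ⟨c, rfl⟩ := hw
  exact ⟨c, by rw [map_smul, hv]⟩

/-- the line spanned by an invariant vector is the trivial module -/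
noncomputable def spanIso (L : Lvl G) (σ : Representation (ZMod p) G V) {v : V} (hv0 : v ≠ 0)
    (hv : ∀ g, σ g v = v) :
    MorIso (tr p G) L (subRep σ (Submodule.span (ZMod p) {v}) (span_stable σ hv)) L :=
  MorIso.coeff L (LinearEquiv.toSpanNonzeroSingleton (ZMod p) V v hv0) (by
    intro g c
    apply Subtype.ext
    rw [coe_subRep_apply]
    show c • v = σ g (c • v)
    rw [map_smul, hv])

/-- the tautological exact sequence -/
noncomputable def spanSES (σ : Representation (ZMod p) G V) (hσ : Smooth L σ)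
    (S : Submodule (ZMod p) V) (hS : ∀ g, ∀ v ∈ S, σ g v ∈ S) :
    SES L (subRep σ S hS) σ (quotRep σ S hS) where
  i := S.subtype
  q := S.mkQ
  i_comm _ _ := rfl
  q_comm _ _ := rfl
  inj := Subtype.val_injective
  surj := S.mkQ_surjective
  exact b hb := by
    rw [Submodule.mkQ_apply, Submodule.Quotient.mk_eq_zero] at hb
    exact ⟨⟨b, hb⟩, rfl⟩
  q_i a := by
    rw [Submodule.mkQ_apply, Submodule.Quotient.mk_eq_zero]
    exact a.2
  smooth := hσ

theorem unip_quotRep {σ : Representation (ZMod p) G V} (h : Unip σ) (S : Submodule (ZMod p) V)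
    (hS : ∀ g, ∀ v ∈ S, σ g v ∈ S) : Unip (quotRep σ S hS) := by
  intro W hW hne
  obtain ⟨v, hv, hv'⟩ := h (W.comap S.mkQ) (fun g w hw => hW g _ hw) (by
    intro h1
    apply hne
    rw [eq_top_iff]
    intro x _
    obtain ⟨x, rfl⟩ := S.mkQ_surjective x
    have : x ∈ W.comap S.mkQ := by rw [h1]; trivial
    exact this)
  exact ⟨S.mkQ v, hv, fun g => hv' g⟩

/-- The Euler characteristic formula for unipotent representations. -/
theorem Form.euler_unip (F : Form p L ρ χ₀ δ) (hχ : ∀ g, χ₀ g = 1) :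
    ∀ (n : ℕ) (V : Type) [AddCommGroup V] [Module (ZMod p) V] [FiniteDimensional (ZMod p) V]
      (σ : Representation (ZMod p) G V), Smooth L σ → Unip σ → finrank (ZMod p) V = n →
      finrank (ZMod p) (LC.H1 σ L) =
        finrank (ZMod p) (LC.H0 σ) + finrank (ZMod p) (LC.H2 σ L) + δ * n := by
  intro n
  induction n with
  | zero =>
    intro V _ _ _ σ hσ hu hn
    have hsub : Subsingleton V := finrank_zero_iff.mp hn
    have h1 : finrank (ZMod p) (LC.H1 σ L) = 0 := by
      have : Subsingleton (G → V) := inferInstance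
      have : Subsingleton (LC.H1 σ L) := ⟨fun x y => by
        obtain ⟨x, rfl⟩ := H1.mk_surjective x
        obtain ⟨y, rfl⟩ := H1.mk_surjective y
        congr 1
        exact Subtype.ext (Subsingleton.elim _ _)⟩
      exact finrank_zero_of_subsingleton
    have h2 : finrank (ZMod p) (LC.H2 σ L) = 0 := by
      have : Subsingleton (G × G → V) := inferInstance
      have : Subsingleton (LC.H2 σ L) := ⟨fun x y => by
        obtain ⟨x, rfl⟩ := H2.mk_surjective x
        obtain ⟨y, rfl⟩ := H2.mk_surjective y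
        congr 1
        exact Subtype.ext (Subsingleton.elim _ _)⟩
      exact finrank_zero_of_subsingleton
    have h0 : finrank (ZMod p) (LC.H0 σ) = 0 := finrank_zero_of_subsingleton
    rw [h0, h1, h2]
    simp
  | succ n ih =>
    intro V _ _ _ σ hσ hu hn
    have hne := F.exists_ne_of_trivial hχ
    obtain ⟨v, hv0, hv⟩ := hu ⊥ (fun g w hw => by
      rw [Submodule.mem_bot] at hw ⊢
      rw [hw, map_zero]) (by
        intro h
        have := finrank_top (ZMod p) V
        rw [← h, finrank_bot, hn] at this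
        omega)
    simp only [Submodule.mem_bot, sub_eq_zero] at hv0 hv
    set S := Submodule.span (ZMod p) {v} with hS
    have hfS : finrank (ZMod p) S = 1 := finrank_span_singleton hv0
    have hfQ : finrank (ZMod p) (V ⧸ S) = n := by
      have := Submodule.finrank_quotient_add_finrank S
      omega
    have h1 := ih (V ⧸ S) (quotRep σ S (span_stable σ hv)) (Smooth.quotRep hσ)
      (unip_quotRep hu S _) hfQ
    have h2 := F.additive hne (spanSES σ hσ S (span_stable σ hv))
    obtain ⟨t0, t1, t2⟩ := F.trivial_dims hχ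
    have e0 := (spanIso L σ hv0 hv).H0.finrank_eq
    have e1 := (spanIso L σ hv0 hv).H1.finrank_eq
    have e2 := (spanIso L σ hv0 hv).H2.finrank_eq
    rw [t0] at e0
    rw [t1] at e1
    rw [t2] at e2
    rw [← e0, ← e1, ← e2] at h2
    rw [mul_add, mul_one]
    omega

end Euler

/-- **Local duality package** -/
noncomputable def Form.localDuality (F : Form p L ρ χ₀ δ)
    (inv : LC.H2 (mu χ₀) L ≃ₗ[ZMod p] ZMod p) : PT.LocalDuality L χ₀ δ where
  inv := inv.toLinearMap
  cont := F.contChar
  fin1 := fun {V} _ _ _ σ hσ => F.fin1 ⟨inv.symm 1, by simp⟩ (evPair hσ F.contChar)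
  fin2 := fun {V} _ _ _ σ hσ => F.fin2 ⟨inv.symm 1, by simp⟩ (evPair hσ F.contChar)
  bij := fun {V} _ _ _ σ hσ => by
    have hne : ∃ t : LC.H2 (mu χ₀) L, t ≠ 0 := ⟨inv.symm 1, by simp⟩
    set P := evPair hσ F.contChar
    have h0 : ∀ w : LC.H0 (dtw σ χ₀), (∀ z, (pair20 χ₀ inv.toLinearMap σ).flip w z = 0) →
        w = 0 := by
      intro w hw
      refine F.inj0 hne P.flip w fun z => inv.injective ?_
      rw [map_zero]
      exact hw z
    have h2 : ∀ z : LC.H2 σ L, (∀ w, (pair20 χ₀ inv.toLinearMap σ).flip w z = 0) → z = 0 := by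
      intro z hz
      refine F.inj2 hne P z fun w => inv.injective ?_
      rw [map_zero]
      exact hz w
    constructor
    · rw [injective_iff_map_eq_zero]
      intro w hw
      exact h0 w fun z => LinearMap.congr_fun hw z
    · intro l
      obtain ⟨w, hw⟩ := surj_of_nondeg (M := LC.H0 (dtw σ χ₀)) (N := LC.H2 σ L)
        (pair20 χ₀ inv.toLinearMap σ).flip h0 h2 l
      exact ⟨w, LinearMap.ext hw⟩
  left := fun {V} _ _ _ σ hσ h' x hx => by
    have hne : ∃ t : LC.H2 (mu χ₀) L, t ≠ 0 := ⟨inv.symm 1, by simp⟩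
    refine F.inj1 hne (evPair hσ F.contChar) x fun y => inv.injective ?_
    rw [map_zero]
    exact hx y
  right := fun {V} _ _ _ σ hσ h' y hy => by
    have hne : ∃ t : LC.H2 (mu χ₀) L, t ≠ 0 := ⟨inv.symm 1, by simp⟩
    refine PPair.Inj1.flip' (P := evPair hσ F.contChar) (F.inj1 hne _) y fun x =>
      inv.injective ?_
    rw [map_zero]
    exact hy x
  euler := by
    intro U hU hUχ V _ _ _ σ hσ hu
    exact (F.restrict hU).euler_unip (fun g => hUχ g.2) _ V σ hσ hu rfl

end Fermat.Agent.CFT.LD
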