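import Mathlib
import Fermat.Agent.CFT.LC.Basic
import Fermat.Agent.CFT.LC.Cup
import Fermat.Agent.CFT.LD.MapRep
import Fermat.Agent.CFT.LD.Torsor
import Fermat.Agent.CFT.LD.Kummer

/-!
# Kummer classes and symbols

`M` is a `G`-module (over `ZMod p`) which is equivariantly identified with the `p`-torsion of
the `G`-module `A` (structure `MuMod`).  All statements are for the coefficient modules `X → M`,
`X → A` with `X` a finite `G`-set (take `X = PUnit` for `G` itself, or `X = Unit`).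
-/

set_option autoImplicit false

namespace Fermat.Agent.CFT.LD

open Fermat.Agent.CFT.LC

variable {p : ℕ} [hp : Fact p.Prime] {G : Type*} [Group G] {X : Type*} [MulAction G X] {L : Lvl G}
  {A : Type*} [AddCommGroup A] {ρ : Representation ℤ G A}
  {M : Type*} [AddCommGroup M] [Module (ZMod p) M] {ρM : Representation (ZMod p) G M}

/-- An equivariant identification of the `ZMod p`-module `M` with the `p`-torsion of `A`. -/
structure MuMod (ρ : Representation ℤ G A) (ρM : Representation (ZMod p) G M) where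
  /-- the embedding -/
  j : M →+ A
  comm : ∀ g m, j (ρM g m) = ρ g (j m)
  inj : Function.Injective j
  surj : ∀ a, p • a = 0 → ∃ m, j m = a

namespace MuMod

variable (μ : MuMod ρ ρM)

theorem p_smul_j (m : M) : p • μ.j m = 0 := by
  rw [← map_nsmul, ← Nat.cast_smul_eq_nsmul (ZMod p), ZMod.natCast_self, zero_smul, map_zero]

open Classical in
/-- a left inverse of `j` -/
noncomputable def uj (a : A) : M := if h : ∃ c, μ.j c = a then h.choose else 0

theorem j_uj {a : A} (ha : p • a = 0) : μ.j (μ.uj a) = a := by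
  have h := μ.surj a ha
  rw [uj, dif_pos h]
  exact h.choose_spec

theorem j_smul (c : ZMod p) (m : M) : μ.j (c • m) = (c.val : ℤ) • μ.j m := by
  rw [← map_zsmul]
  congr 1
  rw [← Int.cast_smul_eq_zsmul (ZMod p)]
  congr 1
  simp

end MuMod

/-- Kummer relation: `ψ` is the Kummer class of `p • F`. -/
def IsKum (μ : MuMod ρ ρM) (ψ : G → X → M) (F : X → A) : Prop :=
  ∀ g x, μ.j (ψ g x) = ρ g (F (g⁻¹ • x)) - F x

variable {μ : MuMod ρ ρM}

theorem IsKum.smul_mem_H0 {ψ : G → X → M} {F : X → A}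
    (h : IsKum μ ψ F) : p • F ∈ H0 (mapRep ρ X) := by
  rw [mem_H0]
  intro g
  funext x
  have h1 := congrArg (p • ·) (h g x)
  simp only [μ.p_smul_j, smul_sub, ← map_nsmul] at h1
  rw [mapRep_apply, Pi.smul_apply, Pi.smul_apply]
  exact (sub_eq_zero.mp h1.symm)

theorem IsKum.add {ψ ψ' : G → X → M} {F F' : X → A}
    (h : IsKum μ ψ F) (h' : IsKum μ ψ' F') : IsKum μ (ψ + ψ') (F + F') := by
  intro g x
  simp only [Pi.add_apply, map_add, h g x, h' g x]
  abel

theorem IsKum.neg {ψ : G → X → M} {F : X → A}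
    (h : IsKum μ ψ F) : IsKum μ (-ψ) (-F) := by
  intro g x
  simp only [Pi.neg_apply, map_neg, h g x]
  abel

theorem exists_isKum (μ : MuMod ρ ρM) (hX : H90 L ρ X) (ψ : Z1 (mapRep ρM X) L) :
    ∃ F, IsKum μ ψ.1 F := by
  have h1 : (fun g x => μ.j (ψ.1 g x)) ∈ Z1 (mapRep ρ X) L := by
    rw [mem_Z1]
    refine ⟨fun g h => funext fun x => ?_, ?_⟩
    · simp only [((mem_Z1 _ _).mp ψ.2).1, map_add, Pi.add_apply, mapRep_apply, μ.comm]
    · exact ((mem_Z1 _ _).mp ψ.2).2.comp (fun (f : X → M) x => μ.j (f x))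
  obtain ⟨F, hF⟩ := hX _ h1
  exact ⟨F, fun g x => congrFun (hF g) x⟩

/-- Existence of the Kummer class of an invariant `a`. -/
theorem exists_kum [Finite X] (μ : MuMod ρ ρM) (hρ : Smooth L ρ) (hXs : SmoothSet L X)
    (hdiv : ∀ a : A, ∃ b, p • b = a) {a : X → A} (ha : a ∈ H0 (mapRep ρ X)) :
    ∃ (ψ : Z1 (mapRep ρM X) L) (F : X → A), IsKum μ ψ.1 F ∧ p • F = a := by
  choose d hd using hdiv
  set F : X → A := fun x => d (a x) with hF
  have hpF : p • F = a := funext fun x => hd _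
  have h0 : ∀ g x, p • (ρ g (F (g⁻¹ • x)) - F x) = 0 := by
    intro g x
    have h1 := congrFun ((mem_H0 _).mp ha g) x
    rw [mapRep_apply] at h1
    rw [smul_sub, ← map_nsmul, hd, hd, h1, sub_self]
  refine ⟨⟨fun g x => μ.uj (ρ g (F (g⁻¹ • x)) - F x), ?_⟩, F, ?_, hpF⟩
  · rw [mem_Z1]
    refine ⟨fun g h => funext fun x => ?_, ?_⟩
    · apply μ.inj
      simp only [Pi.add_apply, mapRep_apply, map_add, μ.comm]
      rw [μ.j_uj (h0 _ _), μ.j_uj (h0 _ _), μ.j_uj (h0 _ _)]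
      simp only [map_sub, map_mul, Module.End.mul_apply, mul_inv_rev, mul_smul]
      abel
    · have h1 : IsLC₁ L (fun g => mapRep ρ X g F - F) :=
        (((Smooth.mapRep hρ hXs).isLC₁_apply F).sub (isLC₁_const F))
      exact h1.comp (fun (f : X → A) x => μ.uj (f x))
  · intro g x
    exact μ.j_uj (h0 g x)

/-- If the Kummer class of `p • F` is trivial, then `p • F = p • b` with `b` invariant. -/
theorem IsKum.of_coboundary {ψ : G → X → M} {F : X → A}
    (h : IsKum μ ψ F) (v : X → M) (hv : ∀ g x, ψ g x = ρM g (v (g⁻¹ • x)) - v x) :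
    ∃ b ∈ H0 (mapRep ρ X), p • b = p • F := by
  refine ⟨fun x => F x - μ.j (v x), ?_, ?_⟩
  · rw [mem_H0]
    intro g
    funext x
    have h1 := h g x
    rw [hv, map_sub, μ.comm] at h1
    rw [mapRep_apply, map_sub, ← sub_eq_zero]
    rw [← sub_eq_zero] at h1
    rw [← neg_eq_zero, ← h1]
    abel
  · funext x
    simp [smul_sub, μ.p_smul_j]

theorem IsKum.to_coboundary {ψ : G → X → M} {F : X → A}
    (h : IsKum μ ψ F) {b : X → A} (hb : b ∈ H0 (mapRep ρ X)) (hbF : p • b = p • F) :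
    ∃ v : X → M, ∀ g x, ψ g x = ρM g (v (g⁻¹ • x)) - v x := by
  have h0 : ∀ x, p • (F x - b x) = 0 := fun x => by
    have := congrFun hbF x
    simp only [Pi.smul_apply] at this
    rw [smul_sub, this, sub_self]
  refine ⟨fun x => μ.uj (F x - b x), fun g x => μ.inj ?_⟩
  have h1 := congrFun ((mem_H0 _).mp hb g) x
  rw [mapRep_apply] at h1
  rw [map_sub, μ.comm, μ.j_uj (h0 _), μ.j_uj (h0 _), h g x, map_sub, h1]
  abel

/-- Injectivity of `H²(X → M) → H²(X → A)`. -/
theorem coboundary_of_emb [Finite X] (μ : MuMod ρ ρM) (hρ : Smooth L ρ) (hXs : SmoothSet L X)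
    (hX : H90 L ρ X) (hdiv : ∀ a : A, ∃ b, p • b = a) {c : G × G → X → M}
    {W : G → X → A} (hW : IsLC₁ L W)
    (hc : ∀ q x, μ.j (c q x) = d1 (mapRep ρ X) W q x) :
    ∃ v : G → X → M, IsLC₁ L v ∧ d1 (mapRep ρM X) v = c := by
  have h1 : (fun g => p • W g) ∈ Z1 (mapRep ρ X) L := by
    refine ⟨LinearMap.mem_ker.mpr (funext fun q => funext fun x => ?_), hW.comp (p • ·)⟩
    have := congrArg (p • ·) (hc q x)
    simp only [μ.p_smul_j, d1_apply, Pi.add_apply, Pi.sub_apply, mapRep_apply, smul_add,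
      smul_sub, ← map_nsmul] at this
    simp only [d1_apply, Pi.add_apply, Pi.sub_apply, mapRep_apply, Pi.smul_apply, Pi.zero_apply]
    exact this.symm
  obtain ⟨b, hb⟩ := hX _ h1
  choose d hd using hdiv
  have h2 : ∀ g x, p • (W g x - (ρ g (d (b (g⁻¹ • x))) - d (b x))) = 0 := by
    intro g x
    have := congrFun (hb g) x
    simp only [Pi.smul_apply, d0_apply, Pi.sub_apply, mapRep_apply] at this
    rw [smul_sub, smul_sub, ← map_nsmul, hd, hd, this, sub_self]
  refine ⟨fun g x => μ.uj (W g x - (ρ g (d (b (g⁻¹ • x))) - d (b x))), ?_, ?_⟩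
  · have h3 : IsLC₁ L (fun g => W g - (mapRep ρ X g (fun x => d (b x)) - fun x => d (b x))) :=
      hW.sub ((((Smooth.mapRep hρ hXs).isLC₁_apply _).sub (isLC₁_const _)))
    exact h3.comp (fun (f : X → A) x => μ.uj (f x))
  · funext q x
    apply μ.inj
    rw [hc]
    simp only [d1_apply, Pi.add_apply, Pi.sub_apply, map_add, map_sub, mapRep_apply, μ.comm]
    rw [μ.j_uj (h2 _ _), μ.j_uj (h2 _ _), μ.j_uj (h2 _ _)]
    simp only [map_sub, map_mul, Module.End.mul_apply, mul_inv_rev, mul_smul]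
    abel

/-- `χ ∪ κ(p F) + d (χ̃ · F) = ε · (p F)` with values in `A`. -/
theorem j_smul_eq (χ : Z1 (FX p G X) L) {ψ : G → X → M} {F : X → A}
    (h : IsKum μ ψ F) (q : G × G) (x : X) :
    μ.j (χ.1 q.1 x • ρM q.1 (ψ q.2 (q.1⁻¹ • x))) +
      d1 (mapRep ρ X) (fun g x => ((χ.1 g x).val : ℤ) • ρ g (F (g⁻¹ • x))) q x =
      eA χ (p • F) q x := by
  have h2 : μ.j (ρM q.1 (ψ q.2 (q.1⁻¹ • x))) =
      ρ q.1 (ρ q.2 (F (q.2⁻¹ • q.1⁻¹ • x))) - ρ q.1 (F (q.1⁻¹ • x)) := by
    rw [μ.comm, h, map_sub]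
  have h3 : (p • F) x = ρ q.1 (ρ q.2 (p • F (q.2⁻¹ • q.1⁻¹ • x))) := by
    have := congrFun ((mem_H0 _).mp h.smul_mem_H0 (q.1 * q.2)) x
    rw [mapRep_apply] at this
    rw [← this, mul_inv_rev, mul_smul, map_mul, Module.End.mul_apply]; rfl
  rw [μ.j_smul, h2, eA, h3]
  simp only [d1_apply, Pi.add_apply, Pi.sub_apply, mapRep_apply, map_mul, Module.End.mul_apply,
    mul_inv_rev, mul_smul, map_zsmul, map_nsmul]
  rw [← natCast_zsmul, smul_smul (eps χ q x) (p : ℤ), mul_comm, eps_spec]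
  rw [sub_smul, add_smul, smul_sub]
  abel

/-- the scalar multiplication pairing `ZMod p × M → M` -/
def smulB (p : ℕ) (M : Type*) [AddCommGroup M] [Module (ZMod p) M] :
    ZMod p →ₗ[ZMod p] M →ₗ[ZMod p] M := LinearMap.lsmul (ZMod p) M

@[simp] theorem smulB_apply (a : ZMod p) (b : M) : smulB p M a b = a • b := rfl

theorem isPairing_smulB (ρM : Representation (ZMod p) G M) :
    IsPairing (tr p G) ρM ρM (smulB p M) := fun g a m => by
  rw [tr_apply, smulB_apply, smulB_apply, map_smul]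

theorem IsPairing.mapRep {k : Type*} [CommRing k] {V W P : Type*} [AddCommGroup V] [Module k V]
    [AddCommGroup W] [Module k W] [AddCommGroup P] [Module k P] {ρV : Representation k G V}
    {ρW : Representation k G W} {ρP : Representation k G P} {B : V →ₗ[k] W →ₗ[k] P}
    (hB : IsPairing ρV ρW ρP B) (X : Type*) [MulAction G X] :
    IsPairing (LD.mapRep ρV X) (LD.mapRep ρW X) (LD.mapRep ρP X) (mapPair B X) :=
  fun g f f' => funext fun x => hB g _ _

/-- the pairing on functions -/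
theorem isPairing_FX (ρM : Representation (ZMod p) G M) (X : Type*) [MulAction G X] :
    IsPairing (FX p G X) (mapRep ρM X) (mapRep ρM X) (mapPair (smulB p M) X) :=
  IsPairing.mapRep (isPairing_smulB ρM) X

/-- symbol cocycle -/
theorem cupC11_FX_apply (χ : G → X → ZMod p) (ψ : G → X → M) (q : G × G) (x : X) :
    cupC11 (mapRep ρM X) (mapPair (smulB p M) X) χ ψ q x =
      χ q.1 x • ρM q.1 (ψ q.2 (q.1⁻¹ • x)) := rfl

variable [Finite X] (hρ : Smooth L ρ) (hXs : SmoothSet L X) (hX : H90 L ρ X)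
  (hdiv : ∀ a : A, ∃ b, p • b = a)

theorem isLC_mul (hρ : Smooth L ρ) (hXs : SmoothSet L X) (χ : Z1 (FX p G X) L) (F : X → A) :
    IsLC₁ L (fun g x => ((χ.1 g x).val : ℤ) • ρ g (F (g⁻¹ • x))) :=
  (((mem_Z1 _ _).mp χ.2).2.prod ((Smooth.mapRep hρ hXs).isLC₁_apply F)).comp
    (fun (f : (X → ZMod p) × (X → A)) x => ((f.1 x).val : ℤ) • f.2 x)

include hρ hXs hX hdiv in
/-- The symbol `χ ∪ κ(a)` vanishes iff `a` is a norm from the torsor of `χ`. -/
theorem symbol_coboundary_iff (χ : Z1 (FX p G X) L) (hY : H90 L ρ (Tors χ))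
    {ψ : G → X → M} {F : X → A} (h : IsKum μ ψ F) :
    (∃ v : G → X → M, IsLC₁ L v ∧
      d1 (mapRep ρM X) v = cupC11 (mapRep ρM X) (mapPair (smulB p M) X) χ.1 ψ) ↔
    ∃ b ∈ H0 (mapRep ρ (Tors χ)), push ℤ (Tors.pt (χ := χ)) b = p • F := by
  constructor
  · rintro ⟨v, hv, hv'⟩
    refine norm_of_eA χ hY h.smul_mem_H0
      (y := (fun g x => μ.j (v g x)) +
        (fun g x => ((χ.1 g x).val : ℤ) • ρ g (F (g⁻¹ • x)))) ?_ ?_
    · exact (hv.comp (fun (f : X → M) x => μ.j (f x))).add (isLC_mul hρ hXs χ F)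
    · funext q x
      rw [← j_smul_eq χ h q x, map_add, Pi.add_apply, Pi.add_apply, ← cupC11_FX_apply, ← hv']
      congr 1
      simp only [d1_apply, Pi.add_apply, Pi.sub_apply, mapRep_apply, map_add, map_sub,
        μ.comm]
  · rintro ⟨b, hb, hb'⟩
    obtain ⟨y, hy, hy'⟩ := eA_of_norm χ hXs hρ hb h.smul_mem_H0 hb'
    refine coboundary_of_emb μ hρ hXs hX hdiv
      (W := y - (fun g x => ((χ.1 g x).val : ℤ) • ρ g (F (g⁻¹ • x))))
      (hy.sub (isLC_mul hρ hXs χ F)) fun q x => ?_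
    rw [map_sub, Pi.sub_apply, Pi.sub_apply, hy', ← j_smul_eq χ h q x, cupC11_FX_apply]
    abel

include hρ hXs hX hdiv in
/-- A class which dies on the torsor of `χ` is a symbol `χ ∪ ψ`. -/
theorem exists_symbol (μ : MuMod ρ ρM) (χ : Z1 (FX p G X) L) (hY : H90 L ρ (Tors χ))
    {c : G × G → X → M} {z : G → Tors χ → M} (hz : IsLC₁ L z)
    (hc : ∀ q y, c q y.pt = d1 (mapRep ρM (Tors χ)) z q y) :
    ∃ (ψ : Z1 (mapRep ρM X) L) (v : G → X → M), IsLC₁ L v ∧
      c = cupC11 (mapRep ρM X) (mapPair (smulB p M) X) χ.1 ψ.1 + d1 (mapRep ρM X) v := by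
  have hzA : IsLC₁ L (fun g (y : Tors χ) => μ.j (z g y)) :=
    hz.comp (fun (f : Tors χ → M) (y : Tors χ) => μ.j (f y))
  obtain ⟨a, ha, w, hw, h1⟩ := exists_eA χ hXs hY hρ (c := fun q x => μ.j (c q x)) hzA (by
    intro q y
    rw [hc]
    simp only [d1_apply, Pi.add_apply, Pi.sub_apply, mapRep_apply, map_add, map_sub,
      μ.comm])
  obtain ⟨ψ, F, hF, hFa⟩ := exists_kum μ hρ hXs hdiv ha
  obtain ⟨v, hv, hv'⟩ := coboundary_of_emb μ hρ hXs hX hdiv
    (c := c - cupC11 (mapRep ρM X) (mapPair (smulB p M) X) χ.1 ψ.1)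
    (W := w + (fun g x => ((χ.1 g x).val : ℤ) • ρ g (F (g⁻¹ • x))))
    (hw.add (isLC_mul hρ hXs χ F)) (by
      intro q x
      have h2 := j_smul_eq χ hF q x
      have h3 := congrFun (congrFun h1 q) x
      rw [Pi.add_apply, Pi.add_apply] at h3
      rw [Pi.sub_apply, Pi.sub_apply, map_sub, h3, map_add, Pi.add_apply, Pi.add_apply,
        cupC11_FX_apply, ← hFa, ← h2]
      abel)
  exact ⟨ψ, v, hv, by rw [hv']; abel⟩

end Fermat.Agent.CFT.LD
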