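import Fermat.Agent.CFT.LD.Form

/-!
# The torsor of a nontrivial class is transitive; norm index in terms of `G`-sets
-/

set_option autoImplicit false
set_option linter.unusedSectionVars false

namespace Fermat.Agent.CFT.LD

open Fermat.Agent.CFT.LC
open Fermat.Agent.CFT.PT (mu mu_apply)

variable {p : ℕ} [hp : Fact p.Prime] {G : Type} [Group G] {L : Lvl G}
variable {X : Type} [MulAction G X]

section Hom

variable (χ : Z1 (FX p G X) L) (x₀ : X)

/-- the character of the stabiliser attached to a cocycle -/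
def stabHom : ↥(MulAction.stabilizer G x₀) →* Multiplicative (ZMod p) where
  toFun u := Multiplicative.ofAdd (χ.1 u x₀)
  map_one' := by
    rw [OneMemClass.coe_one, coc_one]; rfl
  map_mul' u v := by
    have h1 : (u : G)⁻¹ • x₀ = x₀ := by
      rw [inv_smul_eq_iff]; exact (MulAction.mem_stabilizer_iff.mp u.2).symm
    rw [Subgroup.coe_mul, coc, h1, add_comm, ofAdd_add]

theorem stabHom_apply (u : ↥(MulAction.stabilizer G x₀)) :
    (stabHom χ x₀ u).toAdd = χ.1 u x₀ := rfl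

theorem mem_stabilizer_tors (y : Tors χ) (g : G) :
    g ∈ MulAction.stabilizer G y ↔ g • y.pt = y.pt ∧ χ.1 g y.pt = 0 := by
  rw [MulAction.mem_stabilizer_iff]
  constructor
  · intro h
    have h1 : g • y.pt = y.pt := by rw [← Tors.smul_pt, h]
    refine ⟨h1, ?_⟩
    have h2 := congrArg Tors.ix h
    rw [Tors.smul_ix, h1] at h2
    exact add_eq_left.mp h2
  · rintro ⟨h1, h2⟩
    ext
    · exact h1
    · rw [Tors.smul_ix, h1, h2, add_zero]

theorem pow_smul_tors {s : G} (hs : s • x₀ = x₀) (h1 : χ.1 s x₀ = 1) (n : ℕ) :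
    s ^ n • (⟨x₀, 0⟩ : Tors χ) = ⟨x₀, n⟩ := by
  induction n with
  | zero => simp
  | succ n ih =>
    rw [pow_succ', mul_smul, ih]
    ext
    · exact hs
    · rw [Tors.smul_ix]
      show (n : ZMod p) + χ.1 s (s • x₀) = _
      rw [hs, h1, Nat.cast_succ]

variable [MulAction.IsPretransitive G X]

variable {χ} in
/-- A nontrivial class gives a nontrivial character on the stabiliser. -/
theorem exists_stab_eq_one (hχ : H1.mk (FX p G X) L χ ≠ 0) :
    ∃ s : G, s • x₀ = x₀ ∧ χ.1 s x₀ = 1 := by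
  by_contra hcon
  apply hχ
  have h0 : ∀ u : G, u • x₀ = x₀ → χ.1 u x₀ = 0 := by
    intro u hu
    by_contra h1
    apply hcon
    set c := χ.1 u x₀ with hc
    refine ⟨u ^ (c⁻¹).val, ?_, ?_⟩
    · exact (MulAction.stabilizer G x₀).pow_mem (MulAction.mem_stabilizer_iff.mpr hu) _
    · have h2 := map_pow (stabHom χ x₀) ⟨u, MulAction.mem_stabilizer_iff.mpr hu⟩ (c⁻¹).val
      have h3 := congrArg Multiplicative.toAdd h2
      rw [stabHom_apply, toAdd_pow, stabHom_apply] at h3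
      rw [SubmonoidClass.coe_pow] at h3
      rw [h3]
      show (c⁻¹).val • c = 1
      rw [nsmul_eq_mul, ZMod.natCast_zmod_val, inv_mul_cancel₀ h1]
  rw [H1.mk_eq_zero_iff]
  exact coboundary_of_stab χ.2 x₀ 0 fun g hg => by rw [h0 g hg]; simp

variable {χ} in
theorem isPretransitive_tors [Nonempty X] (hχ : H1.mk (FX p G X) L χ ≠ 0) :
    MulAction.IsPretransitive G (Tors χ) := by
  obtain ⟨x₀⟩ := (inferInstance : Nonempty X)
  obtain ⟨s, hs, h1⟩ := exists_stab_eq_one x₀ hχ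
  have key : ∀ y : Tors χ, ∃ g : G, g • (⟨x₀, 0⟩ : Tors χ) = y := by
    intro y
    obtain ⟨g, hg⟩ := MulAction.exists_smul_eq G x₀ y.pt
    refine ⟨g * s ^ (y.ix - χ.1 g y.pt).val, ?_⟩
    rw [mul_smul, pow_smul_tors χ x₀ hs h1, ZMod.natCast_zmod_val]
    ext
    · exact hg
    · rw [Tors.smul_ix]
      show y.ix - χ.1 g y.pt + χ.1 g (g • x₀) = y.ix
      rw [hg, sub_add_cancel]
  refine ⟨fun y y' => ?_⟩
  obtain ⟨g, rfl⟩ := key y
  obtain ⟨g', rfl⟩ := key y'
  exact ⟨g' * g⁻¹, by rw [mul_smul, inv_smul_smul]⟩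

instance [Nonempty X] : Nonempty (Tors χ) := (inferInstance : Nonempty X).map fun x => ⟨x, 0⟩

end Hom

section Norm

variable {A : Type} [AddCommGroup A] {ρ : Representation ℤ G A} {χ₀ : G →* (ZMod p)ˣ} {δ : ℕ}
  (F : Form p L ρ χ₀ δ) [Finite X] [Nonempty X] [MulAction.IsPretransitive G X]
  (hX : SmoothSet L X)

theorem push_eval (χ : Z1 (FX p G X) L) {x₀ : X} {s : G} (hs : s • x₀ = x₀)
    (h1 : χ.1 s x₀ = 1) {b : Tors χ → A} (hb : b ∈ H0 (mapRep ρ (Tors χ))) :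
    push ℤ (Tors.pt (χ := χ)) b x₀ = nrm ρ p s (b ⟨x₀, 0⟩) := by
  rw [Tors.push_pt, nrm_apply, ← Tors.sum_range_eq (fun i => b ⟨x₀, i⟩)]
  refine Finset.sum_congr rfl fun i _ => ?_
  rw [← pow_smul_tors χ x₀ hs h1, mem_H0_mapRep.mp hb]

/-- the image of the norm in the invariants -/
noncomputable def normGrp (ρ : Representation ℤ G A) (χ : Z1 (FX p G X) L) :
    AddSubgroup ↥(H0 (mapRep ρ X)) where
  carrier := {a | ∃ b ∈ H0 (mapRep ρ (Tors χ)), push ℤ (Tors.pt (χ := χ)) b = a.1}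
  add_mem' := by
    rintro a a' ⟨b, hb, h⟩ ⟨b', hb', h'⟩
    exact ⟨b + b', add_mem hb hb', by rw [map_add, h, h']; rfl⟩
  zero_mem' := ⟨0, zero_mem _, by rw [map_zero]; rfl⟩
  neg_mem' := by
    rintro a ⟨b, hb, h⟩
    exact ⟨-b, neg_mem hb, by rw [map_neg, h]; rfl⟩

theorem mem_normGrp {χ : Z1 (FX p G X) L} {a : ↥(H0 (mapRep ρ X))} :
    a ∈ normGrp ρ χ ↔ ∃ b ∈ H0 (mapRep ρ (Tors χ)), push ℤ (Tors.pt (χ := χ)) b = a.1 :=
  Iff.rfl

include F hX in
theorem Form.normX {χ : Z1 (FX p G X) L} (hχ : H1.mk (FX p G X) L χ ≠ 0) :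
    (normGrp ρ χ).index = p := by
  obtain ⟨x₀⟩ := (inferInstance : Nonempty X)
  obtain ⟨s, hs, h1⟩ := exists_stab_eq_one x₀ hχ
  have := isPretransitive_tors hχ
  set y₀ : Tors χ := ⟨x₀, 0⟩ with hy₀
  have hYsm : SmoothSet L (Tors χ) := Tors.smoothSet χ hX
  set U := MulAction.stabilizer G x₀ with hU
  set V := MulAction.stabilizer G y₀ with hV
  have hVU : V ≤ U := fun g hg => ((mem_stabilizer_tors χ y₀ g).mp hg).1
  have hker : V.subgroupOf U = (stabHom χ x₀).ker := by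
    ext u
    rw [Subgroup.mem_subgroupOf, mem_stabilizer_tors, MonoidHom.mem_ker]
    exact ⟨fun h => h.2, fun h => ⟨u.2, h⟩⟩
  have hsurj : Function.Surjective (stabHom χ x₀) := by
    intro c
    refine ⟨⟨s, MulAction.mem_stabilizer_iff.mpr hs⟩ ^ (c.toAdd).val, ?_⟩
    rw [map_pow]
    apply Multiplicative.toAdd.injective
    rw [toAdd_pow, stabHom_apply]
    show _ • χ.1 s x₀ = _
    rw [h1, nsmul_eq_mul, mul_one, ZMod.natCast_zmod_val]
  have hidx : V.relIndex U = p := by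
    rw [Subgroup.relIndex, hker, Subgroup.index_ker, MonoidHom.range_eq_top.mpr hsurj]
    rw [Nat.card_congr (Subgroup.topEquiv (G := Multiplicative (ZMod p))).toEquiv]
    exact Nat.card_zmod p
  have hnorm : (V.subgroupOf U).Normal := by
    rw [hker]
    infer_instance
  have hsU : s ∈ U := MulAction.mem_stabilizer_iff.mpr hs
  have hsV : s ∉ V := by
    rw [mem_stabilizer_tors]
    rintro ⟨_, h2⟩
    exact one_ne_zero (h1.symm.trans h2)
  have h2 := F.norm U V (hYsm.isOpen_stabilizer y₀) hVU hnorm hidx s hsU hsV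
  refine Eq.trans ?_ h2
  rw [AddSubgroup.relIndex, ← AddSubgroup.index_comap_of_surjective _ (ev_surjective (ρ := ρ) x₀)]
  congr 1
  ext f
  rw [mem_normGrp, AddSubgroup.mem_comap, AddSubgroup.mem_addSubgroupOf, AddSubgroup.mem_map]
  constructor
  · rintro ⟨b, hb, hb'⟩
    refine ⟨b y₀, (ev ρ y₀ ⟨b, hb⟩).2, ?_⟩
    rw [← push_eval χ hs h1 hb, hb']
    rfl
  · rintro ⟨b, hb, hb'⟩
    obtain ⟨f', hf', h'⟩ := exists_H0_of_inv (ρ := ρ) y₀ b fun u hu => hb u hu
    refine ⟨f', hf', H0_ext ?_ f.2 x₀ ?_⟩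
    · rw [mem_H0]
      intro g
      rw [← push_equiv ρ (fun g y => Tors.smul_pt χ g y), (mem_H0 _).mp hf']
    · rw [push_eval χ hs h1 hf', ← hy₀, h', hb']
      rfl

end Norm

end Fermat.Agent.CFT.LD
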