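import Fermat.Agent.CFT.LC.FunRep
import Fermat.Agent.CFT.LC.Tools
import Fermat.Agent.CFT.LD.Symbol

/-!
# Transitive `G`-sets: Shapiro's lemma, invariants, pull back and push forward on cohomology
-/

set_option autoImplicit false

namespace Fermat.Agent.CFT.LD

open Fermat.Agent.CFT.LC

section Shapiro

variable {k : Type*} [CommRing k] {G : Type*} [Group G] {M : Type*} [AddCommGroup M] [Module k M]
  {L : Lvl G} {ρ : Representation k G M} {X : Type*} [MulAction G X]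

theorem mapRep_eq_funRep : mapRep ρ X = funRep (MulAction.toPermHom G X) ρ := rfl

theorem SmoothSet.isOpen_ker [Finite X] (h : SmoothSet L X) :
    L.IsOpen (MulAction.toPermHom G X).ker := by
  obtain ⟨N, hN, h1⟩ := h.exists_level
  exact ⟨N, hN, fun g hg => MonoidHom.mem_ker.mpr (Equiv.ext fun x => h1 g hg x)⟩

theorem SmoothSet.isOpen_stabilizer (h : SmoothSet L X) (x : X) :
    L.IsOpen (MulAction.stabilizer G x) := by
  obtain ⟨N, hN, h1⟩ := h x
  exact ⟨N, hN, fun g hg => h1 g hg⟩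

theorem mem_stab_toPermHom {x₀ : X} {g : G} :
    g ∈ stab (MulAction.toPermHom G X) x₀ ↔ g • x₀ = x₀ := Iff.rfl

theorem stab_toPermHom (x₀ : X) :
    stab (MulAction.toPermHom G X) x₀ = MulAction.stabilizer G x₀ := rfl

variable [MulAction.IsPretransitive G X]

theorem toPermHom_trans (x₀ : X) : ∀ x, ∃ g, MulAction.toPermHom G X g x₀ = x :=
  fun x => MulAction.exists_smul_eq G x₀ x

/-- the Shapiro morphism for `mapRep` -/
def shM (ρ : Representation k G M) (L : Lvl G) (x₀ : X) :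
    Mor (mapRep ρ X) L (ρ.comp (MulAction.stabilizer G x₀).subtype)
      (L.restrict (MulAction.stabilizer G x₀)) where
  f := (MulAction.stabilizer G x₀).subtype
  φ := LinearMap.proj x₀
  cont := L.cont_comap _
  comm h v := by
    have h1 : (h : G)⁻¹ • x₀ = x₀ := by
      rw [inv_smul_eq_iff]
      exact h.2.symm
    simp [h1]

omit [MulAction.IsPretransitive G X] in
@[simp] theorem shM_f (x₀ : X) : (shM ρ L x₀).f = (MulAction.stabilizer G x₀).subtype := rfl

omit [MulAction.IsPretransitive G X] in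
@[simp] theorem shM_φ (x₀ : X) (f : X → M) : (shM ρ L x₀).φ f = f x₀ := rfl

theorem shM_H1_injective (x₀ : X) : Function.Injective (shM ρ L x₀).H1 := by
  have h1 := shapiro_H1_injective (L := L) (ρ := ρ) (π := MulAction.toPermHom G X)
    (toPermHom_trans (G := G) x₀)
  intro x y hxy
  exact h1 hxy

theorem shM_H1_surjective [Finite X] (hX : SmoothSet L X) (x₀ : X) :
    Function.Surjective (shM ρ L x₀).H1 :=
  shapiro_H1_surjective (L := L) (ρ := ρ) hX.isOpen_ker (toPermHom_trans (G := G) x₀)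

theorem shM_H2_injective [Finite X] (hX : SmoothSet L X) (x₀ : X) :
    Function.Injective (shM ρ L x₀).H2 :=
  shapiro_H2_injective (L := L) (ρ := ρ) hX.isOpen_ker (toPermHom_trans (G := G) x₀)

theorem shM_H2_surjective [Finite X] (hX : SmoothSet L X) (x₀ : X) :
    Function.Surjective (shM ρ L x₀).H2 :=
  shapiro_H2_surjective (L := L) (ρ := ρ) hX.isOpen_ker (toPermHom_trans (G := G) x₀)

/-- A 1-cocycle with values in functions on a transitive set is a coboundary as soon as its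
value at a point is a coboundary on the stabiliser. -/
theorem coboundary_of_stab {f : G → X → M} (hf : f ∈ Z1 (mapRep ρ X) L) (x₀ : X) (a : M)
    (h : ∀ g : G, g • x₀ = x₀ → f g x₀ = ρ g a - a) :
    ∃ F : X → M, ∀ g, f g = mapRep ρ X g F - F := by
  have h2 : (shM ρ L x₀).H1 (H1.mk (mapRep ρ X) L ⟨f, hf⟩) = 0 := by
    rw [Mor.H1_mk, H1.mk_eq_zero_iff]
    exact ⟨a, fun g => h g g.2⟩
  have h3 : H1.mk (mapRep ρ X) L ⟨f, hf⟩ = 0 := by
    apply shM_H1_injective x₀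
    rw [h2, map_zero]
  rw [H1.mk_eq_zero_iff] at h3
  exact h3

/-- A class in `H²` of functions on a transitive set which dies on a subgroup containing
a stabiliser is zero. -/
theorem H2_eq_zero_of_res [Finite X] (hX : SmoothSet L X) (x₀ : X) (N : Subgroup G)
    (hN : ∀ g : G, g • x₀ = x₀ → g ∈ N) {t : H2 (mapRep ρ X) L}
    (ht : (Mor.resSub (mapRep ρ X) L N).H2 t = 0) : t = 0 := by
  apply shM_H2_injective hX x₀
  rw [map_zero]
  let m : Mor ((mapRep ρ X).comp N.subtype) (L.restrict N)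
      (ρ.comp (MulAction.stabilizer G x₀).subtype) (L.restrict (MulAction.stabilizer G x₀)) :=
    { f := Subgroup.inclusion (H := MulAction.stabilizer G x₀) (K := N) hN
      φ := LinearMap.proj x₀
      cont := by
        rintro _ ⟨W, hW, rfl⟩
        exact ⟨_, ⟨W, hW, rfl⟩, fun g hg => hg⟩
      comm := fun h v => (shM ρ L x₀).comm h v }
  have h2 : shM ρ L x₀ = m.comp (Mor.resSub (mapRep ρ X) L N) := by
    ext1
    · rfl
    · rfl
  rw [h2, Mor.H2_comp, ht, map_zero]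

theorem H0_ext {f f' : X → M} (hf : f ∈ H0 (mapRep ρ X)) (hf' : f' ∈ H0 (mapRep ρ X)) (x₀ : X)
    (h : f x₀ = f' x₀) : f = f' := by
  funext x
  obtain ⟨g, rfl⟩ := MulAction.exists_smul_eq G x₀ x
  rw [mem_H0_mapRep] at hf hf'
  rw [hf, hf', h]

theorem exists_H0_of_inv (x₀ : X) (a : M) (h : ∀ u : G, u • x₀ = x₀ → ρ u a = a) :
    ∃ f ∈ H0 (mapRep ρ X), f x₀ = a := by
  have h1 := fun x : X => MulAction.exists_smul_eq G x₀ x
  choose t ht using h1
  have key : ∀ g h : G, g • x₀ = h • x₀ → ρ g a = ρ h a := by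
    intro g g' hg
    have h2 := h (g⁻¹ * g') (by rw [mul_smul, ← hg, inv_smul_smul])
    have h3 : ρ g (ρ (g⁻¹ * g') a) = ρ g' a := by
      rw [← Module.End.mul_apply, ← map_mul, mul_inv_cancel_left]
    rw [← h3, h2]
  refine ⟨fun x => ρ (t x) a, ?_, ?_⟩
  · rw [mem_H0_mapRep]
    intro g x
    show ρ (t (g • x)) a = ρ g (ρ (t x) a)
    rw [← Module.End.mul_apply, ← map_mul]
    apply key
    rw [ht, mul_smul, ht]
  · show ρ (t x₀) a = a
    exact h _ (ht x₀)

end Shapiro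

section PP

variable {k : Type*} [CommRing k] {G : Type*} [Group G] {M : Type*} [AddCommGroup M] [Module k M]
  {L : Lvl G} {ρ : Representation k G M} {X Y Z : Type*} [MulAction G X] [MulAction G Y]
  [MulAction G Z]

/-- pull back as a morphism -/
def pullM (ρ : Representation k G M) (L : Lvl G) (φ : Y → X)
    (hφ : ∀ (g : G) y, φ (g • y) = g • φ y) : Mor (mapRep ρ X) L (mapRep ρ Y) L :=
  Mor.coeff L (pull k φ) (pull_equiv ρ hφ)

/-- push forward as a morphism -/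
noncomputable def pushM [Finite Y] (ρ : Representation k G M) (L : Lvl G) (φ : Y → X)
    (hφ : ∀ (g : G) y, φ (g • y) = g • φ y) : Mor (mapRep ρ Y) L (mapRep ρ X) L :=
  Mor.coeff L (push k φ) (push_equiv ρ hφ)

theorem push_pull_H1 [Finite Y] (φ : Y → X) (hφ : ∀ (g : G) y, φ (g • y) = g • φ y) (m : ℕ)
    (h : ∀ x, Nat.card {y // φ y = x} = m) (t : H1 (mapRep ρ X) L) :
    (pushM ρ L φ hφ).H1 ((pullM ρ L φ hφ).H1 t) = m • t := by
  obtain ⟨c, rfl⟩ := H1.mk_surjective t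
  rw [Mor.H1_mk, Mor.H1_mk, ← map_nsmul]
  congr 1
  ext g : 2
  exact push_pull_of_card (k := k) φ m h (c.1 g)

theorem push_pull_H2 [Finite Y] (φ : Y → X) (hφ : ∀ (g : G) y, φ (g • y) = g • φ y) (m : ℕ)
    (h : ∀ x, Nat.card {y // φ y = x} = m) (t : H2 (mapRep ρ X) L) :
    (pushM ρ L φ hφ).H2 ((pullM ρ L φ hφ).H2 t) = m • t := by
  obtain ⟨c, rfl⟩ := H2.mk_surjective t
  rw [Mor.H2_mk, Mor.H2_mk, ← map_nsmul]
  congr 1
  ext g : 2
  exact push_pull_of_card (k := k) φ m h (c.1 g)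

theorem push_push_H2 [Finite Y] [Finite Z] (φ : Y → X) (hφ : ∀ (g : G) y, φ (g • y) = g • φ y)
    (ψ : Z → Y) (hψ : ∀ (g : G) y, ψ (g • y) = g • ψ y)
    (hφψ : ∀ (g : G) y, (φ ∘ ψ) (g • y) = g • (φ ∘ ψ) y) (t : H2 (mapRep ρ Z) L) :
    (pushM ρ L φ hφ).H2 ((pushM ρ L ψ hψ).H2 t) = (pushM ρ L (φ ∘ ψ) hφψ).H2 t := by
  obtain ⟨c, rfl⟩ := H2.mk_surjective t
  rw [Mor.H2_mk, Mor.H2_mk, Mor.H2_mk]
  congr 1
  ext g : 2
  exact push_push (k := k) φ ψ (c.1 g)

theorem res_pull_H2 (N : Subgroup G) (φ : Y → X) (hφ : ∀ (g : G) y, φ (g • y) = g • φ y)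
    {t : H2 (mapRep ρ X) L} (ht : (Mor.resSub (mapRep ρ X) L N).H2 t = 0) :
    (Mor.resSub (mapRep ρ Y) L N).H2 ((pullM ρ L φ hφ).H2 t) = 0 := by
  rw [← Mor.H2_comp]
  let m : Mor ((mapRep ρ X).comp N.subtype) (L.restrict N)
      ((mapRep ρ Y).comp N.subtype) (L.restrict N) :=
    Mor.coeff _ (pull k φ) fun g v => pull_equiv ρ hφ g v
  have h2 : (Mor.resSub (mapRep ρ Y) L N).comp (pullM ρ L φ hφ) =
      m.comp (Mor.resSub (mapRep ρ X) L N) := by
    ext1
    · rfl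
    · rfl
  rw [h2, Mor.H2_comp, ht, map_zero]

/-- Every class dies on some level below a given open subgroup. -/
theorem exists_res_eq_zero (hρ : Smooth L ρ) (t : H2 ρ L) {U : Subgroup G} (hU : L.IsOpen U) :
    ∃ N ∈ L.levels, N ≤ U ∧ ∀ N', N' ≤ N → (Mor.resSub ρ L N').H2 t = 0 := by
  obtain ⟨c, rfl⟩ := H2.mk_surjective t
  obtain ⟨N, hN, h1⟩ := ((mem_Z2 _ _).mp c.2).2
  obtain ⟨N₁, hN₁, h2⟩ := hρ (c.1 (1, 1))
  obtain ⟨N₂, hN₂, h3⟩ := hU
  obtain ⟨W, hW, h4, h5⟩ := L.directed N hN N₁ hN₁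
  obtain ⟨W', hW', h6, h7⟩ := L.directed W hW N₂ hN₂
  refine ⟨W', hW', h7.trans h3, fun N' hN' => ?_⟩
  rw [Mor.H2_mk, H2.mk_eq_zero_iff]
  refine ⟨fun _ => c.1 (1, 1), isLC₁_const _, ?_⟩
  funext q
  show ρ (q.1 : G) (c.1 (1, 1)) - c.1 (1, 1) + c.1 (1, 1) = c.1 ((q.1 : G), (q.2 : G))
  rw [h2 _ (h5 (h6 (hN' q.1.2))), sub_self, zero_add]
  have := h1 1 1 (q.1 : G) (h4 (h6 (hN' q.1.2))) (q.2 : G) (h4 (h6 (hN' q.2.2)))
  rw [one_mul, one_mul] at this
  exact this.symm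

end PP

section Maps

variable {G : Type*} [Group G] {Y Z : Type*} [MulAction G Y] [MulAction G Z]

/-- Existence of equivariant maps from transitive sets. -/
theorem exists_equivariant [MulAction.IsPretransitive G Z] (z₀ : Z) (y₀ : Y)
    (h : ∀ g : G, g • z₀ = z₀ → g • y₀ = y₀) :
    ∃ φ : Z → Y, (∀ (g : G) z, φ (g • z) = g • φ z) ∧ φ z₀ = y₀ := by
  have h1 := fun z : Z => MulAction.exists_smul_eq G z₀ z
  choose t ht using h1
  have key : ∀ g g' : G, g • z₀ = g' • z₀ → g • y₀ = g' • y₀ := by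
    intro g g' hg
    have h2 := h (g⁻¹ * g') (by rw [mul_smul, ← hg, inv_smul_smul])
    rw [mul_smul, inv_smul_eq_iff] at h2
    exact h2.symm
  refine ⟨fun z => t z • y₀, fun g z => ?_, ?_⟩
  · rw [← mul_smul]
    apply key
    rw [ht, mul_smul, ht]
  · exact h _ (ht z₀)

theorem equivariant_ext [MulAction.IsPretransitive G Z] {φ ψ : Z → Y}
    (hφ : ∀ (g : G) z, φ (g • z) = g • φ z) (hψ : ∀ (g : G) z, ψ (g • z) = g • ψ z) (z₀ : Z)
    (h : φ z₀ = ψ z₀) : φ = ψ := by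
  funext z
  obtain ⟨g, rfl⟩ := MulAction.exists_smul_eq G z₀ z
  rw [hφ, hψ, h]

/-- All fibres of an equivariant map to a transitive set have the same cardinality. -/
theorem card_fib_eq [MulAction.IsPretransitive G Y] {φ : Z → Y}
    (hφ : ∀ (g : G) z, φ (g • z) = g • φ z) (y y' : Y) :
    Nat.card {z // φ z = y} = Nat.card {z // φ z = y'} := by
  obtain ⟨g, rfl⟩ := MulAction.exists_smul_eq G y y'
  refine Nat.card_congr ⟨fun z => ⟨g • z.1, by rw [hφ, z.2]⟩,
    fun z => ⟨g⁻¹ • z.1, by rw [hφ, z.2, inv_smul_smul]⟩, fun z => ?_, fun z => ?_⟩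
  · ext; simp
  · ext; simp

end Maps

end Fermat.Agent.CFT.LD
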